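import Fermat.Agent.S35.H253.NormRed2

/-!
# Approximation for finitely many pairwise incomparable valuation rings (helper253)

Mathlib only.  `V i` (`i : ι`, finite) valuation subrings of a field `F`, pairwise incomparable,
of ARBITRARY rank.

* `exists_multiplier` (Nagata's trick): for every `x : F` there is `u ∈ ⋂ V i` with
  `x * u ∈ ⋂ V i` and `u` a unit of every `V i` containing `x`;
* `exists_idem_multi` : `E ≡ 1` at `V i`, `E ≡ 0` at the other `V i'`;
* `exists_lift_multi` : every `b ∈ V i` is congruent modulo the maximal ideal of `V i` to an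
  element of `⋂ V i'`.
-/

set_option autoImplicit false
set_option linter.unusedSectionVars false

namespace Fermat.Agent.S36.H253

open scoped BigOperators
open Fermat.Agent.S35.H253

section Geom

variable {F : Type*} [Field F]

/-- The geometric sum `1 + x + ⋯ + x ^ (s - 1)`. -/
def gsum (x : F) (s : ℕ) : F := ∑ m ∈ Finset.range s, x ^ m

theorem gsum_zero (x : F) : gsum x 0 = 0 := by simp [gsum]

theorem gsum_succ (x : F) (s : ℕ) : gsum x (s + 1) = gsum x s + x ^ s := by
  simp [gsum, Finset.sum_range_succ]

theorem gsum_succ' (x : F) (s : ℕ) : gsum x (s + 1) = 1 + x * gsum x s := by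
  unfold gsum
  rw [Finset.sum_range_succ', pow_zero, Finset.mul_sum, add_comm]
  congr 1
  exact Finset.sum_congr rfl fun m _ => by rw [pow_succ']

theorem gsum_add (x : F) (a b : ℕ) : gsum x (a + b) = gsum x a + x ^ a * gsum x b := by
  unfold gsum
  rw [Finset.sum_range_add, Finset.mul_sum]
  congr 1
  exact Finset.sum_congr rfl fun m _ => by rw [pow_add]

theorem gsum_mem (V : ValuationSubring F) {x : F} (hx : x ∈ V) (s : ℕ) : gsum x s ∈ V :=
  sum_mem fun _ _ => pow_mem hx _

/-- If `x` lies in the maximal ideal, all geometric sums `gsum x (s + 1)` are units. -/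
theorem val_gsum_of_small (V : ValuationSubring F) {x : F} (hx : V.valuation x < 1) (s : ℕ) :
    V.valuation (gsum x (s + 1)) = 1 := by
  rw [gsum_succ']
  refine Valuation.map_one_add_of_lt _ ?_
  exact val_mul_lt_one_left V hx
    ((V.valuation_le_one_iff _).2 (gsum_mem V ((V.valuation_le_one_iff _).1 hx.le) s))

/-- If `x ∉ V`, the geometric sum `gsum x (s + 1)` has the valuation of `x ^ s`. -/
theorem val_gsum_of_big (V : ValuationSubring F) {x : F} (hx : 1 < V.valuation x) (s : ℕ) :
    V.valuation (gsum x (s + 1)) = V.valuation x ^ s := by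
  induction s with
  | zero => simp [gsum]
  | succ s ih =>
    rw [gsum_succ, add_comm]
    have hlt : V.valuation (gsum x (s + 1)) < V.valuation (x ^ (s + 1)) := by
      rw [ih, map_pow, pow_succ]
      have hpos : 0 < V.valuation x ^ s := pow_pos (lt_trans zero_lt_one hx) _
      calc V.valuation x ^ s = V.valuation x ^ s * 1 := (mul_one _).symm
        _ < V.valuation x ^ s * V.valuation x := by gcongr
    rw [Valuation.map_add_eq_of_lt_left _ hlt, map_pow]

/-- The bad exponents for a unit `x` of `V` are multiples of the smallest one. -/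
theorem exists_modulus (V : ValuationSubring F) {x : F} (hx : x ∈ V) :
    ∃ d : ℕ, 2 ≤ d ∧ ∀ s : ℕ, V.valuation (gsum x s) < 1 → d ∣ s := by
  classical
  by_cases hex : ∃ s : ℕ, 0 < s ∧ V.valuation (gsum x s) < 1
  · set d := Nat.find hex with hd
    have hdspec : 0 < d ∧ V.valuation (gsum x d) < 1 := Nat.find_spec hex
    have hdmin : ∀ s, s < d → ¬ (0 < s ∧ V.valuation (gsum x s) < 1) :=
      fun s hs => Nat.find_min hex hs
    have hxu : V.valuation x = 1 := by
      rcases lt_or_eq_of_le ((V.valuation_le_one_iff _).2 hx) with hlt | heq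
      · exfalso
        obtain ⟨d', hd'⟩ : ∃ d', d = d' + 1 := ⟨d - 1, by omega⟩
        have := val_gsum_of_small V hlt d'
        rw [← hd'] at this
        rw [this] at hdspec
        exact lt_irrefl _ hdspec.2
      · exact heq
    have hd2 : 2 ≤ d := by
      rcases Nat.lt_or_ge d 2 with hlt | hge
      · exfalso
        have hd1 : d = 1 := by omega
        have h1 := hdspec.2
        rw [hd1] at h1
        simp [gsum] at h1
      · exact hge
    -- multiples of `d` are bad
    have hmul : ∀ q : ℕ, V.valuation (gsum x (q * d)) < 1 := by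
      intro q
      induction q with
      | zero => rw [Nat.zero_mul, gsum_zero, map_zero]; exact zero_lt_one
      | succ q ih =>
        rw [Nat.succ_mul, gsum_add]
        refine Valuation.map_add_lt _ ih ?_
        exact val_mul_lt_one_right V ((V.valuation_le_one_iff _).2 (pow_mem hx _)) hdspec.2
    refine ⟨d, hd2, fun s hs => ?_⟩
    have hsdiv : s = (s / d) * d + s % d := by
      rw [Nat.mul_comm]; exact (Nat.div_add_mod s d).symm
    have hr : V.valuation (gsum x (s % d)) < 1 := by
      have h1 : gsum x s = gsum x ((s / d) * d) + x ^ ((s / d) * d) * gsum x (s % d) := by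
        conv_lhs => rw [hsdiv]
        exact gsum_add x _ _
      have h2 : x ^ ((s / d) * d) * gsum x (s % d) = gsum x s - gsum x ((s / d) * d) := by
        rw [h1]; ring
      have h3 : V.valuation (x ^ ((s / d) * d) * gsum x (s % d)) < 1 := by
        rw [h2]; exact Valuation.map_sub_lt _ hs (hmul _)
      rwa [map_mul, map_pow, hxu, one_pow, one_mul] at h3
    have hr0 : s % d = 0 := by
      by_contra hne
      exact hdmin (s % d) (Nat.mod_lt _ hdspec.1) ⟨Nat.pos_of_ne_zero hne, hr⟩
    exact Nat.dvd_of_mod_eq_zero hr0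
  · refine ⟨2, le_rfl, fun s hs => ?_⟩
    rcases Nat.eq_zero_or_pos s with h0 | hpos
    · rw [h0]; exact dvd_zero 2
    · exact absurd ⟨s, hpos, hs⟩ hex

end Geom

section Multi

variable {F : Type*} [Field F] {ι : Type*} [Fintype ι]

/-- **Nagata's trick.**  For every `x : F` there is `u ∈ ⋂ V i` such that `x * u ∈ ⋂ V i` and `u`
is a unit of every `V i` containing `x`. -/
theorem exists_multiplier (V : ι → ValuationSubring F) (x : F) :
    ∃ u : F, (∀ i, u ∈ V i) ∧ (∀ i, x * u ∈ V i) ∧
      (∀ i, x ∈ V i → (V i).valuation u = 1) := by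
  classical
  have hd : ∀ i, ∃ d : ℕ, 2 ≤ d ∧
      (x ∈ V i → ∀ s, (V i).valuation (gsum x s) < 1 → d ∣ s) := fun i => by
    by_cases hx : x ∈ V i
    · obtain ⟨d, hd2, hd⟩ := exists_modulus (V i) hx
      exact ⟨d, hd2, fun _ => hd⟩
    · exact ⟨2, le_rfl, fun h => absurd h hx⟩
  choose d hd2 hd using hd
  set D := ∏ i, d i with hD
  have hDpos : 0 < D := Finset.prod_pos fun i _ => by have := hd2 i; omega
  have hunit : ∀ i, x ∈ V i → (V i).valuation (gsum x (D + 1)) = 1 := by
    intro i hx
    rcases lt_or_eq_of_le (((V i).valuation_le_one_iff _).2 (gsum_mem (V i) hx (D + 1)))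
      with hlt | heq
    · exfalso
      have hdvd := hd i hx (D + 1) hlt
      have hdD : d i ∣ D := Finset.dvd_prod_of_mem _ (Finset.mem_univ i)
      have h1 : d i ∣ 1 := (Nat.dvd_add_right hdD).1 hdvd
      have h2 := Nat.le_of_dvd one_pos h1
      have h3 := hd2 i
      omega
    · exact heq
  have hbig : ∀ i, x ∉ V i → (V i).valuation (gsum x (D + 1)) = (V i).valuation x ^ D :=
    fun i hx => val_gsum_of_big (V i)
      (by rw [← not_le, (V i).valuation_le_one_iff]; exact hx) D
  have hxbig : ∀ i, x ∉ V i → 1 < (V i).valuation x := fun i hx => by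
    rw [← not_le, (V i).valuation_le_one_iff]; exact hx
  refine ⟨(gsum x (D + 1))⁻¹, fun i => ?_, fun i => ?_, fun i hx => ?_⟩
  · rw [← (V i).valuation_le_one_iff, map_inv₀]
    by_cases hx : x ∈ V i
    · rw [hunit i hx, inv_one]
    · rw [hbig i hx]
      exact inv_le_one_of_one_le₀ (one_le_pow₀ (hxbig i hx).le)
  · rw [← (V i).valuation_le_one_iff, map_mul, map_inv₀]
    by_cases hx : x ∈ V i
    · rw [hunit i hx, inv_one, mul_one]
      exact ((V i).valuation_le_one_iff _).2 hx
    · rw [hbig i hx]
      have hpos : 0 < (V i).valuation x ^ D := pow_pos (lt_trans zero_lt_one (hxbig i hx)) _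
      rw [mul_inv_le_iff₀ hpos, one_mul]
      exact le_self_pow₀ (hxbig i hx).le (by omega)
  · rw [map_inv₀, hunit i hx, inv_one]

variable [DecidableEq ι]

/-- Elements which are units at `V i` and small at all other `V i'`. -/
theorem exists_sep_multi (V : ι → ValuationSubring F)
    (hinc : ∀ i i', i ≠ i' → ¬ V i ≤ V i') (i : ι) :
    ∃ w : F, (V i).valuation w = 1 ∧ ∀ i', i' ≠ i → (V i').valuation w < 1 := by
  classical
  have hu : ∀ i', ∃ u : F, (∀ i'', u ∈ V i'') ∧ (V i).valuation u = 1 ∧
      (i' ≠ i → (V i').valuation u < 1) := fun i' => by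
    by_cases hi : i' = i
    · exact ⟨1, fun _ => one_mem _, map_one _, fun h => absurd hi h⟩
    · obtain ⟨x, hx1, hx2⟩ := SetLike.not_le_iff_exists.1 (hinc i i' (fun h => hi h.symm))
      obtain ⟨u, hu1, hu2, hu3⟩ := exists_multiplier V x
      refine ⟨u, hu1, hu3 i hx1, fun _ => ?_⟩
      have hxbig : 1 < (V i').valuation x := by
        rw [← not_le, (V i').valuation_le_one_iff]; exact hx2
      have h1 : (V i').valuation x * (V i').valuation u ≤ 1 := by
        rw [← map_mul]; exact ((V i').valuation_le_one_iff _).2 (hu2 i')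
      by_contra hcon
      rw [not_lt] at hcon
      have : (V i').valuation x * 1 ≤ (V i').valuation x * (V i').valuation u := by gcongr
      rw [mul_one] at this
      exact absurd (lt_of_lt_of_le hxbig (this.trans h1)) (lt_irrefl _)
  choose u hu1 hu2 hu3 using hu
  refine ⟨∏ i', u i', ?_, fun i' hi' => ?_⟩
  · rw [map_prod]
    exact Finset.prod_eq_one fun i' _ => hu2 i'
  · rw [map_prod, ← Finset.mul_prod_erase _ _ (Finset.mem_univ i')]
    have h1 : ∏ x ∈ Finset.univ.erase i', (V i').valuation (u x) ≤ 1 :=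
      Finset.prod_le_one' fun x _ => ((V i').valuation_le_one_iff _).2 (hu1 x i')
    calc (V i').valuation (u i') * ∏ x ∈ Finset.univ.erase i', (V i').valuation (u x)
        ≤ (V i').valuation (u i') * 1 := by gcongr
      _ = (V i').valuation (u i') := mul_one _
      _ < 1 := hu3 i' hi'

/-- **Idempotents.**  `E ≡ 1` at `V i` and `E ≡ 0` at the other `V i'`. -/
theorem exists_idem_multi (V : ι → ValuationSubring F)
    (hinc : ∀ i i', i ≠ i' → ¬ V i ≤ V i') (i : ι) :
    ∃ E : F, (V i).valuation (1 - E) < 1 ∧ ∀ i', i' ≠ i → (V i').valuation E < 1 := by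
  classical
  choose w hw1 hw2 using fun i => exists_sep_multi V hinc i
  set W := ∑ i, w i with hW
  have hWval : ∀ i₀, (V i₀).valuation W = 1 := by
    intro i₀
    have e : W = w i₀ + ∑ x ∈ Finset.univ.erase i₀, w x := by
      rw [hW, Finset.add_sum_erase _ _ (Finset.mem_univ i₀)]
    have hsmall : (V i₀).valuation (∑ x ∈ Finset.univ.erase i₀, w x) < 1 :=
      val_sum_lt_one _ _ _ fun x hx => hw2 x i₀ (Finset.ne_of_mem_erase hx).symm
    rw [e, Valuation.map_add_eq_of_lt_left _ (by rw [hw1]; exact hsmall), hw1]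
  have hW0 : W ≠ 0 := by
    intro h0
    have := hWval i
    rw [h0, map_zero] at this
    exact zero_ne_one this
  refine ⟨w i * W⁻¹, ?_, fun i' hi' => ?_⟩
  · have e : 1 - w i * W⁻¹ = (∑ x ∈ Finset.univ.erase i, w x) * W⁻¹ := by
      have : W = w i + ∑ x ∈ Finset.univ.erase i, w x := by
        rw [hW, Finset.add_sum_erase _ _ (Finset.mem_univ i)]
      field_simp
      rw [this]; ring
    rw [e, map_mul, map_inv₀, hWval i, inv_one, mul_one]
    exact val_sum_lt_one _ _ _ fun x hx => hw2 x i (Finset.ne_of_mem_erase hx).symm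
  · rw [map_mul, map_inv₀, hWval i', inv_one, mul_one]
    exact hw2 i i' hi'

/-- **Lifting residues to `⋂ V i'`.** -/
theorem exists_lift_multi (V : ι → ValuationSubring F)
    (hinc : ∀ i i', i ≠ i' → ¬ V i ≤ V i') (i : ι) {b : F} (hb : b ∈ V i) :
    ∃ g : F, (∀ i', g ∈ V i') ∧ (V i).valuation (g - b) < 1 := by
  classical
  obtain ⟨u, hu1, hu2, hu3⟩ := exists_multiplier V b
  obtain ⟨E, hE1, hE2⟩ := exists_idem_multi V hinc i
  have hEmem : ∀ i', E ∈ V i' := fun i' => by
    by_cases hi : i' = i
    · subst hi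
      have : E = 1 - (1 - E) := by ring
      rw [this]
      exact sub_mem (one_mem _) (((V i').valuation_le_one_iff _).1 hE1.le)
    · exact ((V i').valuation_le_one_iff _).1 (hE2 i' hi).le
  set c := E * u + (1 - E) with hc
  have hcval : ∀ i', (V i').valuation c = 1 := by
    intro i'
    by_cases hi : i' = i
    · subst hi
      have e : c = u + (1 - E) * (1 - u) := by rw [hc]; ring
      have hsm : (V i').valuation ((1 - E) * (1 - u)) < 1 :=
        val_mul_lt_one_left (V i') hE1
          (((V i').valuation_le_one_iff _).2 (sub_mem (one_mem _) (hu1 i')))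
      rw [e, Valuation.map_add_eq_of_lt_left _ (by rw [hu3 i' hb]; exact hsm),
        hu3 i' hb]
    · have e : c = 1 + E * (u - 1) := by rw [hc]; ring
      rw [e]
      refine Valuation.map_one_add_of_lt _ ?_
      exact val_mul_lt_one_left (V i') (hE2 i' hi)
        (((V i').valuation_le_one_iff _).2 (sub_mem (hu1 i') (one_mem _)))
  have hc0 : c ≠ 0 := by
    intro h0
    have := hcval i
    rw [h0, map_zero] at this
    exact zero_ne_one this
  refine ⟨b * u * c⁻¹, fun i' => ?_, ?_⟩
  · rw [← (V i').valuation_le_one_iff, map_mul, map_inv₀, hcval i', inv_one, mul_one]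
    exact ((V i').valuation_le_one_iff _).2 (hu2 i')
  · have e : b * u * c⁻¹ - b = b * ((E - 1) * (1 - u)) * c⁻¹ := by
      field_simp
      rw [hc]; ring
    rw [e, map_mul, map_inv₀, hcval i, inv_one, mul_one]
    refine val_mul_lt_one_right (V i) (((V i).valuation_le_one_iff _).2 hb) ?_
    refine val_mul_lt_one_left (V i) ?_
      (((V i).valuation_le_one_iff _).2 (sub_mem (one_mem _) (hu1 i)))
    have : E - 1 = -(1 - E) := by ring
    rw [this, Valuation.map_neg]; exact hE1

end Multi

end Fermat.Agent.S36.H253
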