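import Fermat.Agent.S36.H253.FundIneq

/-!
# Norm–residue and norm–valuation formulas, ELEMENTWISE (helper253)

Mathlib only (on top of `FundIneq.lean`).  Adapters of `norm_red_ram_lb` / `val_norm_ram_lb` to
statements which mention valuation subrings only (no residue-field types), in the shape of the
interface Props `NormResSplit`, `NormResInsep` of `S36/H630/LabNorm.lean`.

`F / K` finite, `O ⊆ K` discrete with uniformiser `ϖ`.

* `normRes_split` : `V i` pairwise incomparable over `O`, `τ i ∈ m_{V i}`,
  `v i (ϖ) = v i (τ i) ^ E i`, `∑ i, E i = [F : K]` (so all residue degrees are `1`).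
  For `y ∈ ⋂ V i` with `y ≡ c i mod m_{V i}` (`c i ∈ K`): `N y ≡ ∏ i, c i ^ E i mod m_O`.
* `normResSplit_lb` : the case of two extensions `V₁` (`E = 1`), `V₂` (`E = e`), `[F : K] = 1 + e`.
* `normResInsep_lb` : one extension `V`, `[F : K] = q` prime `= char`, `z₀ ^ q ≡ c₀` with `c₀` not
  a `q`-th power mod `m_O`.  For `y ∈ V` with `y ^ q ≡ c mod m_V`: `N y ≡ c mod m_O`.
* `valNorm_split`, `valNorm_insep` : the corresponding valuations of norms.
-/

set_option autoImplicit false
set_option linter.unusedSectionVars false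
set_option linter.style.haveILetI false

namespace Fermat.Agent.S36.H253

open scoped BigOperators
open Fermat.Agent.S35.H253

section Canon

variable {K F : Type*} [Field K] [Field F] [Algebra K F]

/-- The inclusion `O → V` of a valuation ring into a valuation ring over it. -/
def inclOver {O : ValuationSubring K} {V : ValuationSubring F} (h : Over O V) : O →+* V :=
  RingHom.codRestrict ((algebraMap K F).comp O.subtype) V (fun a => (h a).2 a.2)

theorem inclOver_coe {O : ValuationSubring K} {V : ValuationSubring F} (h : Over O V) (a : O) :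
    ((inclOver h a : V) : F) = algebraMap K F a := rfl

theorem isLocalHom_inclOver {O : ValuationSubring K} {V : ValuationSubring F} (h : Over O V) :
    IsLocalHom (inclOver h) := by
  constructor
  intro a ha
  rw [ValuationSubring.valuation_eq_one_iff] at ha ⊢
  rw [inclOver_coe] at ha
  refine le_antisymm (O.valuation_le_one a) ?_
  rw [← not_lt, ← h.val_lt_one_iff, ha]
  exact lt_irrefl _

/-- The residue field of `V` as an algebra over the residue field of `O`. -/
@[reducible] noncomputable def resAlgebra {O : ValuationSubring K} {V : ValuationSubring F} (h : Over O V) :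
    Algebra (IsLocalRing.ResidueField O) (IsLocalRing.ResidueField V) :=
  haveI := isLocalHom_inclOver h
  (IsLocalRing.ResidueField.map (inclOver h)).toAlgebra

theorem resAlgebra_residue {O : ValuationSubring K} {V : ValuationSubring F} (h : Over O V)
    (a : O) :
    letI := resAlgebra h
    IsLocalRing.residue V ⟨algebraMap K F a, (h a).2 a.2⟩ =
      algebraMap (IsLocalRing.ResidueField O) (IsLocalRing.ResidueField V)
        (IsLocalRing.residue O a) := by
  letI := resAlgebra h
  haveI := isLocalHom_inclOver h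
  exact (IsLocalRing.ResidueField.map_residue (inclOver h) a).symm

/-- Two elements of `V` with difference in the maximal ideal have the same residue. -/
theorem residue_eq_of_sub_mem {V : ValuationSubring F} {x y : F} (hx : x ∈ V) (hy : y ∈ V)
    (h : x - y ∈ V.nonunits) :
    IsLocalRing.residue V ⟨x, hx⟩ = IsLocalRing.residue V ⟨y, hy⟩ := by
  rw [← sub_eq_zero, ← map_sub, IsLocalRing.residue_eq_zero_iff,
    ValuationSubring.valuation_lt_one_iff]
  exact h

theorem mem_of_sub_mem_nonunits {V : ValuationSubring F} {x y : F} (hx : x ∈ V)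
    (h : x - y ∈ V.nonunits) : y ∈ V := by
  have : y = x - (x - y) := by ring
  rw [this]
  exact sub_mem hx (ValuationSubring.nonunits_subset h)

end Canon

section Split

variable {K F : Type*} [Field K] [Field F] [Algebra K F]
variable {ι : Type*} [Fintype ι]
    {O : ValuationSubring K} {ϖ : K} {V : ι → ValuationSubring F} {τ : ι → F} {E : ι → ℕ}
    (hover : ∀ i, Over O (V i)) (hinc : ∀ i i', i ≠ i' → ¬ V i ≤ V i')
    (hϖ0 : ϖ ≠ 0) (hϖ : O.valuation ϖ < 1)
    (hdvr : ∀ a : K, a ≠ 0 → ∃ n : ℤ, O.valuation a = O.valuation ϖ ^ n)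
    (hτ : ∀ i, (V i).valuation (τ i) < 1)
    (hram : ∀ i, (V i).valuation (algebraMap K F ϖ) = (V i).valuation (τ i) ^ E i)

include hover hinc hϖ0 hϖ hdvr hτ hram

/-- **Norm–residue formula, split case, elementwise.**  If `∑ i, E i = [F : K]`, then for
`y ∈ ⋂ V i` with `y ≡ c i mod m_{V i}`, `c i ∈ K`:  `N_{F/K} y ≡ ∏ i, c i ^ E i mod m_O`. -/
theorem normRes_split [Module.Finite K F] (hdeg : ∑ i, E i = Module.finrank K F)
    {y : F} (hy : ∀ i, y ∈ V i) (c : ι → K)
    (hyc : ∀ i, y - algebraMap K F (c i) ∈ (V i).nonunits) :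
    Algebra.norm K y - ∏ i, c i ^ E i ∈ O.nonunits := by
  classical
  letI alg : ∀ i, Algebra (IsLocalRing.ResidueField O) (IsLocalRing.ResidueField (V i)) :=
    fun i => resAlgebra (hover i)
  have hπ : Function.Surjective (IsLocalRing.residue O) := IsLocalRing.residue_surjective
  have hρ : ∀ i, Function.Surjective (IsLocalRing.residue (V i)) :=
    fun i => IsLocalRing.residue_surjective
  have hc : ∀ i (a : O), IsLocalRing.residue (V i) ⟨algebraMap K F a, ((hover i) a).2 a.2⟩ =
      algebraMap (IsLocalRing.ResidueField O) (IsLocalRing.ResidueField (V i))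
        (IsLocalRing.residue O a) := fun i a => resAlgebra_residue (hover i) a
  have hfin : ∀ i, Module.Finite (IsLocalRing.ResidueField O)
      (IsLocalRing.ResidueField (V i)) := fun i =>
    finite_residue_dvr hover hϖ0 hϖ hdvr hτ hram (IsLocalRing.residue O)
      (fun i => IsLocalRing.residue (V i)) hπ hρ hc i
  have hf : ∀ i, (fun _ : ι => 1) i ≤
      Module.finrank (IsLocalRing.ResidueField O) (IsLocalRing.ResidueField (V i)) :=
    fun i => Module.finrank_pos
  have heq : ∑ i, E i * (fun _ : ι => 1) i = Module.finrank K F := by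
    rw [← hdeg]; exact Finset.sum_congr rfl fun i _ => mul_one _
  obtain ⟨hN, hred⟩ := norm_red_ram_lb hover hinc hϖ0 hϖ hdvr hτ hram (IsLocalRing.residue O)
    (fun i => IsLocalRing.residue (V i)) hπ hρ hc (fun _ => 1) hf heq hy
  have hfr := finrank_eq_of_fund_eq hover hinc hϖ0 hϖ (genO_of_dvr hϖ0 hϖ hdvr) hτ
    (fun i _ hz => exists_pow_le_of_dvr (hover i) hϖ0 hϖ hdvr hz) hram (IsLocalRing.residue O)
    (fun i => IsLocalRing.residue (V i)) hπ hρ hc (fun _ => 1) hf heq
  have hcV : ∀ i, algebraMap K F (c i) ∈ V i := fun i => mem_of_sub_mem_nonunits (hy i) (hyc i)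
  have hcO : ∀ i, c i ∈ O := fun i => ((hover i) (c i)).1 (hcV i)
  have hnorm : ∀ i, Algebra.norm (IsLocalRing.ResidueField O)
      (IsLocalRing.residue (V i) ⟨y, hy i⟩) = IsLocalRing.residue O ⟨c i, hcO i⟩ := by
    intro i
    apply (algebraMap (IsLocalRing.ResidueField O) (IsLocalRing.ResidueField (V i))).injective
    rw [algebraMap_norm_of_finrank_eq_one (hfr i), ← hc i ⟨c i, hcO i⟩]
    exact residue_eq_of_sub_mem (hy i) (hcV i) (hyc i)
  have hprodO : ∏ i, c i ^ E i ∈ O := prod_mem fun i _ => pow_mem (hcO i) _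
  have hred' : IsLocalRing.residue O ⟨Algebra.norm K y, hN⟩ =
      IsLocalRing.residue O ⟨∏ i, c i ^ E i, hprodO⟩ := by
    rw [hred]
    have e1 : (⟨∏ i, c i ^ E i, hprodO⟩ : O) = ∏ i, (⟨c i, hcO i⟩ : O) ^ E i := by
      apply Subtype.ext
      rw [SubmonoidClass.coe_finsetProd]
      rfl
    rw [e1, map_prod]
    exact Finset.prod_congr rfl fun i _ => by rw [hnorm i, map_pow]
  rw [← sub_eq_zero, ← map_sub, IsLocalRing.residue_eq_zero_iff,
    ValuationSubring.valuation_lt_one_iff] at hred'
  exact hred'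

/-- **Norm–valuation formula, split case, elementwise.**  If `∑ i, E i = [F : K]`, every
`y ≠ 0` has `v i (y) = v i (τ i) ^ a i` and `v (N_{F/K} y) = v ϖ ^ ∑ i, a i`. -/
theorem valNorm_split [Module.Finite K F] (hdeg : ∑ i, E i = Module.finrank K F)
    {y : F} (hy : y ≠ 0) :
    ∃ a : ι → ℤ, (∀ i, (V i).valuation y = (V i).valuation (τ i) ^ a i) ∧
      O.valuation (Algebra.norm K y) = O.valuation ϖ ^ (∑ i, a i) := by
  classical
  letI alg : ∀ i, Algebra (IsLocalRing.ResidueField O) (IsLocalRing.ResidueField (V i)) :=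
    fun i => resAlgebra (hover i)
  have hπ : Function.Surjective (IsLocalRing.residue O) := IsLocalRing.residue_surjective
  have hρ : ∀ i, Function.Surjective (IsLocalRing.residue (V i)) :=
    fun i => IsLocalRing.residue_surjective
  have hc : ∀ i (a : O), IsLocalRing.residue (V i) ⟨algebraMap K F a, ((hover i) a).2 a.2⟩ =
      algebraMap (IsLocalRing.ResidueField O) (IsLocalRing.ResidueField (V i))
        (IsLocalRing.residue O a) := fun i a => resAlgebra_residue (hover i) a
  have hfin : ∀ i, Module.Finite (IsLocalRing.ResidueField O)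
      (IsLocalRing.ResidueField (V i)) := fun i =>
    finite_residue_dvr hover hϖ0 hϖ hdvr hτ hram (IsLocalRing.residue O)
      (fun i => IsLocalRing.residue (V i)) hπ hρ hc i
  have hf : ∀ i, (fun _ : ι => 1) i ≤
      Module.finrank (IsLocalRing.ResidueField O) (IsLocalRing.ResidueField (V i)) :=
    fun i => Module.finrank_pos
  have heq : ∑ i, E i * (fun _ : ι => 1) i = Module.finrank K F := by
    rw [← hdeg]; exact Finset.sum_congr rfl fun i _ => mul_one _
  obtain ⟨a, ha, hN⟩ := val_norm_ram_lb hover hinc hϖ0 hϖ hdvr hτ hram (IsLocalRing.residue O)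
    (fun i => IsLocalRing.residue (V i)) hπ hρ hc (fun _ => 1) hf heq hy
  refine ⟨a, ha, ?_⟩
  rw [hN]
  congr 1
  exact Finset.sum_congr rfl fun i _ => by simp

/-- **Equality case, elementwise** (split case): `τ i` generates the maximal ideal of `V i`. -/
theorem gen_split [Module.Finite K F] (hdeg : ∑ i, E i = Module.finrank K F) (i₀ : ι) (z : F)
    (hz : (V i₀).valuation z < 1) : (V i₀).valuation z ≤ (V i₀).valuation (τ i₀) := by
  classical
  letI alg : ∀ i, Algebra (IsLocalRing.ResidueField O) (IsLocalRing.ResidueField (V i)) :=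
    fun i => resAlgebra (hover i)
  have hπ : Function.Surjective (IsLocalRing.residue O) := IsLocalRing.residue_surjective
  have hρ : ∀ i, Function.Surjective (IsLocalRing.residue (V i)) :=
    fun i => IsLocalRing.residue_surjective
  have hc : ∀ i (a : O), IsLocalRing.residue (V i) ⟨algebraMap K F a, ((hover i) a).2 a.2⟩ =
      algebraMap (IsLocalRing.ResidueField O) (IsLocalRing.ResidueField (V i))
        (IsLocalRing.residue O a) := fun i a => resAlgebra_residue (hover i) a
  have hfin : ∀ i, Module.Finite (IsLocalRing.ResidueField O)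
      (IsLocalRing.ResidueField (V i)) := fun i =>
    finite_residue_dvr hover hϖ0 hϖ hdvr hτ hram (IsLocalRing.residue O)
      (fun i => IsLocalRing.residue (V i)) hπ hρ hc i
  have hf : ∀ i, (fun _ : ι => 1) i ≤
      Module.finrank (IsLocalRing.ResidueField O) (IsLocalRing.ResidueField (V i)) :=
    fun i => Module.finrank_pos
  have heq : ∑ i, E i * (fun _ : ι => 1) i = Module.finrank K F := by
    rw [← hdeg]; exact Finset.sum_congr rfl fun i _ => mul_one _
  have hfr := finrank_eq_of_fund_eq hover hinc hϖ0 hϖ (genO_of_dvr hϖ0 hϖ hdvr) hτ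
    (fun i _ hz => exists_pow_le_of_dvr (hover i) hϖ0 hϖ hdvr hz) hram (IsLocalRing.residue O)
    (fun i => IsLocalRing.residue (V i)) hπ hρ hc (fun _ => 1) hf heq
  have hdeg' : ∑ i, E i * Module.finrank (IsLocalRing.ResidueField O)
      (IsLocalRing.ResidueField (V i)) = Module.finrank K F := by
    rw [← heq]; exact Finset.sum_congr rfl fun i _ => by rw [hfr i]
  exact gen_of_fund_eq hover hinc hϖ0 hϖ hdvr hτ hram (IsLocalRing.residue O)
    (fun i => IsLocalRing.residue (V i)) hπ hρ hc hdeg' i₀ z hz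

/-- **Equality case, elementwise** (split case): the `V i` are all the extensions of `O`. -/
theorem eq_split [Module.Finite K F] (hdeg : ∑ i, E i = Module.finrank K F)
    {W : ValuationSubring F} (hW : Over O W) : ∃ i, W = V i := by
  classical
  letI alg : ∀ i, Algebra (IsLocalRing.ResidueField O) (IsLocalRing.ResidueField (V i)) :=
    fun i => resAlgebra (hover i)
  have hπ : Function.Surjective (IsLocalRing.residue O) := IsLocalRing.residue_surjective
  have hρ : ∀ i, Function.Surjective (IsLocalRing.residue (V i)) :=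
    fun i => IsLocalRing.residue_surjective
  have hc : ∀ i (a : O), IsLocalRing.residue (V i) ⟨algebraMap K F a, ((hover i) a).2 a.2⟩ =
      algebraMap (IsLocalRing.ResidueField O) (IsLocalRing.ResidueField (V i))
        (IsLocalRing.residue O a) := fun i a => resAlgebra_residue (hover i) a
  have hfin : ∀ i, Module.Finite (IsLocalRing.ResidueField O)
      (IsLocalRing.ResidueField (V i)) := fun i =>
    finite_residue_dvr hover hϖ0 hϖ hdvr hτ hram (IsLocalRing.residue O)
      (fun i => IsLocalRing.residue (V i)) hπ hρ hc i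
  have hf : ∀ i, (fun _ : ι => 1) i ≤
      Module.finrank (IsLocalRing.ResidueField O) (IsLocalRing.ResidueField (V i)) :=
    fun i => Module.finrank_pos
  have heq : ∑ i, E i * (fun _ : ι => 1) i = Module.finrank K F := by
    rw [← hdeg]; exact Finset.sum_congr rfl fun i _ => mul_one _
  have hfr := finrank_eq_of_fund_eq hover hinc hϖ0 hϖ (genO_of_dvr hϖ0 hϖ hdvr) hτ
    (fun i _ hz => exists_pow_le_of_dvr (hover i) hϖ0 hϖ hdvr hz) hram (IsLocalRing.residue O)
    (fun i => IsLocalRing.residue (V i)) hπ hρ hc (fun _ => 1) hf heq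
  have hdeg' : ∑ i, E i * Module.finrank (IsLocalRing.ResidueField O)
      (IsLocalRing.ResidueField (V i)) = Module.finrank K F := by
    rw [← heq]; exact Finset.sum_congr rfl fun i _ => by rw [hfr i]
  exact eq_of_fund_eq hover hinc hϖ0 hϖ hdvr hτ hram (IsLocalRing.residue O)
    (fun i => IsLocalRing.residue (V i)) hπ hρ hc hdeg' hW

end Split

section Two

variable {K F : Type*} [Field K] [Field F] [Algebra K F]

/-- **`NormResSplit`** (shape of `S36/H630/LabNorm.lean`).  `O` discrete with uniformiser `ϖ`;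
`V₁ ≠ V₂` valuation subrings of `F` over `O`; `τ ∈ m_{V₂}` with `v₂ (ϖ) = v₂ (τ) ^ e`;
`[F : K] = 1 + e`.  Then for `y ∈ V₁ ∩ V₂`, `y ≡ y₁ mod m_{V₁}`, `y ≡ y₂ mod m_{V₂}`
(`y₁, y₂ ∈ K`):  `N_{F/K} y ≡ y₁ * y₂ ^ e mod m_O`. -/
theorem normResSplit_lb [Module.Finite K F] {O : ValuationSubring K} {ϖ : K}
    {V₁ V₂ : ValuationSubring F} (h₁ : Over O V₁) (h₂ : Over O V₂) (hne : V₁ ≠ V₂)
    (hϖ0 : ϖ ≠ 0) (hϖ : O.valuation ϖ < 1)
    (hdvr : ∀ a : K, a ≠ 0 → ∃ n : ℤ, O.valuation a = O.valuation ϖ ^ n)
    {τ : F} {e : ℕ} (hτ : V₂.valuation τ < 1)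
    (hram : V₂.valuation (algebraMap K F ϖ) = V₂.valuation τ ^ e)
    (hdeg : Module.finrank K F = 1 + e) :
    ∀ y : F, y ∈ V₁ → y ∈ V₂ → ∀ y₁ y₂ : K,
      y - algebraMap K F y₁ ∈ V₁.nonunits → y - algebraMap K F y₂ ∈ V₂.nonunits →
        Algebra.norm K y - y₁ * y₂ ^ e ∈ O.nonunits := by
  intro y hy₁ hy₂ y₁ y₂ hd₁ hd₂
  have key := normRes_split (ι := Bool) (V := fun b => cond b V₁ V₂)
    (τ := fun b => cond b (algebraMap K F ϖ) τ) (E := fun b => cond b 1 e)
    (fun b => by cases b <;> assumption)
    (fun b b' hbb' => by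
      cases b <;> cases b'
      · exact absurd rfl hbb'
      · intro hle
        exact hne (eq_of_le_of_over h₂ h₁ hϖ0 hϖ hdvr hle).symm
      · intro hle
        exact hne (eq_of_le_of_over h₁ h₂ hϖ0 hϖ hdvr hle)
      · exact absurd rfl hbb')
    hϖ0 hϖ hdvr
    (fun b => by
      cases b
      · exact hτ
      · exact (h₁.val_lt_one_iff ϖ).2 hϖ)
    (fun b => by
      cases b
      · exact hram
      · simp)
    (by rw [Fintype.sum_bool, hdeg]; rfl)
    (y := y) (fun b => by cases b <;> assumption) (fun b => cond b y₁ y₂)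
    (fun b => by cases b <;> assumption)
  rw [Fintype.prod_bool] at key
  simpa using key

end Two

section Insep

variable {K F : Type*} [Field K] [Field F] [Algebra K F]
variable {O : ValuationSubring K} {ϖ : K} {V : ValuationSubring F} (h : Over O V)
    (hϖ0 : ϖ ≠ 0) (hϖ : O.valuation ϖ < 1)
    (hdvr : ∀ a : K, a ≠ 0 → ∃ n : ℤ, O.valuation a = O.valuation ϖ ^ n)
    (q : ℕ) (hq : q.Prime) (hqO : O.valuation (q : K) < 1)
    (hdeg : Module.finrank K F = q)
    {z₀ : F} {c₀ : K} (hz₀ : z₀ ∈ V) (hzc : z₀ ^ q - algebraMap K F c₀ ∈ V.nonunits)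
    (hnp : ∀ a : K, a ∈ O → a ^ q - c₀ ∉ O.nonunits)

include h hϖ0 hϖ hdvr hq hqO hdeg hz₀ hzc hnp

/-- Residue degree `q` in the purely inseparable case (statement with the canonical residue
fields). -/
theorem insep_finrank [Module.Finite K F] :
    letI := resAlgebra h
    Module.finrank (IsLocalRing.ResidueField O) (IsLocalRing.ResidueField V) = q ∧
      CharP (IsLocalRing.ResidueField O) q ∧
      ∀ ξ : IsLocalRing.ResidueField V, ξ ^ q ∈
        (algebraMap (IsLocalRing.ResidueField O) (IsLocalRing.ResidueField V)).range := by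
  classical
  letI alg := resAlgebra h
  have hπ : Function.Surjective (IsLocalRing.residue O) := IsLocalRing.residue_surjective
  have hρ : Function.Surjective (IsLocalRing.residue V) := IsLocalRing.residue_surjective
  have hc : ∀ (a : O), IsLocalRing.residue V ⟨algebraMap K F a, (h a).2 a.2⟩ =
      algebraMap (IsLocalRing.ResidueField O) (IsLocalRing.ResidueField V)
        (IsLocalRing.residue O a) := fun a => resAlgebra_residue h a
  have hτ : V.valuation (algebraMap K F ϖ) < 1 := (h.val_lt_one_iff ϖ).2 hϖ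
  have hfin : Module.Finite (IsLocalRing.ResidueField O) (IsLocalRing.ResidueField V) :=
    finite_residue_dvr (ι := Unit) (V := fun _ => V) (τ := fun _ => algebraMap K F ϖ)
      (E := fun _ => 1) (κ := fun _ => IsLocalRing.ResidueField V)
      (fun _ => h) hϖ0 hϖ hdvr (fun _ => hτ) (fun _ => by simp) (IsLocalRing.residue O)
      (fun _ => IsLocalRing.residue V) hπ (fun _ => hρ) (fun _ => hc) ()
  -- characteristic
  have hqmem : (q : K) ∈ O := (O.valuation_le_one_iff _).1 hqO.le
  have hchar : CharP (IsLocalRing.ResidueField O) q := by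
    rw [CharP.charP_iff_prime_eq_zero hq]
    have e1 : ((q : O) : K) = (q : K) := by simp
    have e2 : IsLocalRing.residue O (q : O) = 0 := by
      rw [IsLocalRing.residue_eq_zero_iff, ValuationSubring.valuation_lt_one_iff, e1]
      exact hqO
    rw [← e2, map_natCast]
  -- the witness
  have hc₀V : algebraMap K F c₀ ∈ V := mem_of_sub_mem_nonunits (pow_mem hz₀ q) hzc
  have hc₀O : c₀ ∈ O := (h c₀).1 hc₀V
  set z := IsLocalRing.residue V ⟨z₀, hz₀⟩ with hz
  set cb := IsLocalRing.residue O ⟨c₀, hc₀O⟩ with hcb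
  have hzq : z ^ q = algebraMap (IsLocalRing.ResidueField O) (IsLocalRing.ResidueField V) cb := by
    rw [hcb, ← hc ⟨c₀, hc₀O⟩, hz, ← map_pow]
    exact residue_eq_of_sub_mem (pow_mem hz₀ q) hc₀V hzc
  have hnpow : ∀ b : IsLocalRing.ResidueField O, b ^ q ≠ cb := by
    intro b hb
    obtain ⟨a, rfl⟩ := hπ b
    rw [hcb, ← map_pow, ← sub_eq_zero, ← map_sub, IsLocalRing.residue_eq_zero_iff,
      ValuationSubring.valuation_lt_one_iff] at hb
    exact hnp a a.2 hb
  have hirr := X_pow_sub_C_irreducible_of_prime hq hnpow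
  have hmin : (Polynomial.X ^ q - Polynomial.C cb : Polynomial (IsLocalRing.ResidueField O)) =
      minpoly (IsLocalRing.ResidueField O) z := by
    refine minpoly.eq_of_irreducible_of_monic hirr ?_ (Polynomial.monic_X_pow_sub_C cb hq.ne_zero)
    rw [map_sub, map_pow, Polynomial.aeval_X, Polynomial.aeval_C, hzq, sub_self]
  have hle : q ≤ Module.finrank (IsLocalRing.ResidueField O) (IsLocalRing.ResidueField V) := by
    have h1 := minpoly.natDegree_le (A := IsLocalRing.ResidueField O) z
    rw [← hmin, Polynomial.natDegree_X_pow_sub_C] at h1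
    exact h1
  have hfr : Module.finrank (IsLocalRing.ResidueField O) (IsLocalRing.ResidueField V) = q :=
    finrank_eq_of_fund_eq (ι := Unit) (V := fun _ => V) (τ := fun _ => algebraMap K F ϖ)
      (E := fun _ => 1) (κ := fun _ => IsLocalRing.ResidueField V)
      (fun _ => h) (fun i i' hii' => absurd (Subsingleton.elim i i') hii') hϖ0 hϖ
      (genO_of_dvr hϖ0 hϖ hdvr) (fun _ => hτ)
      (fun _ _ hz => exists_pow_le_of_dvr h hϖ0 hϖ hdvr hz) (fun _ => by simp)
      (IsLocalRing.residue O) (fun _ => IsLocalRing.residue V) hπ (fun _ => hρ) (fun _ => hc)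
      (fun _ => q) (fun _ => hle) (by simp [hdeg]) ()
  refine ⟨hfr, hchar, ?_⟩
  -- `κ = k(z)` and `z ^ q ∈ k`
  haveI := hchar
  haveI : Fact q.Prime := ⟨hq⟩
  haveI : CharP (IsLocalRing.ResidueField V) q :=
    charP_of_injective_algebraMap
      (algebraMap (IsLocalRing.ResidueField O) (IsLocalRing.ResidueField V)).injective q
  let S : Subalgebra (IsLocalRing.ResidueField O) (IsLocalRing.ResidueField V) :=
    { carrier := {ξ | ξ ^ q ∈
        (algebraMap (IsLocalRing.ResidueField O) (IsLocalRing.ResidueField V)).range}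
      mul_mem' := by
        intro a b ha hb
        rw [Set.mem_ofPred_eq] at ha hb ⊢
        rw [mul_pow]; exact mul_mem ha hb
      add_mem' := by
        intro a b ha hb
        rw [Set.mem_ofPred_eq] at ha hb ⊢
        rw [add_pow_char]; exact add_mem ha hb
      algebraMap_mem' := by
        intro a
        rw [Set.mem_ofPred_eq, ← map_pow]
        exact ⟨a ^ q, rfl⟩ }
  have hSmem : ∀ ξ, ξ ∈ S ↔ ξ ^ q ∈
      (algebraMap (IsLocalRing.ResidueField O) (IsLocalRing.ResidueField V)).range :=
    fun ξ => Iff.rfl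
  have hzS : z ∈ S := by
    rw [hSmem, hzq]; exact ⟨cb, rfl⟩
  have htop : IntermediateField.adjoin (IsLocalRing.ResidueField O) {z} = ⊤ := by
    rw [Field.primitive_element_iff_minpoly_natDegree_eq, ← hmin,
      Polynomial.natDegree_X_pow_sub_C, hfr]
  have halg : IsAlgebraic (IsLocalRing.ResidueField O) z :=
    (IsIntegral.of_finite (IsLocalRing.ResidueField O) z).isAlgebraic
  have hadj : Algebra.adjoin (IsLocalRing.ResidueField O) {z} = ⊤ := by
    rw [← IntermediateField.adjoin_simple_toSubalgebra_of_isAlgebraic halg, htop]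
    rfl
  have hle' : (⊤ : Subalgebra (IsLocalRing.ResidueField O) (IsLocalRing.ResidueField V)) ≤ S := by
    rw [← hadj]
    exact Algebra.adjoin_le (by
      intro x hx
      rw [Set.mem_singleton_iff] at hx
      rw [hx]; exact hzS)
  intro ξ
  exact (hSmem ξ).1 (hle' (Algebra.mem_top : ξ ∈ ⊤))

/-- **`NormResInsep`** (shape of `S36/H630/LabNorm.lean`).  `O` discrete with uniformiser `ϖ`,
residue characteristic `q` prime; `V` over `O`, `[F : K] = q`; `z₀ ∈ V` with
`z₀ ^ q ≡ c₀ mod m_V`, `c₀` not a `q`-th power mod `m_O`.  Then for `y ∈ V` with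
`y ^ q ≡ y' mod m_V` (`y' ∈ K`):  `N_{F/K} y ≡ y' mod m_O`. -/
theorem normResInsep_lb [Module.Finite K F] :
    ∀ y : F, y ∈ V → ∀ y' : K, y ^ q - algebraMap K F y' ∈ V.nonunits →
      Algebra.norm K y - y' ∈ O.nonunits := by
  classical
  intro y hy y' hyy'
  letI alg := resAlgebra h
  obtain ⟨hfr, hchar, -⟩ := insep_finrank h hϖ0 hϖ hdvr q hq hqO hdeg hz₀ hzc hnp
  haveI := hchar
  haveI : Fact q.Prime := ⟨hq⟩
  have hπ : Function.Surjective (IsLocalRing.residue O) := IsLocalRing.residue_surjective
  have hρ : Function.Surjective (IsLocalRing.residue V) := IsLocalRing.residue_surjective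
  have hc : ∀ (a : O), IsLocalRing.residue V ⟨algebraMap K F a, (h a).2 a.2⟩ =
      algebraMap (IsLocalRing.ResidueField O) (IsLocalRing.ResidueField V)
        (IsLocalRing.residue O a) := fun a => resAlgebra_residue h a
  have hτ : V.valuation (algebraMap K F ϖ) < 1 := (h.val_lt_one_iff ϖ).2 hϖ
  obtain ⟨hN, hred⟩ := norm_red_ram_lb (ι := Unit) (V := fun _ => V)
    (τ := fun _ => algebraMap K F ϖ) (E := fun _ => 1)
    (κ := fun _ => IsLocalRing.ResidueField V)
    (fun _ => h) (fun i i' hii' => absurd (Subsingleton.elim i i') hii') hϖ0 hϖ hdvr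
    (fun _ => hτ) (fun _ => by simp)
    (IsLocalRing.residue O) (fun _ => IsLocalRing.residue V) hπ (fun _ => hρ) (fun _ => hc)
    (fun _ => q) (fun _ => hfr.ge) (by simp [hdeg]) (y := y) (fun _ => hy)
  simp only [Finset.univ_unique, Finset.prod_singleton, pow_one] at hred
  have hy'V : algebraMap K F y' ∈ V := mem_of_sub_mem_nonunits (pow_mem hy q) hyy'
  have hy'O : y' ∈ O := (h y').1 hy'V
  have ha : algebraMap (IsLocalRing.ResidueField O) (IsLocalRing.ResidueField V)
      (IsLocalRing.residue O ⟨y', hy'O⟩) = IsLocalRing.residue V ⟨y, hy⟩ ^ q := by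
    rw [← hc ⟨y', hy'O⟩, ← map_pow]
    exact (residue_eq_of_sub_mem (pow_mem hy q) hy'V hyy').symm
  have hnorm := norm_eq_of_pow_eq q hfr ha
  rw [hnorm, ← sub_eq_zero, ← map_sub, IsLocalRing.residue_eq_zero_iff,
    ValuationSubring.valuation_lt_one_iff] at hred
  exact hred

/-- **Norm–residue formula, purely inseparable case, all `y`.**  Under the hypotheses of
`normResInsep_lb`, for EVERY `y ∈ V`:  `N_{F/K} y ≡ y ^ q mod m_V` (in particular the `q`-th
power of every residue comes from the base). -/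
theorem normResInsep_all [Module.Finite K F] :
    ∀ y : F, y ∈ V → algebraMap K F (Algebra.norm K y) - y ^ q ∈ V.nonunits := by
  classical
  intro y hy
  letI alg := resAlgebra h
  obtain ⟨hfr, hchar, hpow⟩ := insep_finrank h hϖ0 hϖ hdvr q hq hqO hdeg hz₀ hzc hnp
  haveI := hchar
  haveI : Fact q.Prime := ⟨hq⟩
  have hπ : Function.Surjective (IsLocalRing.residue O) := IsLocalRing.residue_surjective
  have hρ : Function.Surjective (IsLocalRing.residue V) := IsLocalRing.residue_surjective
  have hc : ∀ (a : O), IsLocalRing.residue V ⟨algebraMap K F a, (h a).2 a.2⟩ =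
      algebraMap (IsLocalRing.ResidueField O) (IsLocalRing.ResidueField V)
        (IsLocalRing.residue O a) := fun a => resAlgebra_residue h a
  have hτ : V.valuation (algebraMap K F ϖ) < 1 := (h.val_lt_one_iff ϖ).2 hϖ
  obtain ⟨hN, hred⟩ := norm_red_ram_lb (ι := Unit) (V := fun _ => V)
    (τ := fun _ => algebraMap K F ϖ) (E := fun _ => 1)
    (κ := fun _ => IsLocalRing.ResidueField V)
    (fun _ => h) (fun i i' hii' => absurd (Subsingleton.elim i i') hii') hϖ0 hϖ hdvr
    (fun _ => hτ) (fun _ => by simp)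
    (IsLocalRing.residue O) (fun _ => IsLocalRing.residue V) hπ (fun _ => hρ) (fun _ => hc)
    (fun _ => q) (fun _ => hfr.ge) (by simp [hdeg]) (y := y) (fun _ => hy)
  simp only [Finset.univ_unique, Finset.prod_singleton, pow_one] at hred
  have h1 := algebraMap_norm_eq_pow q hfr hpow (IsLocalRing.residue V ⟨y, hy⟩)
  rw [← hred, ← hc ⟨Algebra.norm K y, hN⟩, ← map_pow] at h1
  have hNV : algebraMap K F (Algebra.norm K y) ∈ V := (h _).2 hN
  rw [← sub_eq_zero, ← map_sub, IsLocalRing.residue_eq_zero_iff,
    ValuationSubring.valuation_lt_one_iff] at h1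
  exact h1

/-- **Norm–valuation formula, purely inseparable case, elementwise.**  Every `y ≠ 0` has
`v_V (y) = v_V (ϖ) ^ a` and `v (N_{F/K} y) = v ϖ ^ (q * a)`. -/
theorem valNorm_insep [Module.Finite K F] {y : F} (hy : y ≠ 0) :
    ∃ a : ℤ, V.valuation y = V.valuation (algebraMap K F ϖ) ^ a ∧
      O.valuation (Algebra.norm K y) = O.valuation ϖ ^ ((q : ℤ) * a) := by
  classical
  letI alg := resAlgebra h
  obtain ⟨hfr, hchar, -⟩ := insep_finrank h hϖ0 hϖ hdvr q hq hqO hdeg hz₀ hzc hnp
  have hπ : Function.Surjective (IsLocalRing.residue O) := IsLocalRing.residue_surjective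
  have hρ : Function.Surjective (IsLocalRing.residue V) := IsLocalRing.residue_surjective
  have hc : ∀ (a : O), IsLocalRing.residue V ⟨algebraMap K F a, (h a).2 a.2⟩ =
      algebraMap (IsLocalRing.ResidueField O) (IsLocalRing.ResidueField V)
        (IsLocalRing.residue O a) := fun a => resAlgebra_residue h a
  have hτ : V.valuation (algebraMap K F ϖ) < 1 := (h.val_lt_one_iff ϖ).2 hϖ
  obtain ⟨a, ha, hN⟩ := val_norm_ram_lb (ι := Unit) (V := fun _ => V)
    (τ := fun _ => algebraMap K F ϖ) (E := fun _ => 1)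
    (κ := fun _ => IsLocalRing.ResidueField V)
    (fun _ => h) (fun i i' hii' => absurd (Subsingleton.elim i i') hii') hϖ0 hϖ hdvr
    (fun _ => hτ) (fun _ => by simp)
    (IsLocalRing.residue O) (fun _ => IsLocalRing.residue V) hπ (fun _ => hρ) (fun _ => hc)
    (fun _ => q) (fun _ => hfr.ge) (by simp [hdeg]) hy
  refine ⟨a (), ha (), ?_⟩
  rw [hN]
  simp

end Insep

end Fermat.Agent.S36.H253
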