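import Fermat.Agent.S29.H395.KummerCorr
import Fermat.Agent.S36.H253.NormAdapt

/-!
# The NORM fields of `S36.Eng.TripleCtx` (helper253)

Generic adapters producing the six fields `nv_α`, `nv_β`, `nr_α₁`, `nr_α₂`, `nr_β₁`, `nr_β₂` of
`Fermat.Agent.S36.Eng.TripleCtx` (`S36/Eng/Spec.lean` v1.2, architect helper996) from the `(e, f)`
table.  `φ : F' →ₐ[E] F` is one of the degeneracy maps, `normAlong φ = N_{F / φ F'}`.

Vocabulary of the Spec v1.2, UNFOLDED here (so that this file does not depend on the Spec; the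
statements below are definitionally the fields of `TripleCtx`):
`UnitAt V y` = `y ≠ 0 ∧ y ∈ V ∧ y⁻¹ ∈ V`,
`UnifAt V t` = `t ≠ 0 ∧ t ∈ V.nonunits ∧ ∀ f ∈ V.nonunits, f * t⁻¹ ∈ V`.

* `eng_nr_split` : `Va` (`e = f = 1`), `Vb` (`e = q - 1`, `f = 1`) over `V'`, `[F : φ F'] = q`:
  `φ xa ≡ y` at `Va`, `φ xb ≡ y` at `Vb`  ⟹  `N y ≡ xa * xb ^ (q - 1)` at `V'`.
* `eng_nr_insep` : `V` over `V'`, `[F : φ F'] = q` prime `= char`, witness of inseparability: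
  `φ (N y) ≡ y ^ q` at `V` for all `y ∈ V`.
* `eng_nv_split`, `eng_nv_insep`, `eng_nv` : valuations of norms.
-/

set_option autoImplicit false
set_option linter.unusedSectionVars false
set_option linter.style.haveILetI false

namespace Fermat.Agent.S36.H253

open AlgebraicCurve
open Fermat.Agent.S35.H253
open Fermat.Agent.S29.H395 (normAlong)

section Vocab

variable {F : Type*} [Field F]

/-- `UnitAt V y` in valuation form. -/
theorem val_eq_one_of_unitAt (V : ValuationSubring F) {y : F}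
    (h : y ≠ 0 ∧ y ∈ V ∧ y⁻¹ ∈ V) : V.valuation y = 1 := by
  refine le_antisymm ((V.valuation_le_one_iff _).2 h.2.1) ?_
  have h2 := (V.valuation_le_one_iff _).2 h.2.2
  rw [map_inv₀] at h2
  exact (inv_le_one₀ (by rw [Valuation.pos_iff]; exact h.1)).1 h2

/-- `UnitAt V y` from the valuation. -/
theorem unitAt_of_val_eq_one (V : ValuationSubring F) {y : F} (h : V.valuation y = 1) :
    y ≠ 0 ∧ y ∈ V ∧ y⁻¹ ∈ V := by
  refine ⟨?_, (V.valuation_le_one_iff _).1 h.le, ?_⟩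
  · intro h0; rw [h0, map_zero] at h; exact zero_ne_one h
  · rw [← V.valuation_le_one_iff, map_inv₀, h, inv_one]

/-- `UnitAt V (y * (τ ^ a)⁻¹)` in valuation form. -/
theorem val_eq_zpow_of_unitAt (V : ValuationSubring F) {y τ : F} (hτ0 : τ ≠ 0) (a : ℤ)
    (h : y * (τ ^ a)⁻¹ ≠ 0 ∧ y * (τ ^ a)⁻¹ ∈ V ∧ (y * (τ ^ a)⁻¹)⁻¹ ∈ V) :
    V.valuation y = V.valuation τ ^ a := by
  have h1 := val_eq_one_of_unitAt V h
  have hτv : V.valuation τ ≠ 0 := by rw [Ne, Valuation.zero_iff]; exact hτ0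
  rw [map_mul, map_inv₀, map_zpow₀] at h1
  calc V.valuation y = V.valuation y * (V.valuation τ ^ a)⁻¹ * V.valuation τ ^ a := by
        rw [inv_mul_cancel_right₀ (zpow_ne_zero _ hτv)]
    _ = V.valuation τ ^ a := by rw [h1, one_mul]

/-- `UnitAt V (y * (τ ^ a)⁻¹)` from the valuation. -/
theorem unitAt_of_val_eq_zpow (V : ValuationSubring F) {y τ : F} (hτ0 : τ ≠ 0) (a : ℤ)
    (h : V.valuation y = V.valuation τ ^ a) :
    y * (τ ^ a)⁻¹ ≠ 0 ∧ y * (τ ^ a)⁻¹ ∈ V ∧ (y * (τ ^ a)⁻¹)⁻¹ ∈ V := by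
  apply unitAt_of_val_eq_one
  have hτv : V.valuation τ ≠ 0 := by rw [Ne, Valuation.zero_iff]; exact hτ0
  rw [map_mul, map_inv₀, map_zpow₀, h, mul_inv_cancel₀ (zpow_ne_zero _ hτv)]

/-- Two uniformisers have the same valuation. -/
theorem val_eq_of_unifAt (V : ValuationSubring F) {t t₀ : F}
    (ht : t ≠ 0 ∧ t ∈ V.nonunits ∧ ∀ f ∈ V.nonunits, f * t⁻¹ ∈ V)
    (ht₀ : t₀ ≠ 0 ∧ t₀ ∈ V.nonunits ∧ ∀ f ∈ V.nonunits, f * t₀⁻¹ ∈ V) :
    V.valuation t = V.valuation t₀ := by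
  have h1 := (V.valuation_le_one_iff _).2 (ht.2.2 t₀ ht₀.2.1)
  have h2 := (V.valuation_le_one_iff _).2 (ht₀.2.2 t ht.2.1)
  rw [map_mul, map_inv₀] at h1 h2
  have hp : 0 < V.valuation t := by rw [Valuation.pos_iff]; exact ht.1
  have hp₀ : 0 < V.valuation t₀ := by rw [Valuation.pos_iff]; exact ht₀.1
  refine le_antisymm ?_ ?_
  · calc V.valuation t = V.valuation t * (V.valuation t₀)⁻¹ * V.valuation t₀ := by
          rw [inv_mul_cancel_right₀ hp₀.ne']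
      _ ≤ 1 * V.valuation t₀ := by gcongr
      _ = _ := one_mul _
  · calc V.valuation t₀ = V.valuation t₀ * (V.valuation t)⁻¹ * V.valuation t := by
          rw [inv_mul_cancel_right₀ hp.ne']
      _ ≤ 1 * V.valuation t := by gcongr
      _ = _ := one_mul _

/-- The exponent of a power of an element of the maximal ideal is determined. -/
theorem zpow_inj_of_val (V : ValuationSubring F) {τ : F} (hτ0 : τ ≠ 0)
    (hτ : V.valuation τ < 1) {a b : ℤ} (h : V.valuation τ ^ a = V.valuation τ ^ b) : a = b := by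
  have hp : 0 < V.valuation τ := by rw [Valuation.pos_iff]; exact hτ0
  exact zpow_right_injective₀ hp hτ.ne h

/-- In a discrete valuation ring the value group is generated by the value of a uniformiser. -/
theorem hdvr_of_dvr (V : ValuationSubring F) (hV : IsDiscreteValuationRing V) {t : F}
    (ht : t ≠ 0 ∧ t ∈ V.nonunits ∧ ∀ f ∈ V.nonunits, f * t⁻¹ ∈ V) :
    ∀ y : F, y ≠ 0 → ∃ n : ℤ, V.valuation y = V.valuation t ^ n := by
  haveI := hV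
  obtain ⟨ht0, htn, htg⟩ := ht
  have htV : t ∈ V := V.nonunits_le htn
  have hirr : Irreducible (⟨t, htV⟩ : V) := by
    rw [IsDiscreteValuationRing.irreducible_iff_uniformizer]
    apply le_antisymm
    · intro f hf
      have hf' : (f : F) ∈ V.nonunits := ValuationSubring.coe_mem_nonunits_iff.2 hf
      rw [Ideal.mem_span_singleton]
      refine ⟨⟨(f : F) * t⁻¹, htg _ hf'⟩, Subtype.ext ?_⟩
      show (f : F) = t * ((f : F) * t⁻¹)
      rw [mul_comm, inv_mul_cancel_right₀ ht0]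
    · rw [Ideal.span_singleton_le_iff_mem]
      exact ValuationSubring.coe_mem_nonunits_iff.1 htn
  have key : ∀ y : F, y ≠ 0 → y ∈ V → ∃ n : ℕ, V.valuation y = V.valuation t ^ n := by
    intro y hy0 hyV
    have hy0' : (⟨y, hyV⟩ : V) ≠ 0 := fun h => hy0 (congrArg Subtype.val h)
    obtain ⟨n, u, hu⟩ := IsDiscreteValuationRing.eq_unit_mul_pow_irreducible hy0' hirr
    refine ⟨n, ?_⟩
    have h1 : y = ((u : V) : F) * t ^ n := congrArg Subtype.val hu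
    rw [h1, map_mul, map_pow, ValuationSubring.valuation_unit, one_mul]
  intro y hy0
  rcases V.mem_or_inv_mem y with hy | hy
  · obtain ⟨n, hn⟩ := key y hy0 hy
    exact ⟨n, by rw [hn, zpow_natCast]⟩
  · obtain ⟨n, hn⟩ := key y⁻¹ (inv_ne_zero hy0) hy
    refine ⟨-(n : ℤ), ?_⟩
    rw [zpow_neg, zpow_natCast, ← hn, map_inv₀, inv_inv]

end Vocab

section Down

variable {K F : Type*} [Field K] [Field F] [Algebra K F]

/-- **Discreteness goes down** along an extension with `e = 1`. -/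
theorem hdvr_down {O : ValuationSubring K} {V : ValuationSubring F} (h : Over O V) {ϖ : K}
    (hϖ0 : ϖ ≠ 0)
    (hV : ∀ y : F, y ≠ 0 → ∃ n : ℤ, V.valuation y = V.valuation (algebraMap K F ϖ) ^ n) :
    ∀ a : K, a ≠ 0 → ∃ n : ℤ, O.valuation a = O.valuation ϖ ^ n := by
  intro a ha0
  obtain ⟨n, hn⟩ := hV (algebraMap K F a) ((map_ne_zero _).2 ha0)
  refine ⟨n, ?_⟩
  have hvϖ : O.valuation ϖ ≠ 0 := by rw [Ne, Valuation.zero_iff]; exact hϖ0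
  have hvϖF : V.valuation (algebraMap K F ϖ) ≠ 0 := by
    rw [Ne, Valuation.zero_iff, map_eq_zero]; exact hϖ0
  have h1 : V.valuation (algebraMap K F (a * (ϖ ^ n)⁻¹)) = 1 := by
    rw [map_mul, map_inv₀, map_zpow₀, map_mul, map_inv₀, map_zpow₀, hn,
      mul_inv_cancel₀ (zpow_ne_zero _ hvϖF)]
  have h2 : O.valuation (a * (ϖ ^ n)⁻¹) = 1 := by
    refine le_antisymm ((h.val_le_one_iff _).1 h1.le) ?_
    rw [← not_lt, ← h.val_lt_one_iff, h1]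
    exact lt_irrefl _
  rw [map_mul, map_inv₀, map_zpow₀] at h2
  calc O.valuation a = O.valuation a * (O.valuation ϖ ^ n)⁻¹ * O.valuation ϖ ^ n := by
        rw [inv_mul_cancel_right₀ (zpow_ne_zero _ hvϖ)]
    _ = O.valuation ϖ ^ n := by rw [h2, one_mul]

end Down

section Along

variable {R E F F' : Type*} [CommRing R] [Field E] [Algebra R E]
  [Field F] [Algebra E F] [Algebra R F]
  [Field F'] [Algebra E F'] [Algebra R F']

/-- A degeneracy map commutes with the structure maps from `R`. -/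
theorem along_algebraMap [IsScalarTower R E F] [IsScalarTower R E F'] (φ : F' →ₐ[E] F) (w : R) :
    φ (algebraMap R F' w) = algebraMap R F w := by
  rw [IsScalarTower.algebraMap_apply R E F', IsScalarTower.algebraMap_apply R E F,
    AlgHom.commutes]

/-- `V.comap φ = V'` says that `V` lies over `V'` along `φ`. -/
theorem over_of_comap (φ : F' →ₐ[E] F) {V : ValuationSubring F} {V' : ValuationSubring F'}
    (hc : V.comap (φ : F' →+* F) = V') :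
    letI := algebraAlong φ
    Over V' V := by
  letI := algebraAlong φ
  intro a
  rw [← hc]
  exact Iff.rfl

variable (w : R) (q : ℕ) (φ : F' →ₐ[E] F)

/-- The value group of `V'` is generated by `v' (w)` if `V` over `V'` is a discrete valuation
ring with uniformiser `w`. -/
theorem eng_hdvr {V' : ValuationSubring F'} {V : ValuationSubring F}
    (hc : V.comap (φ : F' →+* F) = V')
    (hφw : φ (algebraMap R F' w) = algebraMap R F w)
    (hdvrV : IsDiscreteValuationRing V)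
    (hunif : algebraMap R F w ≠ 0 ∧ algebraMap R F w ∈ V.nonunits ∧
      ∀ f ∈ V.nonunits, f * (algebraMap R F w)⁻¹ ∈ V) :
    algebraMap R F' w ≠ 0 ∧ V'.valuation (algebraMap R F' w) < 1 ∧
      ∀ a : F', a ≠ 0 → ∃ n : ℤ, V'.valuation a = V'.valuation (algebraMap R F' w) ^ n := by
  letI := algebraAlong φ
  have ho : Over V' V := over_of_comap φ hc
  have hwF : algebraMap F' F (algebraMap R F' w) = algebraMap R F w := hφw
  have hw0 : algebraMap R F' w ≠ 0 := by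
    intro h0
    rw [h0, map_zero] at hwF
    exact hunif.1 hwF.symm
  refine ⟨hw0, ?_, ?_⟩
  · rw [← ho.val_lt_one_iff, hwF]; exact hunif.2.1
  · refine hdvr_down ho hw0 ?_
    rw [hwF]
    exact hdvr_of_dvr V hdvrV hunif

/-- **NR, split case** (fields `nr_α₁`, `nr_β₁` of `TripleCtx`), strong form: `y ∈ Va ∩ Vb`. -/
theorem eng_nr_split_mem (hfin : FiniteAlong E φ) (hdeg : finrankAlong E φ = q) (hq : 0 < q)
    {V' : ValuationSubring F'} {Va Vb : ValuationSubring F}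
    (hca : Va.comap (φ : F' →+* F) = V') (hcb : Vb.comap (φ : F' →+* F) = V') (hne : Va ≠ Vb)
    (hφw : φ (algebraMap R F' w) = algebraMap R F w)
    (hdvra : IsDiscreteValuationRing Va)
    (hunifa : algebraMap R F w ≠ 0 ∧ algebraMap R F w ∈ Va.nonunits ∧
      ∀ f ∈ Va.nonunits, f * (algebraMap R F w)⁻¹ ∈ Va)
    (hram : ∃ t : F, (t ≠ 0 ∧ t ∈ Vb.nonunits ∧ ∀ f ∈ Vb.nonunits, f * t⁻¹ ∈ Vb) ∧
      (algebraMap R F w * (t ^ (q - 1))⁻¹ ≠ 0 ∧ algebraMap R F w * (t ^ (q - 1))⁻¹ ∈ Vb ∧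
        (algebraMap R F w * (t ^ (q - 1))⁻¹)⁻¹ ∈ Vb)) :
    ∀ y : F, y ∈ Va → y ∈ Vb → ∀ xa xb : F',
      φ xa - y ∈ Va.nonunits → φ xb - y ∈ Vb.nonunits →
        normAlong φ y - xa * xb ^ (q - 1) ∈ V'.nonunits := by
  letI := algebraAlong φ
  haveI : Module.Finite F' F := hfin
  intro y hya hyb xa xb hxa hxb
  have hoa : Over V' Va := over_of_comap φ hca
  have hob : Over V' Vb := over_of_comap φ hcb
  have hwF : algebraMap F' F (algebraMap R F' w) = algebraMap R F w := hφw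
  obtain ⟨hw0, hϖ, hdvr⟩ := eng_hdvr w φ hca hφw hdvra hunifa
  obtain ⟨t, ht, hu⟩ := hram
  have hram' : Vb.valuation (algebraMap F' F (algebraMap R F' w)) =
      Vb.valuation t ^ (q - 1) := by
    rw [hwF]
    have := val_eq_zpow_of_unitAt Vb ht.1 ((q - 1 : ℕ) : ℤ) (by rw [zpow_natCast]; exact hu)
    rw [this, zpow_natCast]
  have hdeg' : Module.finrank F' F = 1 + (q - 1) := by
    have : Module.finrank F' F = q := hdeg
    omega
  exact normResSplit_lb hoa hob hne hw0 hϖ hdvr (τ := t) (e := q - 1) ht.2.1 hram' hdeg'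
    y hya hyb xa xb
    (by
      have : y - algebraMap F' F xa = -(φ xa - y) := by
        show y - φ xa = -(φ xa - y); ring
      rw [this]; exact (Va.nonunits).neg_mem hxa)
    (by
      have : y - algebraMap F' F xb = -(φ xb - y) := by
        show y - φ xb = -(φ xb - y); ring
      rw [this]; exact (Vb.nonunits).neg_mem hxb)

/-- **NR, split case**: EXACT shape of the fields `nr_α₁`, `nr_β₁` of `TripleCtx` (v1.2). -/
theorem eng_nr_split (hfin : FiniteAlong E φ) (hdeg : finrankAlong E φ = q) (hq : 0 < q)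
    {V' : ValuationSubring F'} {Va Vb : ValuationSubring F}
    (hca : Va.comap (φ : F' →+* F) = V') (hcb : Vb.comap (φ : F' →+* F) = V') (hne : Va ≠ Vb)
    (hφw : φ (algebraMap R F' w) = algebraMap R F w)
    (hdvra : IsDiscreteValuationRing Va)
    (hunifa : algebraMap R F w ≠ 0 ∧ algebraMap R F w ∈ Va.nonunits ∧
      ∀ f ∈ Va.nonunits, f * (algebraMap R F w)⁻¹ ∈ Va)
    (hram : ∃ t : F, (t ≠ 0 ∧ t ∈ Vb.nonunits ∧ ∀ f ∈ Vb.nonunits, f * t⁻¹ ∈ Vb) ∧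
      (algebraMap R F w * (t ^ (q - 1))⁻¹ ≠ 0 ∧ algebraMap R F w * (t ^ (q - 1))⁻¹ ∈ Vb ∧
        (algebraMap R F w * (t ^ (q - 1))⁻¹)⁻¹ ∈ Vb)) :
    ∀ y : F, (y ≠ 0 ∧ y ∈ Va ∧ y⁻¹ ∈ Va) → (y ≠ 0 ∧ y ∈ Vb ∧ y⁻¹ ∈ Vb) → ∀ xa xb : F',
      φ xa - y ∈ Va.nonunits → φ xb - y ∈ Vb.nonunits →
        normAlong φ y - xa * xb ^ (q - 1) ∈ V'.nonunits :=
  fun y hya hyb => eng_nr_split_mem w q φ hfin hdeg hq hca hcb hne hφw hdvra hunifa hram
    y hya.2.1 hyb.2.1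

/-- **NV, split case** (first halves of the fields `nv_α`, `nv_β` of `TripleCtx`). -/
theorem eng_nv_split (hfin : FiniteAlong E φ) (hdeg : finrankAlong E φ = q) (hq : 0 < q)
    {V' : ValuationSubring F'} {Va Vb : ValuationSubring F}
    (hca : Va.comap (φ : F' →+* F) = V') (hcb : Vb.comap (φ : F' →+* F) = V') (hne : Va ≠ Vb)
    (hφw : φ (algebraMap R F' w) = algebraMap R F w)
    (hdvra : IsDiscreteValuationRing Va)
    (hunifa : algebraMap R F w ≠ 0 ∧ algebraMap R F w ∈ Va.nonunits ∧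
      ∀ f ∈ Va.nonunits, f * (algebraMap R F w)⁻¹ ∈ Va)
    (hram : ∃ t : F, (t ≠ 0 ∧ t ∈ Vb.nonunits ∧ ∀ f ∈ Vb.nonunits, f * t⁻¹ ∈ Vb) ∧
      (algebraMap R F w * (t ^ (q - 1))⁻¹ ≠ 0 ∧ algebraMap R F w * (t ^ (q - 1))⁻¹ ∈ Vb ∧
        (algebraMap R F w * (t ^ (q - 1))⁻¹)⁻¹ ∈ Vb)) :
    ∀ t : F, (t ≠ 0 ∧ t ∈ Vb.nonunits ∧ ∀ f ∈ Vb.nonunits, f * t⁻¹ ∈ Vb) →
      ∀ (y : F) (aa ab : ℤ), y ≠ 0 →
        (y * (algebraMap R F w ^ aa)⁻¹ ≠ 0 ∧ y * (algebraMap R F w ^ aa)⁻¹ ∈ Va ∧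
          (y * (algebraMap R F w ^ aa)⁻¹)⁻¹ ∈ Va) →
        (y * (t ^ ab)⁻¹ ≠ 0 ∧ y * (t ^ ab)⁻¹ ∈ Vb ∧ (y * (t ^ ab)⁻¹)⁻¹ ∈ Vb) →
        (normAlong φ y * (algebraMap R F' w ^ (aa + ab))⁻¹ ≠ 0 ∧
          normAlong φ y * (algebraMap R F' w ^ (aa + ab))⁻¹ ∈ V' ∧
          (normAlong φ y * (algebraMap R F' w ^ (aa + ab))⁻¹)⁻¹ ∈ V') := by
  letI := algebraAlong φ
  haveI : Module.Finite F' F := hfin
  intro t ht y aa ab hy0 hya hyb
  have hoa : Over V' Va := over_of_comap φ hca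
  have hob : Over V' Vb := over_of_comap φ hcb
  have hwF : algebraMap F' F (algebraMap R F' w) = algebraMap R F w := hφw
  obtain ⟨hw0, hϖ, hdvr⟩ := eng_hdvr w φ hca hφw hdvra hunifa
  obtain ⟨t₀, ht₀, hu⟩ := hram
  have hram' : Vb.valuation (algebraMap F' F (algebraMap R F' w)) =
      Vb.valuation t₀ ^ (q - 1) := by
    rw [hwF]
    have := val_eq_zpow_of_unitAt Vb ht₀.1 ((q - 1 : ℕ) : ℤ) (by rw [zpow_natCast]; exact hu)
    rw [this, zpow_natCast]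
  have hdeg' : Module.finrank F' F = 1 + (q - 1) := by
    have : Module.finrank F' F = q := hdeg
    omega
  have ht₀v : Vb.valuation t₀ < 1 := ht₀.2.1
  have hwa : Va.valuation (algebraMap R F w) < 1 := hunifa.2.1
  obtain ⟨a, ha, hN⟩ := valNorm_split (ι := Bool) (V := fun b => cond b Va Vb)
    (τ := fun b => cond b (algebraMap F' F (algebraMap R F' w)) t₀) (E := fun b => cond b 1 (q - 1))
    (fun b => by cases b <;> assumption)
    (fun b b' hbb' => by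
      cases b <;> cases b'
      · exact absurd rfl hbb'
      · intro hle
        exact hne (eq_of_le_of_over hob hoa hw0 hϖ hdvr hle).symm
      · intro hle
        exact hne (eq_of_le_of_over hoa hob hw0 hϖ hdvr hle)
      · exact absurd rfl hbb')
    hw0 hϖ hdvr
    (fun b => by
      cases b
      · exact ht₀v
      · exact (hoa.val_lt_one_iff _).2 hϖ)
    (fun b => by
      cases b
      · exact hram'
      · simp)
    (by rw [Fintype.sum_bool, hdeg']; rfl) hy0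
  have h1 : a true = aa := by
    have e1 := ha true
    have e2 := val_eq_zpow_of_unitAt Va hunifa.1 aa hya
    simp only [cond_true] at e1
    rw [hwF, e2] at e1
    exact (zpow_inj_of_val Va hunifa.1 hwa e1).symm
  have h2 : a false = ab := by
    have e1 := ha false
    have e2 := val_eq_zpow_of_unitAt Vb ht.1 ab hyb
    simp only [cond_false] at e1
    rw [e2, val_eq_of_unifAt Vb ht ht₀] at e1
    exact (zpow_inj_of_val Vb ht₀.1 ht₀v e1).symm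
  rw [Fintype.sum_bool, h1, h2] at hN
  exact unitAt_of_val_eq_zpow V' hw0 (aa + ab) hN

/-- **NR, purely inseparable case**: EXACT shape of the fields `nr_α₂`, `nr_β₂` of `TripleCtx`
(strong form: all `y ∈ V`).  Witness of inseparability: `z₀ ∈ V`, `c₀ ∈ F'` with
`z₀ ^ q ≡ φ c₀` at `V` and `c₀` not a `q`-th power modulo `𝔪_{V'}`. -/
theorem eng_nr_insep_mem (hfin : FiniteAlong E φ) (hdeg : finrankAlong E φ = q) (hq : q.Prime)
    {V' : ValuationSubring F'} {V : ValuationSubring F}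
    (hc : V.comap (φ : F' →+* F) = V')
    (hφw : φ (algebraMap R F' w) = algebraMap R F w)
    (hdvrV : IsDiscreteValuationRing V)
    (hunif : algebraMap R F w ≠ 0 ∧ algebraMap R F w ∈ V.nonunits ∧
      ∀ f ∈ V.nonunits, f * (algebraMap R F w)⁻¹ ∈ V)
    (hqV : (q : F) ∈ V.nonunits)
    {z₀ : F} {c₀ : F'} (hz₀ : z₀ ∈ V) (hzc : z₀ ^ q - φ c₀ ∈ V.nonunits)
    (hnp : ∀ a : F', a ∈ V' → a ^ q - c₀ ∉ V'.nonunits) :
    ∀ y : F, y ∈ V → φ (normAlong φ y) - y ^ q ∈ V.nonunits := by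
  letI := algebraAlong φ
  haveI : Module.Finite F' F := hfin
  have ho : Over V' V := over_of_comap φ hc
  obtain ⟨hw0, hϖ, hdvr⟩ := eng_hdvr w φ hc hφw hdvrV hunif
  have hqO : V'.valuation ((q : ℕ) : F') < 1 := by
    rw [← ho.val_lt_one_iff, map_natCast]; exact hqV
  exact normResInsep_all ho hw0 hϖ hdvr q hq hqO hdeg hz₀ hzc hnp

/-- **NR, purely inseparable case**: EXACT shape of the fields `nr_α₂`, `nr_β₂`. -/
theorem eng_nr_insep (hfin : FiniteAlong E φ) (hdeg : finrankAlong E φ = q) (hq : q.Prime)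
    {V' : ValuationSubring F'} {V : ValuationSubring F}
    (hc : V.comap (φ : F' →+* F) = V')
    (hφw : φ (algebraMap R F' w) = algebraMap R F w)
    (hdvrV : IsDiscreteValuationRing V)
    (hunif : algebraMap R F w ≠ 0 ∧ algebraMap R F w ∈ V.nonunits ∧
      ∀ f ∈ V.nonunits, f * (algebraMap R F w)⁻¹ ∈ V)
    (hqV : (q : F) ∈ V.nonunits)
    {z₀ : F} {c₀ : F'} (hz₀ : z₀ ∈ V) (hzc : z₀ ^ q - φ c₀ ∈ V.nonunits)
    (hnp : ∀ a : F', a ∈ V' → a ^ q - c₀ ∉ V'.nonunits) :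
    ∀ y : F, (y ≠ 0 ∧ y ∈ V ∧ y⁻¹ ∈ V) → φ (normAlong φ y) - y ^ q ∈ V.nonunits :=
  fun y hy => eng_nr_insep_mem w q φ hfin hdeg hq hc hφw hdvrV hunif hqV hz₀ hzc hnp y hy.2.1

/-- **NV, purely inseparable case** (second halves of the fields `nv_α`, `nv_β`). -/
theorem eng_nv_insep (hfin : FiniteAlong E φ) (hdeg : finrankAlong E φ = q) (hq : q.Prime)
    {V' : ValuationSubring F'} {V : ValuationSubring F}
    (hc : V.comap (φ : F' →+* F) = V')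
    (hφw : φ (algebraMap R F' w) = algebraMap R F w)
    (hdvrV : IsDiscreteValuationRing V)
    (hunif : algebraMap R F w ≠ 0 ∧ algebraMap R F w ∈ V.nonunits ∧
      ∀ f ∈ V.nonunits, f * (algebraMap R F w)⁻¹ ∈ V)
    (hqV : (q : F) ∈ V.nonunits)
    {z₀ : F} {c₀ : F'} (hz₀ : z₀ ∈ V) (hzc : z₀ ^ q - φ c₀ ∈ V.nonunits)
    (hnp : ∀ a : F', a ∈ V' → a ^ q - c₀ ∉ V'.nonunits) :
    ∀ (y : F) (a : ℤ), y ≠ 0 →
      (y * (algebraMap R F w ^ a)⁻¹ ≠ 0 ∧ y * (algebraMap R F w ^ a)⁻¹ ∈ V ∧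
        (y * (algebraMap R F w ^ a)⁻¹)⁻¹ ∈ V) →
      (normAlong φ y * (algebraMap R F' w ^ ((q : ℤ) * a))⁻¹ ≠ 0 ∧
        normAlong φ y * (algebraMap R F' w ^ ((q : ℤ) * a))⁻¹ ∈ V' ∧
        (normAlong φ y * (algebraMap R F' w ^ ((q : ℤ) * a))⁻¹)⁻¹ ∈ V') := by
  letI := algebraAlong φ
  haveI : Module.Finite F' F := hfin
  intro y a hy0 hya
  have ho : Over V' V := over_of_comap φ hc
  have hwF : algebraMap F' F (algebraMap R F' w) = algebraMap R F w := hφw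
  obtain ⟨hw0, hϖ, hdvr⟩ := eng_hdvr w φ hc hφw hdvrV hunif
  have hqO : V'.valuation ((q : ℕ) : F') < 1 := by
    rw [← ho.val_lt_one_iff, map_natCast]; exact hqV
  obtain ⟨a', ha', hN⟩ := valNorm_insep ho hw0 hϖ hdvr q hq hqO hdeg hz₀ hzc hnp hy0
  have e2 := val_eq_zpow_of_unitAt V hunif.1 a hya
  rw [hwF, e2] at ha'
  have h1 : a' = a := (zpow_inj_of_val V hunif.1 hunif.2.1 ha').symm
  rw [h1] at hN
  exact unitAt_of_val_eq_zpow V' hw0 ((q : ℤ) * a) hN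

/-- **NV**: EXACT shape of the fields `nv_α` (`Va, Vb, Vc = V₁, V₂, V₃`, `V₁', V₂'`) and, after
permuting the arguments, `nv_β` (`Va, Vb, Vc = V₃, V₂, V₁`, with `V₂', V₁'`) of `TripleCtx`. -/
theorem eng_nv (hfin : FiniteAlong E φ) (hdeg : finrankAlong E φ = q) (hq : q.Prime)
    {V₁' V₂' : ValuationSubring F'} {Va Vb Vc : ValuationSubring F}
    (hca : Va.comap (φ : F' →+* F) = V₁') (hcb : Vb.comap (φ : F' →+* F) = V₁')
    (hcc : Vc.comap (φ : F' →+* F) = V₂') (hne : Va ≠ Vb)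
    (hφw : φ (algebraMap R F' w) = algebraMap R F w)
    (hdvra : IsDiscreteValuationRing Va)
    (hunifa : algebraMap R F w ≠ 0 ∧ algebraMap R F w ∈ Va.nonunits ∧
      ∀ f ∈ Va.nonunits, f * (algebraMap R F w)⁻¹ ∈ Va)
    (hram : ∃ t : F, (t ≠ 0 ∧ t ∈ Vb.nonunits ∧ ∀ f ∈ Vb.nonunits, f * t⁻¹ ∈ Vb) ∧
      (algebraMap R F w * (t ^ (q - 1))⁻¹ ≠ 0 ∧ algebraMap R F w * (t ^ (q - 1))⁻¹ ∈ Vb ∧
        (algebraMap R F w * (t ^ (q - 1))⁻¹)⁻¹ ∈ Vb))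
    (hdvrc : IsDiscreteValuationRing Vc)
    (hunifc : algebraMap R F w ≠ 0 ∧ algebraMap R F w ∈ Vc.nonunits ∧
      ∀ f ∈ Vc.nonunits, f * (algebraMap R F w)⁻¹ ∈ Vc)
    (hqV : (q : F) ∈ Vc.nonunits)
    {z₀ : F} {c₀ : F'} (hz₀ : z₀ ∈ Vc) (hzc : z₀ ^ q - φ c₀ ∈ Vc.nonunits)
    (hnp : ∀ a : F', a ∈ V₂' → a ^ q - c₀ ∉ V₂'.nonunits) :
    ∀ t : F, (t ≠ 0 ∧ t ∈ Vb.nonunits ∧ ∀ f ∈ Vb.nonunits, f * t⁻¹ ∈ Vb) →
      ∀ (y : F) (aa ab ac : ℤ), y ≠ 0 →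
        (y * (algebraMap R F w ^ aa)⁻¹ ≠ 0 ∧ y * (algebraMap R F w ^ aa)⁻¹ ∈ Va ∧
          (y * (algebraMap R F w ^ aa)⁻¹)⁻¹ ∈ Va) →
        (y * (t ^ ab)⁻¹ ≠ 0 ∧ y * (t ^ ab)⁻¹ ∈ Vb ∧ (y * (t ^ ab)⁻¹)⁻¹ ∈ Vb) →
        (y * (algebraMap R F w ^ ac)⁻¹ ≠ 0 ∧ y * (algebraMap R F w ^ ac)⁻¹ ∈ Vc ∧
          (y * (algebraMap R F w ^ ac)⁻¹)⁻¹ ∈ Vc) →
        (normAlong φ y * (algebraMap R F' w ^ (aa + ab))⁻¹ ≠ 0 ∧
          normAlong φ y * (algebraMap R F' w ^ (aa + ab))⁻¹ ∈ V₁' ∧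
          (normAlong φ y * (algebraMap R F' w ^ (aa + ab))⁻¹)⁻¹ ∈ V₁') ∧
        (normAlong φ y * (algebraMap R F' w ^ ((q : ℤ) * ac))⁻¹ ≠ 0 ∧
          normAlong φ y * (algebraMap R F' w ^ ((q : ℤ) * ac))⁻¹ ∈ V₂' ∧
          (normAlong φ y * (algebraMap R F' w ^ ((q : ℤ) * ac))⁻¹)⁻¹ ∈ V₂') :=
  fun t ht y aa ab ac hy0 hya hyb hyc =>
    ⟨eng_nv_split w q φ hfin hdeg hq.pos hca hcb hne hφw hdvra hunifa hram t ht y aa ab hy0
        hya hyb,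
      eng_nv_insep w q φ hfin hdeg hq hcc hφw hdvrc hunifc hqV hz₀ hzc hnp y ac hy0 hyc⟩

/-- The residue characteristic: `q ∈ 𝔪_V` if `w ∣ q` in `R` and `R ⊆ V`, `w ∈ 𝔪_V`. -/
theorem natCast_mem_nonunits {V : ValuationSubring F} (hR : ∀ r : R, algebraMap R F r ∈ V)
    (hw : algebraMap R F w ∈ V.nonunits) (hqw : w ∣ (q : R)) : (q : F) ∈ V.nonunits := by
  obtain ⟨r, hr⟩ := hqw
  have h1 : (q : F) = algebraMap R F w * algebraMap R F r := by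
    rw [← map_mul, ← hr, map_natCast]
  rw [h1, ValuationSubring.mem_nonunits_iff, map_mul]
  have h2 : V.valuation (algebraMap R F r) ≤ 1 := (V.valuation_le_one_iff _).2 (hR r)
  have h3 : V.valuation (algebraMap R F w) < 1 := hw
  calc V.valuation (algebraMap R F w) * V.valuation (algebraMap R F r)
      ≤ V.valuation (algebraMap R F w) * 1 := by gcongr
    _ = V.valuation (algebraMap R F w) := mul_one _
    _ < 1 := h3

/-- The witness of inseparability in the form "`z₀` is not congruent at `V` to an element of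
`φ V'`" gives the form "`c₀` is not a `q`-th power modulo `𝔪_{V'}`". -/
theorem hnp_of_not_congr (hq : q.Prime) {V' : ValuationSubring F'} {V : ValuationSubring F}
    (hc : V.comap (φ : F' →+* F) = V') (hqV : (q : F) ∈ V.nonunits)
    {z₀ : F} {c₀ : F'} (hz₀ : z₀ ∈ V) (hzc : z₀ ^ q - φ c₀ ∈ V.nonunits)
    (hnc : ∀ a : F', a ∈ V' → z₀ - φ a ∉ V.nonunits) :
    ∀ a : F', a ∈ V' → a ^ q - c₀ ∉ V'.nonunits := by
  letI := algebraAlong φ
  have ho : Over V' V := over_of_comap φ hc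
  intro a ha hac
  apply hnc a ha
  have haV : φ a ∈ V := (ho a).2 ha
  have h1 : φ (a ^ q - c₀) ∈ V.nonunits := by
    have := (ho.val_lt_one_iff (a ^ q - c₀)).2 hac
    exact this
  rw [map_sub, map_pow] at h1
  have h2 : z₀ ^ q - φ a ^ q ∈ V.nonunits := by
    have : z₀ ^ q - φ a ^ q = (z₀ ^ q - φ c₀) - (φ a ^ q - φ c₀) := by ring
    rw [this]
    exact (V.nonunits).sub_mem hzc h1
  -- pass to the residue field, of characteristic `q`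
  haveI : Fact q.Prime := ⟨hq⟩
  have hq0 : ((q : ℕ) : IsLocalRing.ResidueField V) = 0 := by
    have : IsLocalRing.residue V ⟨(q : F), V.nonunits_le hqV⟩ = 0 := by
      rw [IsLocalRing.residue_eq_zero_iff]
      exact ValuationSubring.coe_mem_nonunits_iff.1 hqV
    rw [← this, ← map_natCast (IsLocalRing.residue V)]
    rfl
  haveI : CharP (IsLocalRing.ResidueField V) q :=
    (CharP.charP_iff_prime_eq_zero hq).2 hq0
  have h3 : IsLocalRing.residue V (⟨z₀, hz₀⟩ - ⟨φ a, haV⟩) ^ q = 0 := by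
    rw [map_sub, sub_pow_char, ← map_pow, ← map_pow, ← map_sub,
      IsLocalRing.residue_eq_zero_iff]
    exact ValuationSubring.coe_mem_nonunits_iff.1 h2
  have h4 := pow_eq_zero_iff (hq.ne_zero) |>.1 h3
  rw [IsLocalRing.residue_eq_zero_iff] at h4
  exact ValuationSubring.coe_mem_nonunits_iff.2 h4

/-- **All six NORM fields of `TripleCtx` at once** (`nv_α`, `nv_β`, `nr_α₁`, `nr_α₂`, `nr_β₁`,
`nr_β₂`, in this order, shapes of Spec v1.2 with `UnitAt`, `UnifAt` unfolded) from: the degrees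
`[F : α F'] = [F : β F'] = q`, the fields `dvr₁ dvr₃ ne₁₂ ne₂₃ unif₁ unif₃ ram₂ comap_*` of
`TripleCtx`, the residue characteristic, and one witness of inseparability for `α` at `V₃`
(`zα ^ q ≡ α cα`, `cα` not a `q`-th power modulo `𝔪_{V₂'}`) and one for `β` at `V₁`. -/
theorem eng_norm_six (hq : q.Prime) (α β : F' →ₐ[E] F)
    {V₁ V₂ V₃ : ValuationSubring F} {V₁' V₂' : ValuationSubring F'}
    (fin_α : FiniteAlong E α) (fin_β : FiniteAlong E β)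
    (deg_α : finrankAlong E α = q) (deg_β : finrankAlong E β = q)
    (hαw : α (algebraMap R F' w) = algebraMap R F w)
    (hβw : β (algebraMap R F' w) = algebraMap R F w)
    (dvr₁ : IsDiscreteValuationRing V₁) (dvr₃ : IsDiscreteValuationRing V₃)
    (ne₁₂ : V₁ ≠ V₂) (ne₂₃ : V₂ ≠ V₃)
    (unif₁ : algebraMap R F w ≠ 0 ∧ algebraMap R F w ∈ V₁.nonunits ∧
      ∀ f ∈ V₁.nonunits, f * (algebraMap R F w)⁻¹ ∈ V₁)
    (unif₃ : algebraMap R F w ≠ 0 ∧ algebraMap R F w ∈ V₃.nonunits ∧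
      ∀ f ∈ V₃.nonunits, f * (algebraMap R F w)⁻¹ ∈ V₃)
    (ram₂ : ∃ t : F, (t ≠ 0 ∧ t ∈ V₂.nonunits ∧ ∀ f ∈ V₂.nonunits, f * t⁻¹ ∈ V₂) ∧
      (algebraMap R F w * (t ^ (q - 1))⁻¹ ≠ 0 ∧ algebraMap R F w * (t ^ (q - 1))⁻¹ ∈ V₂ ∧
        (algebraMap R F w * (t ^ (q - 1))⁻¹)⁻¹ ∈ V₂))
    (comap_α₁ : V₁.comap (α : F' →+* F) = V₁')
    (comap_α₂ : V₂.comap (α : F' →+* F) = V₁')
    (comap_α₃ : V₃.comap (α : F' →+* F) = V₂')
    (comap_β₁ : V₁.comap (β : F' →+* F) = V₁')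
    (comap_β₂ : V₂.comap (β : F' →+* F) = V₂')
    (comap_β₃ : V₃.comap (β : F' →+* F) = V₂')
    (hq₁ : (q : F) ∈ V₁.nonunits) (hq₃ : (q : F) ∈ V₃.nonunits)
    {zα : F} {cα : F'} (hzα : zα ∈ V₃) (hzcα : zα ^ q - α cα ∈ V₃.nonunits)
    (hnpα : ∀ a : F', a ∈ V₂' → a ^ q - cα ∉ V₂'.nonunits)
    {zβ : F} {cβ : F'} (hzβ : zβ ∈ V₁) (hzcβ : zβ ^ q - β cβ ∈ V₁.nonunits)
    (hnpβ : ∀ a : F', a ∈ V₁' → a ^ q - cβ ∉ V₁'.nonunits) :
    (∀ t : F, (t ≠ 0 ∧ t ∈ V₂.nonunits ∧ ∀ f ∈ V₂.nonunits, f * t⁻¹ ∈ V₂) →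
      ∀ (y : F) (a₁ a₂ a₃ : ℤ), y ≠ 0 →
        (y * (algebraMap R F w ^ a₁)⁻¹ ≠ 0 ∧ y * (algebraMap R F w ^ a₁)⁻¹ ∈ V₁ ∧
          (y * (algebraMap R F w ^ a₁)⁻¹)⁻¹ ∈ V₁) →
        (y * (t ^ a₂)⁻¹ ≠ 0 ∧ y * (t ^ a₂)⁻¹ ∈ V₂ ∧ (y * (t ^ a₂)⁻¹)⁻¹ ∈ V₂) →
        (y * (algebraMap R F w ^ a₃)⁻¹ ≠ 0 ∧ y * (algebraMap R F w ^ a₃)⁻¹ ∈ V₃ ∧
          (y * (algebraMap R F w ^ a₃)⁻¹)⁻¹ ∈ V₃) →
        (normAlong α y * (algebraMap R F' w ^ (a₁ + a₂))⁻¹ ≠ 0 ∧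
          normAlong α y * (algebraMap R F' w ^ (a₁ + a₂))⁻¹ ∈ V₁' ∧
          (normAlong α y * (algebraMap R F' w ^ (a₁ + a₂))⁻¹)⁻¹ ∈ V₁') ∧
        (normAlong α y * (algebraMap R F' w ^ ((q : ℤ) * a₃))⁻¹ ≠ 0 ∧
          normAlong α y * (algebraMap R F' w ^ ((q : ℤ) * a₃))⁻¹ ∈ V₂' ∧
          (normAlong α y * (algebraMap R F' w ^ ((q : ℤ) * a₃))⁻¹)⁻¹ ∈ V₂')) ∧
    (∀ t : F, (t ≠ 0 ∧ t ∈ V₂.nonunits ∧ ∀ f ∈ V₂.nonunits, f * t⁻¹ ∈ V₂) →
      ∀ (y : F) (a₁ a₂ a₃ : ℤ), y ≠ 0 →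
        (y * (algebraMap R F w ^ a₁)⁻¹ ≠ 0 ∧ y * (algebraMap R F w ^ a₁)⁻¹ ∈ V₁ ∧
          (y * (algebraMap R F w ^ a₁)⁻¹)⁻¹ ∈ V₁) →
        (y * (t ^ a₂)⁻¹ ≠ 0 ∧ y * (t ^ a₂)⁻¹ ∈ V₂ ∧ (y * (t ^ a₂)⁻¹)⁻¹ ∈ V₂) →
        (y * (algebraMap R F w ^ a₃)⁻¹ ≠ 0 ∧ y * (algebraMap R F w ^ a₃)⁻¹ ∈ V₃ ∧
          (y * (algebraMap R F w ^ a₃)⁻¹)⁻¹ ∈ V₃) →
        (normAlong β y * (algebraMap R F' w ^ (a₃ + a₂))⁻¹ ≠ 0 ∧
          normAlong β y * (algebraMap R F' w ^ (a₃ + a₂))⁻¹ ∈ V₂' ∧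
          (normAlong β y * (algebraMap R F' w ^ (a₃ + a₂))⁻¹)⁻¹ ∈ V₂') ∧
        (normAlong β y * (algebraMap R F' w ^ ((q : ℤ) * a₁))⁻¹ ≠ 0 ∧
          normAlong β y * (algebraMap R F' w ^ ((q : ℤ) * a₁))⁻¹ ∈ V₁' ∧
          (normAlong β y * (algebraMap R F' w ^ ((q : ℤ) * a₁))⁻¹)⁻¹ ∈ V₁')) ∧
    (∀ y : F, (y ≠ 0 ∧ y ∈ V₁ ∧ y⁻¹ ∈ V₁) → (y ≠ 0 ∧ y ∈ V₂ ∧ y⁻¹ ∈ V₂) → ∀ x₁ x₂ : F',
      α x₁ - y ∈ V₁.nonunits → α x₂ - y ∈ V₂.nonunits →
        normAlong α y - x₁ * x₂ ^ (q - 1) ∈ V₁'.nonunits) ∧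
    (∀ y : F, (y ≠ 0 ∧ y ∈ V₃ ∧ y⁻¹ ∈ V₃) → α (normAlong α y) - y ^ q ∈ V₃.nonunits) ∧
    (∀ y : F, (y ≠ 0 ∧ y ∈ V₃ ∧ y⁻¹ ∈ V₃) → (y ≠ 0 ∧ y ∈ V₂ ∧ y⁻¹ ∈ V₂) → ∀ x₃ x₂ : F',
      β x₃ - y ∈ V₃.nonunits → β x₂ - y ∈ V₂.nonunits →
        normAlong β y - x₃ * x₂ ^ (q - 1) ∈ V₂'.nonunits) ∧
    (∀ y : F, (y ≠ 0 ∧ y ∈ V₁ ∧ y⁻¹ ∈ V₁) → β (normAlong β y) - y ^ q ∈ V₁.nonunits) :=
  ⟨eng_nv w q α fin_α deg_α hq comap_α₁ comap_α₂ comap_α₃ ne₁₂ hαw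
      dvr₁ unif₁ ram₂ dvr₃ unif₃ hq₃ hzα hzcα hnpα,
    fun t ht y a₁ a₂ a₃ hy h₁ h₂ h₃ =>
      eng_nv w q β fin_β deg_β hq comap_β₃ comap_β₂ comap_β₁ ne₂₃.symm hβw
        dvr₃ unif₃ ram₂ dvr₁ unif₁ hq₁ hzβ hzcβ hnpβ t ht y a₃ a₂ a₁ hy h₃ h₂ h₁,
    eng_nr_split w q α fin_α deg_α hq.pos comap_α₁ comap_α₂ ne₁₂ hαw dvr₁ unif₁ ram₂,
    eng_nr_insep w q α fin_α deg_α hq comap_α₃ hαw dvr₃ unif₃ hq₃ hzα hzcα hnpα,
    eng_nr_split w q β fin_β deg_β hq.pos comap_β₃ comap_β₂ ne₂₃.symm hβw dvr₃ unif₃ ram₂,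
    eng_nr_insep w q β fin_β deg_β hq comap_β₁ hβw dvr₁ unif₁ hq₁ hzβ hzcβ hnpβ⟩

end Along

end Fermat.Agent.S36.H253
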