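import Fermat.Agent.S36.H253.NormVal

/-!
# The fundamental inequality with ramification, and its equality case (helper253)

Mathlib only (on top of `NormVal.lean`).  `F / K` finite, `O ⊆ K` a DISCRETE valuation subring
(`hdvr`: every nonzero valuation is an integral power of `v ϖ`), `V i` (`i : ι`, finite) pairwise
incomparable valuation subrings of `F` over `O`, reductions `π : O → k`, `ρ i : V i → κ i`
(surjective), and LOWER-BOUND data `τ i ∈ m_{V i}` with `v i (ϖ) = v i (τ i) ^ E i`.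

* `fund_ineq_indep` : for `k`-linearly independent families `b i : J i → κ i`,
  `∑ i, E i * #(J i) ≤ [F : K]`.
* `finite_residue`, `fund_ineq` : `κ i / k` is finite and `∑ i, E i * [κ i : k] ≤ [F : K]`.
* `finrank_eq_of_fund_eq`, `gen_of_fund_eq`, `eq_of_fund_eq` : the equality case
  (`∑ i, E i * f i = [F : K]` with `f i ≤ [κ i : k]`): `[κ i : k] = f i`, `τ i` generates the
  maximal ideal of `V i`, and the `V i` are ALL the valuation subrings of `F` over `O`.
* `norm_red_ram_lb`, `val_norm_ram_lb` : `norm_red_ram` and `val_norm_ram` from lower-bound data.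
-/

set_option autoImplicit false
set_option linter.unusedSectionVars false

namespace Fermat.Agent.S36.H253

open scoped BigOperators
open Fermat.Agent.S35.H253

section Helpers

variable {K F : Type*} [Field K] [Field F] [Algebra K F]

/-- In a linearly ordered group with zero: if `0 < x < 1` and `x ^ n < 1` (`n : ℤ`), then
`x ^ n ≤ x`. -/
theorem zpow_le_self_of_lt_one {Γ : Type*} [LinearOrderedCommGroupWithZero Γ] {x : Γ}
    (hx0 : x ≠ 0) (hx : x < 1) {n : ℤ} (hn : x ^ n < 1) : x ^ n ≤ x := by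
  have hn1 : 1 ≤ n := by
    by_contra hcon
    have hle : n ≤ 0 := by omega
    have : (1 : Γ) ≤ x ^ n := by
      obtain ⟨m, hm⟩ : ∃ m : ℕ, n = -(m : ℤ) := ⟨(-n).toNat, by omega⟩
      rw [hm, zpow_neg, zpow_natCast]
      exact (one_le_inv₀ (pow_pos (zero_lt_iff.2 hx0) _)).2 (pow_le_one₀ zero_le hx.le)
    exact lt_irrefl _ (lt_of_le_of_lt this hn)
  obtain ⟨m, hm⟩ : ∃ m : ℕ, n = (m : ℤ) + 1 := ⟨(n - 1).toNat, by omega⟩
  rw [hm, zpow_add₀ hx0, zpow_one, zpow_natCast]
  calc x ^ m * x ≤ 1 * x := by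
        gcongr; exact pow_le_one₀ zero_le hx.le
    _ = x := one_mul _

/-- A discrete valuation ring has a generator of its maximal ideal. -/
theorem genO_of_dvr {O : ValuationSubring K} {ϖ : K} (hϖ0 : ϖ ≠ 0) (hϖ : O.valuation ϖ < 1)
    (hdvr : ∀ a : K, a ≠ 0 → ∃ n : ℤ, O.valuation a = O.valuation ϖ ^ n)
    (a : K) (ha : O.valuation a < 1) : O.valuation a ≤ O.valuation ϖ := by
  have hvϖ : O.valuation ϖ ≠ 0 := by rw [Ne, Valuation.zero_iff]; exact hϖ0
  by_cases ha0 : a = 0
  · rw [ha0, map_zero]; exact zero_le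
  obtain ⟨n, hn⟩ := hdvr a ha0
  rw [hn] at ha ⊢
  exact zpow_le_self_of_lt_one hvϖ hϖ ha

/-- Over a valuation ring `O`, the valuation of `V` on `K` is determined by that of `O`. -/
theorem Over_val_zpow {O : ValuationSubring K} {V : ValuationSubring F} (h : Over O V)
    {ϖ c : K} (hϖ0 : ϖ ≠ 0) {n : ℤ} (hn : O.valuation c = O.valuation ϖ ^ n) :
    V.valuation (algebraMap K F c) = V.valuation (algebraMap K F ϖ) ^ n := by
  have hvϖ : O.valuation ϖ ≠ 0 := by rw [Ne, Valuation.zero_iff]; exact hϖ0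
  have hunit : O.valuation (c * (ϖ ^ n)⁻¹) = 1 := by
    rw [map_mul, map_inv₀, map_zpow₀, hn, mul_inv_cancel₀ (zpow_ne_zero _ hvϖ)]
  have h1 := Over_val_eq_one h hunit
  have e1 : c = (c * (ϖ ^ n)⁻¹) * ϖ ^ n := by
    rw [inv_mul_cancel_right₀ (zpow_ne_zero _ hϖ0)]
  conv_lhs => rw [e1]
  rw [map_mul, map_mul, h1, one_mul, map_zpow₀, map_zpow₀]

/-- Over a discrete valuation ring, in an algebraic extension, every element of the maximal ideal
of `V` has a power divisible by the uniformiser of `O`. -/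
theorem exists_pow_le_of_dvr [Algebra.IsAlgebraic K F] {O : ValuationSubring K} {ϖ : K}
    {V : ValuationSubring F} (hover : Over O V) (hϖ0 : ϖ ≠ 0) (hϖ : O.valuation ϖ < 1)
    (hdvr : ∀ a : K, a ≠ 0 → ∃ n : ℤ, O.valuation a = O.valuation ϖ ^ n)
    {z : F} (hz : V.valuation z < 1) :
    ∃ N : ℕ, V.valuation z ^ N ≤ V.valuation (algebraMap K F ϖ) := by
  by_cases hz0 : z = 0
  · exact ⟨1, by rw [hz0, map_zero, pow_one]; exact zero_le⟩
  obtain ⟨d, hd, c, hc0, hdc⟩ := exists_pow_val_eq (K := K) V hz0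
  obtain ⟨n, hn⟩ := hdvr c hc0
  have hc := Over_val_zpow hover hϖ0 hn
  have hϖV : V.valuation (algebraMap K F ϖ) < 1 := (hover.val_lt_one_iff ϖ).2 hϖ
  have hϖV0 : V.valuation (algebraMap K F ϖ) ≠ 0 := by
    rw [Ne, Valuation.zero_iff, map_eq_zero]; exact hϖ0
  refine ⟨d, ?_⟩
  rw [hdc, hc]
  refine zpow_le_self_of_lt_one hϖV0 hϖV ?_
  rw [← hc, ← hdc]
  exact pow_lt_one₀ zero_le hz hd.ne'

/-- **Bezout in the value group.**  If `0 < x < y < 1` and `y ^ d = x ^ S` (`d ≥ 1`), then `x`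
is a proper power `(y ^ a * x ^ b) ^ m`, `m ≥ 2`. -/
theorem exists_root_of_between {Γ : Type*} [LinearOrderedCommGroupWithZero Γ] {x y : Γ}
    (hx0 : 0 < x) (hxy : x < y) (hy : y < 1) {d : ℕ} (hd : 0 < d) {S : ℤ}
    (h : y ^ d = x ^ S) :
    ∃ (a b : ℤ) (m : ℕ), 2 ≤ m ∧ (y ^ a * x ^ b) ^ m = x := by
  have hx1 : x < 1 := lt_trans hxy hy
  have hxne : x ≠ 0 := hx0.ne'
  have hSpos : 0 < S := by
    by_contra hcon
    have hle : S ≤ 0 := not_lt.1 hcon
    have h1 : x ^ (0 : ℤ) ≤ x ^ S := zpow_le_zpow_right_of_le_one₀ hx0 hx1.le hle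
    rw [zpow_zero, ← h] at h1
    exact absurd (pow_lt_one₀ zero_le hy hd.ne') (not_lt.2 h1)
  have hSd : S < d := by
    by_contra hcon
    have hle : (d : ℤ) ≤ S := not_lt.1 hcon
    have h1 : x ^ S ≤ x ^ (d : ℤ) := zpow_le_zpow_right_of_le_one₀ hx0 hx1.le hle
    rw [zpow_natCast, ← h] at h1
    exact absurd (pow_lt_pow_left₀ hxy zero_le hd.ne') (not_lt.2 h1)
  set g := Int.gcd S d with hgdef
  have hbez : (g : ℤ) = S * Int.gcdA S d + (d : ℤ) * Int.gcdB S d := Int.gcd_eq_gcd_ab S d
  have hgS : (g : ℤ) ∣ S := Int.gcd_dvd_left S d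
  have hgd : (g : ℤ) ∣ (d : ℤ) := Int.gcd_dvd_right S d
  have hgle : (g : ℤ) ≤ S := Int.le_of_dvd hSpos hgS
  have hgpos : 0 < g := Int.gcd_pos_of_ne_zero_left _ hSpos.ne'
  obtain ⟨m, hm⟩ := Int.natCast_dvd_natCast.1 hgd
  have hm2 : 2 ≤ m := by
    by_contra hcon
    have hm1 : m ≤ 1 := by omega
    have : d ≤ g := by
      rw [hm]
      calc g * m ≤ g * 1 := Nat.mul_le_mul_left _ hm1
        _ = g := mul_one _
    have : (d : ℤ) ≤ g := by exact_mod_cast this
    omega
  refine ⟨Int.gcdA S d, Int.gcdB S d, m, hm2, ?_⟩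
  set a := Int.gcdA S d
  set b := Int.gcdB S d
  have hyne : y ≠ 0 := (lt_trans hx0 hxy).ne'
  have e1 : (y ^ a * x ^ b) ^ d = x ^ g := by
    rw [← zpow_natCast (y ^ a * x ^ b) d, mul_zpow, ← zpow_mul, ← zpow_mul, mul_comm a (d : ℤ),
      zpow_mul, zpow_natCast y d, h, ← zpow_mul, ← zpow_add₀ hxne, ← zpow_natCast x g, hbez,
      mul_comm b (d : ℤ)]
  have e2 : ((y ^ a * x ^ b) ^ m) ^ g = x ^ g := by
    rw [← pow_mul, mul_comm m g, ← hm, e1]
  exact (pow_left_inj₀ zero_le zero_le hgpos.ne').1 e2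

/-- **Comparable extensions are equal** (discrete base, algebraic extension). -/
theorem eq_of_le_of_over [Algebra.IsAlgebraic K F] {O : ValuationSubring K} {ϖ : K}
    {W V : ValuationSubring F} (hW : Over O W) (hV : Over O V) (hϖ0 : ϖ ≠ 0)
    (hϖ : O.valuation ϖ < 1)
    (hdvr : ∀ a : K, a ≠ 0 → ∃ n : ℤ, O.valuation a = O.valuation ϖ ^ n)
    (hle : W ≤ V) : W = V := by
  refine le_antisymm hle fun x hx => ?_
  by_contra hxW
  have hxW' : 1 < W.valuation x := by
    rw [← not_le, W.valuation_le_one_iff]; exact hxW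
  have hx0 : x ≠ 0 := by
    intro h0; rw [h0, map_zero] at hxW'; exact not_lt_zero hxW'
  have hyW : W.valuation x⁻¹ < 1 := by
    rw [map_inv₀]; exact inv_lt_one_of_one_lt₀ hxW'
  obtain ⟨N, hN⟩ := exists_pow_le_of_dvr hW hϖ0 hϖ hdvr hyW
  have hϖF : algebraMap K F ϖ ≠ 0 := by rw [Ne, map_eq_zero]; exact hϖ0
  have hmemW : x⁻¹ ^ N * (algebraMap K F ϖ)⁻¹ ∈ W := by
    rw [← W.valuation_le_one_iff, map_mul, map_pow, map_inv₀ _ (algebraMap K F ϖ)]
    have hpos : 0 < W.valuation (algebraMap K F ϖ) := by rw [Valuation.pos_iff]; exact hϖF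
    calc W.valuation x⁻¹ ^ N * (W.valuation (algebraMap K F ϖ))⁻¹
        ≤ W.valuation (algebraMap K F ϖ) * (W.valuation (algebraMap K F ϖ))⁻¹ := by gcongr
      _ = 1 := mul_inv_cancel₀ hpos.ne'
  have hmemV := hle hmemW
  have hxV : V.valuation x ≤ 1 := (V.valuation_le_one_iff _).2 hx
  have hyV : V.valuation x⁻¹ ≤ 1 :=
    (V.valuation_le_one_iff _).2 (hle ((W.valuation_le_one_iff _).1 hyW.le))
  have hyV1 : V.valuation x⁻¹ = 1 := by
    refine le_antisymm hyV ?_
    rw [map_inv₀]
    exact (one_le_inv₀ (by rw [Valuation.pos_iff]; exact hx0)).2 hxV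
  have hϖV : V.valuation (algebraMap K F ϖ) < 1 := (hV.val_lt_one_iff ϖ).2 hϖ
  have hbad : 1 < V.valuation (x⁻¹ ^ N * (algebraMap K F ϖ)⁻¹) := by
    rw [map_mul, map_pow, hyV1, one_pow, one_mul, map_inv₀]
    exact (one_lt_inv₀ (by rw [Valuation.pos_iff]; exact hϖF)).2 hϖV
  exact absurd ((V.valuation_le_one_iff _).2 hmemV) (not_le.2 hbad)

/-- The lower bound `E` of the ramification index is positive. -/
theorem E_pos_of_ram {O : ValuationSubring K} {ϖ : K} {V : ValuationSubring F} {τ : F} {E : ℕ}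
    (hover : Over O V) (hϖ : O.valuation ϖ < 1)
    (hram : V.valuation (algebraMap K F ϖ) = V.valuation τ ^ E) : 0 < E := by
  rcases Nat.eq_zero_or_pos E with he | he
  · rw [he, pow_zero] at hram
    have := hover.val_lt_one_iff ϖ |>.2 hϖ
    rw [hram] at this
    exact absurd this (lt_irrefl _)
  · exact he

end Helpers

section Closure

variable {K F : Type*} [Field K] [Field F] [Algebra K F]
variable {O : ValuationSubring K} {ϖ : K} {ι : Type*} [Fintype ι] [DecidableEq ι]
  {V : ι → ValuationSubring F}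
  {t : ι → F} {e : ι → ℕ} {J : ι → Type*} [∀ i, Fintype (J i)]
  {r : (i : ι) → J i → Fin (e i) → F}

/-- If an adapted family is a basis, `⋂ V i` is contained in every valuation ring of `F`
over `O` (it is the integral closure of `O`). -/
theorem RamFamily.mem_of_forall_mem [Module.Finite K F] (h : RamFamily O ϖ V t e r)
    (hcard : ∑ i, e i * Fintype.card (J i) = Module.finrank K F)
    {W : ValuationSubring F} (hW : Over O W) {x : F} (hx : ∀ i, x ∈ V i) : x ∈ W := by
  classical
  have hcard' : Fintype.card (Idx e J) = Module.finrank K F := by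
    rw [RamFamily.card_idx]; exact hcard
  have hne : Nonempty (Idx e J) := by
    rw [← Fintype.card_pos_iff, hcard']
    exact Module.finrank_pos
  set bas : Module.Basis (Idx e J) K F :=
    basisOfLinearIndependentOfCardEqFinrank h.linearIndependent hcard' with hbasdef
  have hbas : ⇑bas = fam t e r := coe_basisOfLinearIndependentOfCardEqFinrank _ _
  by_contra hxW
  have hxW' : 1 < W.valuation x := by
    rw [← not_le, W.valuation_le_one_iff]; exact hxW
  obtain ⟨l₀, -, hmax⟩ := Finset.exists_max_image (Finset.univ : Finset (Idx e J))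
    (fun l => W.valuation (fam t e r l)) Finset.univ_nonempty
  have hl₀ : 0 < W.valuation (fam t e r l₀) := by
    rw [Valuation.pos_iff, ← hbas]; exact bas.ne_zero l₀
  have hrepr : x * fam t e r l₀ =
      ∑ l, algebraMap K F (bas.repr (x * fam t e r l₀) l) * fam t e r l :=
    (RamFamily.sum_repr_eq bas hbas _).symm
  have hle : W.valuation (x * fam t e r l₀) ≤ W.valuation (fam t e r l₀) := by
    rw [hrepr]
    refine Valuation.map_sum_le _ fun l _ => ?_
    rw [map_mul]
    have hmem : bas.repr (x * fam t e r l₀) l ∈ O :=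
      h.repr_mem bas hbas (fun i => mul_mem (hx i) (h.fam_mem l₀ i)) l
    calc W.valuation (algebraMap K F (bas.repr (x * fam t e r l₀) l)) *
          W.valuation (fam t e r l)
        ≤ 1 * W.valuation (fam t e r l₀) := by
          gcongr
          · exact (hW.val_le_one_iff _).2 ((O.valuation_le_one_iff _).2 hmem)
          · exact hmax l (Finset.mem_univ l)
      _ = _ := one_mul _
  have hgt : W.valuation (fam t e r l₀) < W.valuation (x * fam t e r l₀) := by
    rw [map_mul]
    calc W.valuation (fam t e r l₀) = 1 * W.valuation (fam t e r l₀) := (one_mul _).symm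
      _ < W.valuation x * W.valuation (fam t e r l₀) := by gcongr
  exact absurd hle (not_le.2 hgt)

end Closure

section Ineq

variable {K F : Type*} [Field K] [Field F] [Algebra K F]
variable {ι : Type*} [Fintype ι]
    {O : ValuationSubring K} {ϖ : K} {V : ι → ValuationSubring F} {τ : ι → F} {E : ι → ℕ}
    (hover : ∀ i, Over O (V i)) (hinc : ∀ i i', i ≠ i' → ¬ V i ≤ V i')
    (hϖ0 : ϖ ≠ 0) (hϖ : O.valuation ϖ < 1)
    (hgenO : ∀ a : K, O.valuation a < 1 → O.valuation a ≤ O.valuation ϖ)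
    (hτ : ∀ i, (V i).valuation (τ i) < 1)
    (hrad : ∀ i (z : F), (V i).valuation z < 1 →
      ∃ N : ℕ, (V i).valuation z ^ N ≤ (V i).valuation (algebraMap K F ϖ))
    (hram : ∀ i, (V i).valuation (algebraMap K F ϖ) = (V i).valuation (τ i) ^ E i)
    {k : Type*} [Field k] {κ : ι → Type*} [∀ i, Field (κ i)] [∀ i, Algebra k (κ i)]
    (π : O →+* k) (ρ : ∀ i, V i →+* κ i)
    (hπ : Function.Surjective π) (hρ : ∀ i, Function.Surjective (ρ i))
    (hc : ∀ i (a : O), ρ i ⟨algebraMap K F a, ((hover i) a).2 a.2⟩ = algebraMap k (κ i) (π a))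

include hover hinc hϖ0 hϖ hgenO hτ hrad hram hπ hρ hc

/-- Adapted families exist for any residually independent families `b i : J i → κ i`
(no generator of the maximal ideal of `V i` is needed, only `hrad`). -/
theorem exists_ramFamily_of_indep [DecidableEq ι] {J : ι → Type*} [∀ i, Fintype (J i)]
    (b : ∀ i, J i → κ i) (hb : ∀ i, LinearIndependent k (b i)) :
    ∃ r : (i : ι) → J i → Fin (E i) → F, RamFamily O ϖ V τ E r := by
  classical
  have hker : ∀ i (z : V i), ρ i z = 0 ↔ (V i).valuation (z : F) < 1 :=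
    fun i z => map_eq_zero_iff_val_lt_one (ρ i) (hρ i) z
  have hkerO : ∀ a : O, π a = 0 ↔ O.valuation (a : K) < 1 :=
    fun a => map_eq_zero_iff_val_lt_one π hπ a
  choose E' hE1 hE2 using fun i => exists_idem_multi V hinc i
  have hEmem : ∀ i i', E' i ∈ V i' := fun i i' => by
    by_cases hi : i' = i
    · subst hi
      have : E' i' = 1 - (1 - E' i') := by ring
      rw [this]
      exact sub_mem (one_mem _) (((V i').valuation_le_one_iff _).1 (hE1 i').le)
    · exact ((V i').valuation_le_one_iff _).1 (hE2 i i' hi).le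
  have hρE : ∀ i, ρ i ⟨E' i, hEmem i i⟩ = 1 := fun i => by
    have h0 : ρ i (1 - ⟨E' i, hEmem i i⟩) = 0 := (hker i _).2 (hE1 i)
    rw [map_sub, map_one, sub_eq_zero] at h0
    exact h0.symm
  -- a uniform exponent
  have hNex : ∀ i i', ∃ N : ℕ, i' ≠ i →
      (V i').valuation (E' i) ^ N ≤ (V i').valuation (algebraMap K F ϖ) := fun i i' => by
    by_cases hi : i' = i
    · exact ⟨0, fun h => absurd hi h⟩
    · obtain ⟨N, hN⟩ := hrad i' (E' i) (hE2 i i' hi)
      exact ⟨N, fun _ => hN⟩
  choose Nf hNf using hNex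
  set N := ∑ i, ∑ i', Nf i i' with hNdef
  have hNle : ∀ i i', Nf i i' ≤ N := fun i i' => by
    have h1 : Nf i i' ≤ ∑ i'', Nf i i'' :=
      Finset.single_le_sum (f := fun i'' => Nf i i'') (fun _ _ => Nat.zero_le _)
        (Finset.mem_univ i')
    have h2 : ∑ i'', Nf i i'' ≤ N :=
      Finset.single_le_sum (f := fun i => ∑ i'', Nf i i'') (fun _ _ => Nat.zero_le _)
        (Finset.mem_univ i)
    exact le_trans h1 h2
  have hEN : ∀ i i', i' ≠ i →
      (V i').valuation (E' i ^ N) ≤ (V i').valuation (algebraMap K F ϖ) :=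
    fun i i' hi => by
      rw [map_pow]
      calc (V i').valuation (E' i) ^ N ≤ (V i').valuation (E' i) ^ Nf i i' :=
            pow_le_pow_of_le_one zero_le (hE2 i i' hi).le (hNle i i')
        _ ≤ _ := hNf i i' hi
  choose z hz using fun (i : ι) (j : J i) => hρ i (b i j)
  choose G hG1 hG2 using fun (i : ι) (j : J i) => exists_lift_multi V hinc i (z i j).2
  have hρG : ∀ i j, ρ i ⟨G i j, hG1 i j i⟩ = b i j := fun i j => by
    rw [← hz i j, ← sub_eq_zero, ← map_sub, hker]
    exact hG2 i j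
  choose u hu1 hu2 hu3 using fun i => exists_multiplier V (τ i)
  have hτmem : ∀ i, τ i ∈ V i := fun i => ((V i).valuation_le_one_iff _).1 (hτ i).le
  have hρu : ∀ i, ρ i ⟨u i, hu1 i i⟩ ≠ 0 := fun i h0 => by
    have := (hker i _).1 h0
    simp only at this
    rw [hu3 i i (hτmem i)] at this
    exact lt_irrefl _ this
  let r : (i : ι) → J i → Fin (E i) → F := fun i j s => E' i ^ N * G i j * u i ^ (s : ℕ)
  have hrmem : ∀ i j s, r i j s ∈ V i := fun i j s =>
    mul_mem (mul_mem (pow_mem (hEmem i i) _) (hG1 i j i)) (pow_mem (hu1 i i) _)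
  have hρr : ∀ i j s, ρ i ⟨r i j s, hrmem i j s⟩ =
      ρ i ⟨u i, hu1 i i⟩ ^ (s : ℕ) * b i j := fun i j (s : Fin (E i)) => by
    have e1 : (⟨r i j s, hrmem i j s⟩ : V i) =
        ⟨E' i, hEmem i i⟩ ^ N * ⟨G i j, hG1 i j i⟩ * ⟨u i, hu1 i i⟩ ^ (s : ℕ) := rfl
    rw [e1, map_mul, map_mul, map_pow, map_pow, hρE, one_pow, one_mul, hρG, mul_comm]
  refine ⟨r, ?_⟩
  exact
    { isOver := hover
      ne_zero := hϖ0
      unifO := hϖ
      genO := hgenO
      unif := hτ
      ram := hram
      r_mem := hrmem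
      small := by
        intro i j s i' hi
        have e1 : r i j s * τ i ^ (s : ℕ) = E' i ^ N * (G i j * (τ i * u i) ^ (s : ℕ)) := by
          simp only [r]; ring
        rw [e1, map_mul]
        calc (V i').valuation (E' i ^ N) * (V i').valuation (G i j * (τ i * u i) ^ (s : ℕ))
            ≤ (V i').valuation (algebraMap K F ϖ) * 1 := by
              gcongr
              · exact hEN i i' hi
              · exact ((V i').valuation_le_one_iff _).2
                  (mul_mem (hG1 i j i') (pow_mem (hu2 i i') _))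
          _ = _ := mul_one _
      indep := by
        intro i s a ha hsmall j
        have hmem : (∑ j, algebraMap K F (a j) * r i j s) ∈ V i :=
          ((V i).valuation_le_one_iff _).1 hsmall.le
        have h0 : ρ i ⟨_, hmem⟩ = 0 := (hker i ⟨_, hmem⟩).2 hsmall
        have e1 : (⟨_, hmem⟩ : V i) =
            ∑ j, (⟨algebraMap K F (a j), ((hover i) (a j)).2 (ha j)⟩ : V i) *
              ⟨r i j s, hrmem i j s⟩ := by
          apply Subtype.ext
          rw [AddSubmonoidClass.coe_finsetSum]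
          simp only [MulMemClass.coe_mul]
        rw [e1, map_sum] at h0
        have h1 : ρ i ⟨u i, hu1 i i⟩ ^ (s : ℕ) * ∑ j, π ⟨a j, ha j⟩ • b i j = 0 := by
          rw [← h0, Finset.mul_sum]
          refine Finset.sum_congr rfl fun j _ => ?_
          rw [map_mul, hρr, Algebra.smul_def, ← hc]
          ring
        have h2 : ∑ j, π ⟨a j, ha j⟩ • b i j = 0 :=
          (mul_eq_zero.1 h1).resolve_left (pow_ne_zero _ (hρu i))
        have := Fintype.linearIndependent_iff.1 (hb i) _ h2 j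
        exact (hkerO ⟨a j, ha j⟩).1 this }

/-- **Fundamental inequality with ramification** (independent-family form):
`∑ i, E i * #(J i) ≤ [F : K]`. -/
theorem fund_ineq_indep [Module.Finite K F] {J : ι → Type*} [∀ i, Fintype (J i)]
    (b : ∀ i, J i → κ i) (hb : ∀ i, LinearIndependent k (b i)) :
    ∑ i, E i * Fintype.card (J i) ≤ Module.finrank K F := by
  classical
  obtain ⟨r, hfam⟩ := exists_ramFamily_of_indep hover hinc hϖ0 hϖ hgenO hτ hrad hram π ρ hπ hρ
    hc b hb
  have h1 := hfam.linearIndependent.fintype_card_le_finrank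
  rwa [RamFamily.card_idx] at h1

omit [Fintype ι] hinc in
/-- **Residue extensions are finite.** -/
theorem finite_residue [Module.Finite K F] (i₀ : ι) : Module.Finite k (κ i₀) := by
  classical
  by_contra hfin
  set n := Module.finrank K F with hn
  have hrank : ((n + 1 : ℕ) : Cardinal) ≤ Module.rank k (κ i₀) := by
    have h1 : ¬ Module.rank k (κ i₀) < Cardinal.aleph0 :=
      fun h => hfin (Module.rank_lt_aleph0_iff.1 h)
    exact le_trans (Cardinal.natCast_lt_aleph0).le (not_lt.1 h1)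
  obtain ⟨s, hs, hsi⟩ := le_rank_iff_exists_linearIndependent_finset.1 hrank
  have key := fund_ineq_indep (ι := Unit) (V := fun _ => V i₀) (τ := fun _ => τ i₀)
    (E := fun _ => E i₀) (κ := fun _ => κ i₀) (fun _ => hover i₀)
    (fun i i' h => absurd (Subsingleton.elim i i') h) hϖ0 hϖ hgenO (fun _ => hτ i₀)
    (fun _ => hrad i₀) (fun _ => hram i₀) π (fun _ => ρ i₀) hπ (fun _ => hρ i₀)
    (fun _ => hc i₀) (J := fun _ => ((s : Set (κ i₀)) : Type _))
    (fun _ => ((↑) : ((s : Set (κ i₀)) : Type _) → κ i₀)) (fun _ => hsi)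
  have hcard : Fintype.card ((s : Set (κ i₀)) : Type _) = n + 1 := by
    rw [← hs]; simp
  simp only [Finset.univ_unique, Finset.sum_singleton, hcard] at key
  have hE := E_pos_of_ram (hover i₀) hϖ (hram i₀)
  have h2 : n + 1 ≤ E i₀ * (n + 1) := Nat.le_mul_of_pos_left _ hE
  have h3 : E i₀ * (n + 1) ≤ n := key
  exact absurd (le_trans h2 h3) (Nat.not_succ_le_self n)

/-- **Fundamental inequality with ramification**: `∑ i, E i * [κ i : k] ≤ [F : K]`. -/
theorem fund_ineq [Module.Finite K F] :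
    ∑ i, E i * Module.finrank k (κ i) ≤ Module.finrank K F := by
  classical
  have hfin : ∀ i, Module.Finite k (κ i) := fun i =>
    finite_residue hover hϖ0 hϖ hgenO hτ hrad hram π ρ hπ hρ hc i
  have key := fund_ineq_indep hover hinc hϖ0 hϖ hgenO hτ hrad hram π ρ hπ hρ hc
    (J := fun i => Fin (Module.finrank k (κ i))) (fun i => Module.finBasis k (κ i))
    (fun i => (Module.finBasis k (κ i)).linearIndependent)
  simpa only [Fintype.card_fin] using key

/-- **Equality case, residue degrees.**  If lower bounds `f i ≤ [κ i : k]` satisfy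
`∑ i, E i * f i = [F : K]`, then `[κ i : k] = f i`. -/
theorem finrank_eq_of_fund_eq [Module.Finite K F] (f : ι → ℕ)
    (hf : ∀ i, f i ≤ Module.finrank k (κ i))
    (heq : ∑ i, E i * f i = Module.finrank K F) (i : ι) :
    Module.finrank k (κ i) = f i := by
  classical
  have key := fund_ineq hover hinc hϖ0 hϖ hgenO hτ hrad hram π ρ hπ hρ hc
  by_contra hne
  have hlt : f i < Module.finrank k (κ i) := lt_of_le_of_ne (hf i) (Ne.symm hne)
  have hsum : ∑ i, E i * f i < ∑ i, E i * Module.finrank k (κ i) := by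
    refine Finset.sum_lt_sum (fun j _ => Nat.mul_le_mul_left _ (hf j)) ⟨i, Finset.mem_univ i, ?_⟩
    exact Nat.mul_lt_mul_of_pos_left hlt (E_pos_of_ram (hover i) hϖ (hram i))
  rw [heq] at hsum
  exact absurd key (not_le.2 hsum)

end Ineq

section Eq

variable {K F : Type*} [Field K] [Field F] [Algebra K F]
variable {ι : Type*} [Fintype ι]
    {O : ValuationSubring K} {ϖ : K} {V : ι → ValuationSubring F} {τ : ι → F} {E : ι → ℕ}
    (hover : ∀ i, Over O (V i)) (hinc : ∀ i i', i ≠ i' → ¬ V i ≤ V i')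
    (hϖ0 : ϖ ≠ 0) (hϖ : O.valuation ϖ < 1)
    (hdvr : ∀ a : K, a ≠ 0 → ∃ n : ℤ, O.valuation a = O.valuation ϖ ^ n)
    (hτ : ∀ i, (V i).valuation (τ i) < 1)
    (hram : ∀ i, (V i).valuation (algebraMap K F ϖ) = (V i).valuation (τ i) ^ E i)
    {k : Type*} [Field k] {κ : ι → Type*} [∀ i, Field (κ i)] [∀ i, Algebra k (κ i)]
    (π : O →+* k) (ρ : ∀ i, V i →+* κ i)
    (hπ : Function.Surjective π) (hρ : ∀ i, Function.Surjective (ρ i))
    (hc : ∀ i (a : O), ρ i ⟨algebraMap K F a, ((hover i) a).2 a.2⟩ = algebraMap k (κ i) (π a))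

include hover hinc hϖ0 hϖ hdvr hτ hram hπ hρ hc

/-- `fund_ineq` over a discrete base. -/
theorem fund_ineq_dvr [Module.Finite K F] :
    ∑ i, E i * Module.finrank k (κ i) ≤ Module.finrank K F :=
  fund_ineq hover hinc hϖ0 hϖ (genO_of_dvr hϖ0 hϖ hdvr) hτ
    (fun i _ hz => exists_pow_le_of_dvr (hover i) hϖ0 hϖ hdvr hz) hram π ρ hπ hρ hc

omit [Fintype ι] hinc in
/-- `finite_residue` over a discrete base. -/
theorem finite_residue_dvr [Module.Finite K F] (i : ι) : Module.Finite k (κ i) :=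
  finite_residue hover hϖ0 hϖ (genO_of_dvr hϖ0 hϖ hdvr) hτ
    (fun i _ hz => exists_pow_le_of_dvr (hover i) hϖ0 hϖ hdvr hz) hram π ρ hπ hρ hc i

/-- **Equality case, uniformisers.**  If `∑ i, E i * [κ i : k] = [F : K]`, then `τ i` generates
the maximal ideal of `V i`. -/
theorem gen_of_fund_eq [Module.Finite K F]
    (hdeg : ∑ i, E i * Module.finrank k (κ i) = Module.finrank K F) (i₀ : ι) (z : F)
    (hz : (V i₀).valuation z < 1) : (V i₀).valuation z ≤ (V i₀).valuation (τ i₀) := by
  classical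
  by_contra hcon
  rw [not_le] at hcon
  have hz0 : z ≠ 0 := by
    intro h0
    rw [h0, map_zero] at hcon
    exact not_lt_zero hcon
  have hτ0 : τ i₀ ≠ 0 := by
    intro h0
    have h1 := hram i₀
    have he := E_pos_of_ram (hover i₀) hϖ (hram i₀)
    rw [h0, map_zero, zero_pow he.ne', Valuation.zero_iff, map_eq_zero] at h1
    exact hϖ0 h1
  have hτpos : 0 < (V i₀).valuation (τ i₀) := by rw [Valuation.pos_iff]; exact hτ0
  -- `v z ^ d = v τ ^ S`
  obtain ⟨d, hd, c, hc0, hdc⟩ := exists_pow_val_eq (K := K) (V i₀) hz0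
  obtain ⟨n, hn⟩ := hdvr c hc0
  have hcv := Over_val_zpow (hover i₀) hϖ0 hn
  have hS : (V i₀).valuation z ^ d = (V i₀).valuation (τ i₀) ^ ((E i₀ : ℤ) * n) := by
    rw [hdc, hcv, hram, ← zpow_natCast, ← zpow_mul]
  obtain ⟨a, b, m, hm2, hroot⟩ := exists_root_of_between hτpos hcon hz hd hS
  -- the better uniformiser
  set τ' : F := z ^ a * τ i₀ ^ b with hτ'
  have hvτ' : (V i₀).valuation τ' ^ m = (V i₀).valuation (τ i₀) := by
    rw [hτ', map_mul, map_zpow₀, map_zpow₀]; exact hroot
  have hτ'lt : (V i₀).valuation τ' < 1 := by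
    by_contra hge
    rw [not_lt] at hge
    have : 1 ≤ (V i₀).valuation τ' ^ m := one_le_pow₀ hge
    rw [hvτ'] at this
    exact absurd (hτ i₀) (not_lt.2 this)
  have key := fund_ineq_dvr (τ := Function.update τ i₀ τ')
    (E := Function.update E i₀ (m * E i₀)) hover hinc hϖ0 hϖ hdvr
    (fun i => by
      by_cases hi : i = i₀
      · subst hi; rw [Function.update_self]; exact hτ'lt
      · rw [Function.update_of_ne hi]; exact hτ i)
    (fun i => by
      by_cases hi : i = i₀
      · subst hi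
        rw [Function.update_self, Function.update_self, pow_mul, hvτ']
        exact hram i
      · rw [Function.update_of_ne hi, Function.update_of_ne hi]; exact hram i)
    π ρ hπ hρ hc
  have hfin := finite_residue_dvr hover hϖ0 hϖ hdvr hτ hram π ρ hπ hρ hc i₀
  have hfpos : 0 < Module.finrank k (κ i₀) := Module.finrank_pos
  have hEpos := E_pos_of_ram (hover i₀) hϖ (hram i₀)
  have hlt : ∑ i, E i * Module.finrank k (κ i) <
      ∑ i, Function.update E i₀ (m * E i₀) i * Module.finrank k (κ i) := by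
    refine Finset.sum_lt_sum (fun i _ => ?_) ⟨i₀, Finset.mem_univ i₀, ?_⟩
    · by_cases hi : i = i₀
      · subst hi
        rw [Function.update_self]
        exact Nat.mul_le_mul_right _ (Nat.le_mul_of_pos_left _ (by omega))
      · rw [Function.update_of_ne hi]
    · rw [Function.update_self]
      refine Nat.mul_lt_mul_of_pos_right ?_ hfpos
      calc E i₀ = 1 * E i₀ := (one_mul _).symm
        _ < m * E i₀ := Nat.mul_lt_mul_of_pos_right (by omega) hEpos
  rw [hdeg] at hlt
  exact absurd key (not_le.2 hlt)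

/-- **Equality case, completeness.**  If `∑ i, E i * [κ i : k] = [F : K]`, every valuation
subring of `F` over `O` is one of the `V i`. -/
theorem eq_of_fund_eq [Module.Finite K F]
    (hdeg : ∑ i, E i * Module.finrank k (κ i) = Module.finrank K F)
    {W : ValuationSubring F} (hW : Over O W) : ∃ i, W = V i := by
  classical
  by_contra hcon
  push Not at hcon
  have hgenO := genO_of_dvr hϖ0 hϖ hdvr
  have hrad : ∀ i (z : F), (V i).valuation z < 1 →
      ∃ N : ℕ, (V i).valuation z ^ N ≤ (V i).valuation (algebraMap K F ϖ) :=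
    fun i _ hz => exists_pow_le_of_dvr (hover i) hϖ0 hϖ hdvr hz
  have hfin : ∀ i, Module.Finite k (κ i) := fun i =>
    finite_residue_dvr hover hϖ0 hϖ hdvr hτ hram π ρ hπ hρ hc i
  -- `ι` is nonempty
  have hne : Nonempty ι := by
    by_contra hemp
    rw [not_nonempty_iff] at hemp
    have h0 : Module.finrank K F = 0 := by
      rw [← hdeg]; exact Finset.sum_eq_zero fun i _ => (hemp.false i).elim
    exact absurd (Module.finrank_pos (R := K) (M := F)) (by rw [h0]; exact lt_irrefl 0)
  obtain ⟨i₁⟩ := hne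
  -- the extended family
  let V' : Option ι → ValuationSubring F := fun o => o.elim W V
  have hinc' : ∀ o o', o ≠ o' → ¬ V' o ≤ V' o' := by
    intro o o' hoo'
    rcases o with _ | i <;> rcases o' with _ | i'
    · exact absurd rfl hoo'
    · intro hle
      exact hcon i' (eq_of_le_of_over hW (hover i') hϖ0 hϖ hdvr hle)
    · intro hle
      exact hcon i (eq_of_le_of_over (hover i) hW hϖ0 hϖ hdvr hle).symm
    · exact hinc i i' (fun h => hoo' (by rw [h]))
  obtain ⟨E₀, hE1, hE2⟩ := exists_idem_multi V' hinc' none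
  have hy : ∀ i, (V i).valuation (1 - E₀) = 1 := fun i =>
    Valuation.map_one_sub_of_lt _ (hE2 (some i) (by simp))
  have hy0 : (1 - E₀) ≠ 0 := by
    intro h0
    have := hy i₁
    rw [h0, map_zero] at this
    exact zero_ne_one this
  have hx : ∀ i, (1 - E₀)⁻¹ ∈ V i := fun i => by
    rw [← (V i).valuation_le_one_iff, map_inv₀, hy i, inv_one]
  have hxW : (1 - E₀)⁻¹ ∉ W := by
    rw [← W.valuation_le_one_iff, not_le, map_inv₀]
    exact (one_lt_inv₀ (by rw [Valuation.pos_iff]; exact hy0)).2 hE1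
  obtain ⟨r, hfam⟩ := exists_ramFamily_of_indep hover hinc hϖ0 hϖ hgenO hτ hrad hram π ρ hπ hρ
    hc (J := fun i => Fin (Module.finrank k (κ i))) (fun i => Module.finBasis k (κ i))
    (fun i => (Module.finBasis k (κ i)).linearIndependent)
  have hcard : ∑ i, E i * Fintype.card (Fin (Module.finrank k (κ i))) =
      Module.finrank K F := by
    rw [← hdeg]
    exact Finset.sum_congr rfl fun i _ => by rw [Fintype.card_fin]
  exact hxW (hfam.mem_of_forall_mem hcard hW hx)

/-- **`norm_red_ram` from lower-bound data.**  `O` discrete, `τ i ∈ m_{V i}` with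
`v i (ϖ) = v i (τ i) ^ E i`, `f i ≤ [κ i : k]`, `∑ i, E i * f i = [F : K]`.  Then for
`y ∈ ⋂ V i`: `N_{F/K} y ∈ O` and `π (N y) = ∏ i, N_{κ i / k} (ρ i y) ^ E i`. -/
theorem norm_red_ram_lb [Module.Finite K F] (f : ι → ℕ)
    (hf : ∀ i, f i ≤ Module.finrank k (κ i))
    (heq : ∑ i, E i * f i = Module.finrank K F)
    {y : F} (hy : ∀ i, y ∈ V i) :
    ∃ hN : Algebra.norm K y ∈ O,
      π ⟨Algebra.norm K y, hN⟩ = ∏ i, Algebra.norm k (ρ i ⟨y, hy i⟩) ^ E i := by
  classical
  have hgenO := genO_of_dvr hϖ0 hϖ hdvr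
  have hrad : ∀ i (z : F), (V i).valuation z < 1 →
      ∃ N : ℕ, (V i).valuation z ^ N ≤ (V i).valuation (algebraMap K F ϖ) :=
    fun i _ hz => exists_pow_le_of_dvr (hover i) hϖ0 hϖ hdvr hz
  have hfin : ∀ i, Module.Finite k (κ i) := fun i =>
    finite_residue_dvr hover hϖ0 hϖ hdvr hτ hram π ρ hπ hρ hc i
  have hfr := finrank_eq_of_fund_eq hover hinc hϖ0 hϖ hgenO hτ hrad hram π ρ hπ hρ hc f hf heq
  have hdeg : ∑ i, E i * Module.finrank k (κ i) = Module.finrank K F := by
    rw [← heq]; exact Finset.sum_congr rfl fun i _ => by rw [hfr i]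
  have hgen := gen_of_fund_eq hover hinc hϖ0 hϖ hdvr hτ hram π ρ hπ hρ hc hdeg
  have hne : Nonempty ι := by
    by_contra hemp
    rw [not_nonempty_iff] at hemp
    have h0 : Module.finrank K F = 0 := by
      rw [← hdeg]; exact Finset.sum_eq_zero fun i _ => (hemp.false i).elim
    exact absurd (Module.finrank_pos (R := K) (M := F)) (by rw [h0]; exact lt_irrefl 0)
  exact norm_red_ram hover hinc hϖ0 hϖ hgenO hτ hgen hram π ρ hπ hρ hc hdeg hy

/-- **`val_norm_ram` from lower-bound data.**  Same hypotheses as `norm_red_ram_lb`.  Every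
`y ≠ 0` has `v i (y) = v i (τ i) ^ a i` with `a i : ℤ`, and
`v (N_{F/K} y) = v ϖ ^ ∑ i, f i * a i`. -/
theorem val_norm_ram_lb [Module.Finite K F] (f : ι → ℕ)
    (hf : ∀ i, f i ≤ Module.finrank k (κ i))
    (heq : ∑ i, E i * f i = Module.finrank K F)
    {y : F} (hy : y ≠ 0) :
    ∃ a : ι → ℤ, (∀ i, (V i).valuation y = (V i).valuation (τ i) ^ a i) ∧
      O.valuation (Algebra.norm K y) = O.valuation ϖ ^ (∑ i, (f i : ℤ) * a i) := by
  classical
  have hgenO := genO_of_dvr hϖ0 hϖ hdvr
  have hrad : ∀ i (z : F), (V i).valuation z < 1 →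
      ∃ N : ℕ, (V i).valuation z ^ N ≤ (V i).valuation (algebraMap K F ϖ) :=
    fun i _ hz => exists_pow_le_of_dvr (hover i) hϖ0 hϖ hdvr hz
  have hfin : ∀ i, Module.Finite k (κ i) := fun i =>
    finite_residue_dvr hover hϖ0 hϖ hdvr hτ hram π ρ hπ hρ hc i
  have hfr := finrank_eq_of_fund_eq hover hinc hϖ0 hϖ hgenO hτ hrad hram π ρ hπ hρ hc f hf heq
  have hdeg : ∑ i, E i * Module.finrank k (κ i) = Module.finrank K F := by
    rw [← heq]; exact Finset.sum_congr rfl fun i _ => by rw [hfr i]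
  have hgen := gen_of_fund_eq hover hinc hϖ0 hϖ hdvr hτ hram π ρ hπ hρ hc hdeg
  have hne : Nonempty ι := by
    by_contra hemp
    rw [not_nonempty_iff] at hemp
    have h0 : Module.finrank K F = 0 := by
      rw [← hdeg]; exact Finset.sum_eq_zero fun i _ => (hemp.false i).elim
    exact absurd (Module.finrank_pos (R := K) (M := F)) (by rw [h0]; exact lt_irrefl 0)
  obtain ⟨a, ha, hN⟩ := val_norm_ram_dvr hover hinc hϖ0 hϖ hdvr hτ hgen hram π ρ hπ hρ hc hdeg hy
  refine ⟨a, ha, ?_⟩
  rw [hN]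
  congr 1
  exact Finset.sum_congr rfl fun i _ => by rw [hfr i]

end Eq

end Fermat.Agent.S36.H253
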