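import Fermat.Agent.S36.H253.Approx

/-!
# Norms commute with reduction: several extensions WITH ramification (helper253)

Mathlib only (on top of `S35/H253/NormRed2.lean`).  `F / K` a finite field extension, `O` a
valuation subring of `K` with uniformiser `ϖ`, `V i` (`i : ι`, finite) valuation subrings of `F`
lying over `O`, `t i` an element of the maximal ideal of `V i` with `ϖ = unit * t i ^ e i` in
`V i`, reductions `π : O → k`, `ρ i : V i → κ i`.

`RamFamily` : an adapted family `m (i, s, j) = r i j s * t i ^ s` (`s < e i`, `j : J i`), where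
the `r i j s` are residually independent at `V i` and `m (i, s, j) ∈ ϖ V i'` for `i' ≠ i`.

`RamFamily.norm_red` : if the residues of the `r i · s` are bases of `κ i / k` and
`∑ i, e i * #(J i) = [F : K]`, then for `y ∈ ⋂ V i`

  `N_{F/K} y ∈ O`   and   `π (N_{F/K} y) = ∏ i, N_{κ i / k} (ρ i y) ^ e i`.
-/

set_option autoImplicit false
set_option linter.unusedSectionVars false

namespace Fermat.Agent.S36.H253

open scoped BigOperators
open Fermat.Agent.S35.H253

section Defs

variable {K F : Type*} [Field K] [Field F] [Algebra K F]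

/-- The hypotheses on an adapted family (see the module docstring). -/
structure RamFamily (O : ValuationSubring K) (ϖ : K) {ι : Type*} (V : ι → ValuationSubring F)
    (t : ι → F) (e : ι → ℕ) {J : ι → Type*} [∀ i, Fintype (J i)]
    (r : (i : ι) → J i → Fin (e i) → F) : Prop where
  isOver : ∀ i, Over O (V i)
  ne_zero : ϖ ≠ 0
  unifO : O.valuation ϖ < 1
  genO : ∀ a : K, O.valuation a < 1 → O.valuation a ≤ O.valuation ϖ
  unif : ∀ i, (V i).valuation (t i) < 1
  ram : ∀ i, (V i).valuation (algebraMap K F ϖ) = (V i).valuation (t i) ^ (e i)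
  r_mem : ∀ i j s, r i j s ∈ V i
  small : ∀ i j (s : Fin (e i)) i', i' ≠ i →
    (V i').valuation (r i j s * t i ^ (s : ℕ)) ≤ (V i').valuation (algebraMap K F ϖ)
  indep : ∀ i (s : Fin (e i)) (a : J i → K), (∀ j, a j ∈ O) →
    (V i).valuation (∑ j, algebraMap K F (a j) * r i j s) < 1 → ∀ j, O.valuation (a j) < 1

/-- Index type of the blocks: `(i, s)` with `s < e i`. -/
abbrev Blk {ι : Type*} (e : ι → ℕ) : Type _ := Σ i : ι, Fin (e i)

/-- Index type of the adapted family. -/
abbrev Idx {ι : Type*} (e : ι → ℕ) (J : ι → Type*) : Type _ := Σ a : Blk e, J a.1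

/-- The adapted family `m (i, s, j) = r i j s * t i ^ s`. -/
def fam {ι : Type*} (t : ι → F) (e : ι → ℕ) {J : ι → Type*}
    (r : (i : ι) → J i → Fin (e i) → F) : Idx e J → F :=
  fun l => r l.1.1 l.2 l.1.2 * t l.1.1 ^ (l.1.2 : ℕ)

end Defs

namespace RamFamily

variable {K F : Type*} [Field K] [Field F] [Algebra K F]
variable {O : ValuationSubring K} {ϖ : K} {ι : Type*} [Fintype ι] [DecidableEq ι]
  {V : ι → ValuationSubring F}
  {t : ι → F} {e : ι → ℕ} {J : ι → Type*} [∀ i, Fintype (J i)]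
  {r : (i : ι) → J i → Fin (e i) → F}

theorem t_ne_zero (h : RamFamily O ϖ V t e r) (i : ι) : t i ≠ 0 := by
  intro h0
  have h1 := h.ram i
  by_cases he : e i = 0
  · rw [he, pow_zero] at h1
    have := (h.isOver i).val_lt_one_iff ϖ |>.2 h.unifO
    rw [h1] at this
    exact lt_irrefl _ this
  · rw [h0, map_zero, zero_pow he, Valuation.zero_iff, map_eq_zero] at h1
    exact h.ne_zero h1

theorem val_t_pos (h : RamFamily O ϖ V t e r) (i : ι) : 0 < (V i).valuation (t i) := by
  rw [Valuation.pos_iff]; exact h.t_ne_zero i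

theorem e_pos (h : RamFamily O ϖ V t e r) (i : ι) : 0 < e i := by
  rcases Nat.eq_zero_or_pos (e i) with he | he
  · have h1 := h.ram i
    rw [he, pow_zero] at h1
    have := (h.isOver i).val_lt_one_iff ϖ |>.2 h.unifO
    rw [h1] at this
    exact absurd this (lt_irrefl _)
  · exact he

/-- Elements of the maximal ideal of `O` are divisible by `ϖ` in every `V i`. -/
theorem val_le_of_small (h : RamFamily O ϖ V t e r) (i : ι) {a : K} (ha : O.valuation a < 1) :
    (V i).valuation (algebraMap K F a) ≤ (V i).valuation (algebraMap K F ϖ) := by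
  have h1 : O.valuation (a * ϖ⁻¹) ≤ 1 := by
    rw [map_mul, map_inv₀]
    have hpos : 0 < O.valuation ϖ := by rw [Valuation.pos_iff]; exact h.ne_zero
    calc O.valuation a * (O.valuation ϖ)⁻¹ ≤ O.valuation ϖ * (O.valuation ϖ)⁻¹ := by
          gcongr; exact h.genO a ha
      _ = 1 := mul_inv_cancel₀ hpos.ne'
  have h2 := ((h.isOver i).val_le_one_iff _).2 h1
  have h3 : algebraMap K F a = algebraMap K F (a * ϖ⁻¹) * algebraMap K F ϖ := by
    rw [← map_mul, inv_mul_cancel_right₀ h.ne_zero]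
  rw [h3, map_mul]
  calc (V i).valuation (algebraMap K F (a * ϖ⁻¹)) * (V i).valuation (algebraMap K F ϖ)
      ≤ 1 * (V i).valuation (algebraMap K F ϖ) := by gcongr
    _ = _ := one_mul _

theorem val_pow_le_pow (h : RamFamily O ϖ V t e r) (i : ι) {a b : ℕ} (hab : a ≤ b) :
    (V i).valuation (t i) ^ b ≤ (V i).valuation (t i) ^ a :=
  pow_le_pow_of_le_one zero_le (h.unif i).le hab

theorem fam_mem (h : RamFamily O ϖ V t e r) (l : Idx e J) (i : ι) : fam t e r l ∈ V i := by
  rw [← (V i).valuation_le_one_iff]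
  by_cases hi : i = l.1.1
  · subst hi
    unfold fam
    rw [map_mul, map_pow]
    calc (V l.1.1).valuation (r l.1.1 l.2 l.1.2) * (V l.1.1).valuation (t l.1.1) ^ (l.1.2 : ℕ)
        ≤ 1 * 1 := by
          gcongr
          · exact ((V l.1.1).valuation_le_one_iff _).2 (h.r_mem _ _ _)
          · exact pow_le_one₀ zero_le (h.unif _).le
      _ = 1 := one_mul 1
  · refine le_trans (h.small l.1.1 l.2 l.1.2 i hi) ?_
    exact ((h.isOver i).val_lt_one_iff ϖ |>.2 h.unifO).le

theorem sum_split (a : Idx e J → K) (a₀ : Blk e) :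
    ∑ l, algebraMap K F (a l) * fam t e r l =
      (∑ j : J a₀.1, algebraMap K F (a ⟨a₀, j⟩) * fam t e r ⟨a₀, j⟩) +
        ∑ b ∈ Finset.univ.erase a₀,
          ∑ j : J b.1, algebraMap K F (a ⟨b, j⟩) * fam t e r ⟨b, j⟩ := by
  rw [Fintype.sum_sigma, ← Finset.add_sum_erase _ _ (Finset.mem_univ a₀)]

theorem val_coeff_le_one (h : RamFamily O ϖ V t e r) (i : ι) {a : K} (ha : a ∈ O) :
    (V i).valuation (algebraMap K F a) ≤ 1 :=
  ((h.isOver i).val_le_one_iff a).2 ((O.valuation_le_one_iff a).2 ha)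

/-- The part of an integral combination outside the block `(i, s)` is divisible by
`t i ^ (s + 1)` in `V i`, provided the coefficients of the lower levels of the block `i` are
small. -/
theorem val_rest_le (h : RamFamily O ϖ V t e r) (a : Idx e J → K) (ha : ∀ l, a l ∈ O)
    (i : ι) (s : Fin (e i))
    (hlow : ∀ (s' : Fin (e i)) (j' : J i), (s' : ℕ) < (s : ℕ) →
      O.valuation (a ⟨⟨i, s'⟩, j'⟩) < 1) :
    (V i).valuation (∑ b ∈ Finset.univ.erase (⟨i, s⟩ : Blk e),
        ∑ j : J b.1, algebraMap K F (a ⟨b, j⟩) * fam t e r ⟨b, j⟩) ≤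
        (V i).valuation (t i) ^ ((s : ℕ) + 1) := by
  have hle : (s : ℕ) + 1 ≤ e i := s.2
  refine Valuation.map_sum_le _ fun b hb => Valuation.map_sum_le _ fun j' _ => ?_
  have hb' : b ≠ ⟨i, s⟩ := Finset.ne_of_mem_erase hb
  obtain ⟨i', s'⟩ := b
  rw [map_mul]
  by_cases hi : i' = i
  · subst hi
    have hne : s' ≠ s := fun hh => hb' (by rw [hh])
    rcases lt_or_gt_of_ne (fun hh => hne (Fin.ext hh) : (s' : ℕ) ≠ (s : ℕ)) with hlt | hgt
    · -- lower level: coefficient small
      have h1 : O.valuation (a ⟨⟨i', s'⟩, j'⟩) < 1 := hlow s' j' hlt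
      have h2 := h.val_le_of_small i' h1
      have h3 : (V i').valuation (fam t e r ⟨⟨i', s'⟩, j'⟩) ≤ 1 :=
        ((V i').valuation_le_one_iff _).2 (h.fam_mem _ _)
      calc (V i').valuation (algebraMap K F (a ⟨⟨i', s'⟩, j'⟩)) *
            (V i').valuation (fam t e r ⟨⟨i', s'⟩, j'⟩)
          ≤ (V i').valuation (algebraMap K F ϖ) * 1 := by gcongr
        _ = (V i').valuation (t i') ^ (e i') := by rw [mul_one, h.ram]
        _ ≤ (V i').valuation (t i') ^ ((s : ℕ) + 1) := h.val_pow_le_pow i' hle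
    · -- higher level
      have h3 : (V i').valuation (fam t e r ⟨⟨i', s'⟩, j'⟩) ≤
          (V i').valuation (t i') ^ (s' : ℕ) := by
        unfold fam
        rw [map_mul, map_pow]
        calc (V i').valuation (r i' j' s') * (V i').valuation (t i') ^ (s' : ℕ)
            ≤ 1 * (V i').valuation (t i') ^ (s' : ℕ) := by
              gcongr
              exact ((V i').valuation_le_one_iff _).2 (h.r_mem _ _ _)
          _ = _ := one_mul _
      calc (V i').valuation (algebraMap K F (a ⟨⟨i', s'⟩, j'⟩)) *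
            (V i').valuation (fam t e r ⟨⟨i', s'⟩, j'⟩)
          ≤ 1 * (V i').valuation (t i') ^ (s' : ℕ) := by
            gcongr
            exact h.val_coeff_le_one i' (ha _)
        _ = (V i').valuation (t i') ^ (s' : ℕ) := one_mul _
        _ ≤ (V i').valuation (t i') ^ ((s : ℕ) + 1) := h.val_pow_le_pow i' (by omega)
  · -- another valuation
    have h3 := h.small i' j' s' i (fun hh => hi hh.symm)
    calc (V i).valuation (algebraMap K F (a ⟨⟨i', s'⟩, j'⟩)) *
          (V i).valuation (fam t e r ⟨⟨i', s'⟩, j'⟩)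
        ≤ 1 * (V i).valuation (algebraMap K F ϖ) := by
          gcongr
          · exact h.val_coeff_le_one i (ha _)
          · exact h3
      _ = (V i).valuation (t i) ^ (e i) := by rw [one_mul, h.ram]
      _ ≤ (V i).valuation (t i) ^ ((s : ℕ) + 1) := h.val_pow_le_pow i hle

theorem block_eq (a : Idx e J → K) (i : ι) (s : Fin (e i)) :
    (∑ j : J i, algebraMap K F (a ⟨⟨i, s⟩, j⟩) * r i j s) * t i ^ (s : ℕ) =
      (∑ l, algebraMap K F (a l) * fam t e r l) -
        ∑ b ∈ Finset.univ.erase (⟨i, s⟩ : Blk e),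
          ∑ j : J b.1, algebraMap K F (a ⟨b, j⟩) * fam t e r ⟨b, j⟩ := by
  rw [sum_split a ⟨i, s⟩, Finset.sum_mul, add_sub_cancel_right]
  refine Finset.sum_congr rfl fun j _ => ?_
  unfold fam; ring

/-- **Key lemma.**  If an integral combination of the adapted family is divisible by `t i ^ s₀`
in `V i` (`s₀ ≤ e i`), then its coefficients in the block `i` at the levels `s < s₀` lie in the
maximal ideal of `O`. -/
theorem coeff_small_below (h : RamFamily O ϖ V t e r) (a : Idx e J → K) (ha : ∀ l, a l ∈ O)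
    (i : ι) : ∀ s₀ : ℕ, s₀ ≤ e i →
    (V i).valuation (∑ l, algebraMap K F (a l) * fam t e r l) ≤ (V i).valuation (t i) ^ s₀ →
    ∀ (s : Fin (e i)) (j : J i), (s : ℕ) < s₀ → O.valuation (a ⟨⟨i, s⟩, j⟩) < 1 := by
  intro s₀
  induction s₀ with
  | zero => intro _ _ s j hs; exact absurd hs (Nat.not_lt_zero _)
  | succ s₀ ih =>
    intro hle hz s j hs
    have IH := ih (Nat.le_of_succ_le hle) (hz.trans (h.val_pow_le_pow i (Nat.le_succ s₀)))
    by_cases hs' : (s : ℕ) < s₀
    · exact IH s j hs'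
    have hss : (s : ℕ) = s₀ := by omega
    refine h.indep i s (fun j => a ⟨⟨i, s⟩, j⟩) (fun j => ha _) ?_ j
    have hrest := h.val_rest_le a ha i s (fun s' j' hlt => IH s' j' (by omega))
    have hval : (V i).valuation ((∑ j : J i, algebraMap K F (a ⟨⟨i, s⟩, j⟩) * r i j s) *
        t i ^ (s : ℕ)) ≤ (V i).valuation (t i) ^ ((s : ℕ) + 1) := by
      rw [block_eq a i s]
      exact Valuation.map_sub_le _ (by rw [hss]; exact hz) hrest
    rw [map_mul, map_pow, pow_succ'] at hval
    have hpos : 0 < (V i).valuation (t i) ^ (s : ℕ) := pow_pos (h.val_t_pos i) _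
    have := le_of_mul_le_mul_right hval hpos
    exact lt_of_le_of_lt this (h.unif i)

/-- **Level identification.**  If an integral combination `z` of the adapted family equals
`rz * t i ^ s` with `rz ∈ V i`, then the block `(i, s)` of the coefficients computes the residue
of `rz`. -/
theorem block_congr (h : RamFamily O ϖ V t e r) (a : Idx e J → K) (ha : ∀ l, a l ∈ O)
    (i : ι) (s : Fin (e i)) {rz : F} (hrz : rz ∈ V i)
    (hz : (∑ l, algebraMap K F (a l) * fam t e r l) = rz * t i ^ (s : ℕ)) :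
    (V i).valuation ((∑ j : J i, algebraMap K F (a ⟨⟨i, s⟩, j⟩) * r i j s) - rz) < 1 := by
  have hzle : (V i).valuation (∑ l, algebraMap K F (a l) * fam t e r l) ≤
      (V i).valuation (t i) ^ (s : ℕ) := by
    rw [hz, map_mul, map_pow]
    calc (V i).valuation rz * (V i).valuation (t i) ^ (s : ℕ)
        ≤ 1 * (V i).valuation (t i) ^ (s : ℕ) := by
          gcongr
          exact ((V i).valuation_le_one_iff _).2 hrz
      _ = _ := one_mul _
  have hlow := h.coeff_small_below a ha i (s : ℕ) s.2.le hzle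
  have hrest := h.val_rest_le a ha i s (fun s' j' hlt => hlow s' j' hlt)
  have e1 : ((∑ j : J i, algebraMap K F (a ⟨⟨i, s⟩, j⟩) * r i j s) - rz) * t i ^ (s : ℕ) =
      -(∑ b ∈ Finset.univ.erase (⟨i, s⟩ : Blk e),
          ∑ j : J b.1, algebraMap K F (a ⟨b, j⟩) * fam t e r ⟨b, j⟩) := by
    rw [sub_mul, block_eq a i s, hz]; ring
  have hval : (V i).valuation (((∑ j : J i, algebraMap K F (a ⟨⟨i, s⟩, j⟩) * r i j s) - rz) *
      t i ^ (s : ℕ)) ≤ (V i).valuation (t i) ^ ((s : ℕ) + 1) := by
    rw [e1, Valuation.map_neg]; exact hrest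
  rw [map_mul, map_pow, pow_succ'] at hval
  have hpos : 0 < (V i).valuation (t i) ^ (s : ℕ) := pow_pos (h.val_t_pos i) _
  exact lt_of_le_of_lt (le_of_mul_le_mul_right hval hpos) (h.unif i)

/-- **Lattice lemma.**  An integral combination divisible by `ϖ` in every `V i` has all its
coefficients in the maximal ideal of `O`. -/
theorem coeff_small (h : RamFamily O ϖ V t e r) (a : Idx e J → K) (ha : ∀ l, a l ∈ O)
    (hz : ∀ i, (V i).valuation (∑ l, algebraMap K F (a l) * fam t e r l) ≤
      (V i).valuation (algebraMap K F ϖ)) (l : Idx e J) : O.valuation (a l) < 1 := by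
  obtain ⟨⟨i, s⟩, j⟩ := l
  exact h.coeff_small_below a ha i (e i) le_rfl (by rw [← h.ram]; exact hz i) s j s.2

/-- Coordinates of elements of `⋂ V i` with respect to the adapted family lie in `O`. -/
theorem coeff_mem (h : RamFamily O ϖ V t e r) (a : Idx e J → K)
    (hz : ∀ i, (∑ l, algebraMap K F (a l) * fam t e r l) ∈ V i) (l : Idx e J) : a l ∈ O := by
  classical
  by_contra hl
  have : Nonempty (Idx e J) := ⟨l⟩
  obtain ⟨l₀, hl₀⟩ := Finite.exists_max (fun l => O.valuation (a l))
  have hbig : 1 < O.valuation (a l₀) := by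
    have : ¬ O.valuation (a l) ≤ 1 := fun hh => hl ((O.valuation_le_one_iff _).1 hh)
    exact lt_of_lt_of_le (not_le.1 this) (hl₀ l)
  have h0 : a l₀ ≠ 0 := by
    intro h0; rw [h0, map_zero] at hbig; exact not_lt.2 zero_le_one hbig
  have hinv : O.valuation (a l₀)⁻¹ < 1 := by
    rw [map_inv₀]; exact inv_lt_one_of_one_lt₀ hbig
  set c : Idx e J → K := fun l => a l * (a l₀)⁻¹ with hc
  have hcO : ∀ l, c l ∈ O := fun l => by
    rw [← O.valuation_le_one_iff, hc, map_mul, map_inv₀]
    have hpos : 0 < O.valuation (a l₀) := lt_trans zero_lt_one hbig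
    calc O.valuation (a l) * (O.valuation (a l₀))⁻¹
        ≤ O.valuation (a l₀) * (O.valuation (a l₀))⁻¹ := by gcongr; exact hl₀ l
      _ = 1 := mul_inv_cancel₀ hpos.ne'
  have hsum : (∑ l, algebraMap K F (c l) * fam t e r l) =
      (∑ l, algebraMap K F (a l) * fam t e r l) * algebraMap K F (a l₀)⁻¹ := by
    rw [Finset.sum_mul]
    refine Finset.sum_congr rfl fun l _ => ?_
    rw [hc, map_mul]; ring
  have hs : ∀ i, (V i).valuation (∑ l, algebraMap K F (c l) * fam t e r l) ≤
      (V i).valuation (algebraMap K F ϖ) := fun i => by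
    rw [hsum, map_mul]
    calc (V i).valuation (∑ l, algebraMap K F (a l) * fam t e r l) *
          (V i).valuation (algebraMap K F (a l₀)⁻¹)
        ≤ 1 * (V i).valuation (algebraMap K F ϖ) := by
          gcongr
          · exact ((V i).valuation_le_one_iff _).2 (hz i)
          · exact h.val_le_of_small i hinv
      _ = _ := one_mul _
  have hlt := h.coeff_small c hcO hs l₀
  have hc₀ : c l₀ = 1 := by rw [hc]; exact mul_inv_cancel₀ h0
  rw [hc₀, map_one] at hlt
  exact lt_irrefl _ hlt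

theorem eq_zero_of_sum_eq_zero (h : RamFamily O ϖ V t e r) (a : Idx e J → K)
    (hz : (∑ l, algebraMap K F (a l) * fam t e r l) = 0) (l : Idx e J) : a l = 0 := by
  classical
  by_contra hl
  have : Nonempty (Idx e J) := ⟨l⟩
  obtain ⟨l₀, hl₀⟩ := Finite.exists_max (fun l => O.valuation (a l))
  have hpos : 0 < O.valuation (a l₀) :=
    lt_of_lt_of_le (by rw [Valuation.pos_iff]; exact hl) (hl₀ l)
  have h0 : a l₀ ≠ 0 := by
    intro h0; rw [h0, map_zero] at hpos; exact lt_irrefl _ hpos
  set c : Idx e J → K := fun l => a l * (a l₀)⁻¹ with hc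
  have hcO : ∀ l, c l ∈ O := fun l => by
    rw [← O.valuation_le_one_iff, hc, map_mul, map_inv₀]
    calc O.valuation (a l) * (O.valuation (a l₀))⁻¹
        ≤ O.valuation (a l₀) * (O.valuation (a l₀))⁻¹ := by gcongr; exact hl₀ l
      _ = 1 := mul_inv_cancel₀ hpos.ne'
  have hsum : (∑ l, algebraMap K F (c l) * fam t e r l) =
      (∑ l, algebraMap K F (a l) * fam t e r l) * algebraMap K F (a l₀)⁻¹ := by
    rw [Finset.sum_mul]
    refine Finset.sum_congr rfl fun l _ => ?_
    rw [hc, map_mul]; ring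
  rw [hz, zero_mul] at hsum
  have hlt := h.coeff_small c hcO (fun i => by rw [hsum, map_zero]; exact zero_le) l₀
  have hc₀ : c l₀ = 1 := by rw [hc]; exact mul_inv_cancel₀ h0
  rw [hc₀, map_one] at hlt
  exact lt_irrefl _ hlt

theorem linearIndependent (h : RamFamily O ϖ V t e r) : LinearIndependent K (fam t e r) := by
  rw [Fintype.linearIndependent_iff]
  intro a ha l
  refine h.eq_zero_of_sum_eq_zero a ?_ l
  rw [← ha]
  exact Finset.sum_congr rfl fun l _ => (Algebra.smul_def _ _).symm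

theorem sum_repr_eq (bas : Module.Basis (Idx e J) K F) (hbas : ⇑bas = fam t e r) (z : F) :
    (∑ l, algebraMap K F (bas.repr z l) * fam t e r l) = z := by
  conv_rhs => rw [← bas.sum_repr z]
  refine Finset.sum_congr rfl fun l _ => ?_
  rw [Algebra.smul_def, hbas]

/-- Coordinates of elements of `⋂ V i` in an adapted basis lie in `O`. -/
theorem repr_mem (h : RamFamily O ϖ V t e r) (bas : Module.Basis (Idx e J) K F)
    (hbas : ⇑bas = fam t e r) {z : F} (hz : ∀ i, z ∈ V i) (l : Idx e J) :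
    bas.repr z l ∈ O :=
  h.coeff_mem (fun l => bas.repr z l) (fun i => by rw [sum_repr_eq bas hbas]; exact hz i) l

/-- The matrix, with entries in `O`, of multiplication by `y ∈ ⋂ V i` in an adapted basis. -/
noncomputable def intMatrix (h : RamFamily O ϖ V t e r) (bas : Module.Basis (Idx e J) K F)
    (hbas : ⇑bas = fam t e r) {y : F} (hy : ∀ i, y ∈ V i) :
    Matrix (Idx e J) (Idx e J) O :=
  fun k l => ⟨bas.repr (y * fam t e r l) k,
    h.repr_mem bas hbas (fun i => mul_mem (hy i) (h.fam_mem l i)) k⟩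

theorem intMatrix_map [DecidableEq (Idx e J)] (h : RamFamily O ϖ V t e r)
    (bas : Module.Basis (Idx e J) K F) (hbas : ⇑bas = fam t e r) {y : F}
    (hy : ∀ i, y ∈ V i) :
    (h.intMatrix bas hbas hy).map O.subtype = Algebra.leftMulMatrix bas y := by
  ext k l
  rw [Matrix.map_apply, Algebra.leftMulMatrix_eq_repr_mul, hbas]
  rfl

theorem norm_eq_det_intMatrix [DecidableEq (Idx e J)] (h : RamFamily O ϖ V t e r)
    (bas : Module.Basis (Idx e J) K F) (hbas : ⇑bas = fam t e r) {y : F}
    (hy : ∀ i, y ∈ V i) :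
    Algebra.norm K y = (((h.intMatrix bas hbas hy).det : O) : K) := by
  rw [Algebra.norm_eq_matrix_det bas, ← h.intMatrix_map bas hbas hy]
  have := RingHom.map_det O.subtype (h.intMatrix bas hbas hy)
  rw [RingHom.mapMatrix_apply] at this
  rw [← this]
  rfl

theorem card_idx : Fintype.card (Idx e J) = ∑ i, e i * Fintype.card (J i) := by
  rw [Fintype.card_sigma, Fintype.sum_sigma]
  refine Finset.sum_congr rfl fun i _ => ?_
  show ∑ _s : Fin (e i), Fintype.card (J i) = _
  rw [Finset.sum_const, Finset.card_univ, Fintype.card_fin, smul_eq_mul]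

end RamFamily

section Norm

variable {K F : Type*} [Field K] [Field F] [Algebra K F]
variable {O : ValuationSubring K} {ϖ : K} {ι : Type*} [Fintype ι] [DecidableEq ι]
  {V : ι → ValuationSubring F}
  {t : ι → F} {e : ι → ℕ} {J : ι → Type*} [∀ i, Fintype (J i)]
  {r : (i : ι) → J i → Fin (e i) → F}
  {k : Type*} [Field k] {κ : ι → Type*} [∀ i, Field (κ i)] [∀ i, Algebra k (κ i)]

/-- The order of the blocks: lexicographic in `(i, s)`, decreasing in `s`. -/
noncomputable def blkKey [LinearOrder ι] (e : ι → ℕ) (a : Blk e) : ι ×ₗ ℕᵒᵈ :=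
  toLex (a.1, OrderDual.toDual (a.2 : ℕ))

theorem blkKey_injective [LinearOrder ι] (e : ι → ℕ) : Function.Injective (blkKey e) := by
  rintro ⟨i, s⟩ ⟨i', s'⟩ hh
  have h0 := toLex.injective hh
  have h1 : i = i' := (Prod.mk.inj h0).1
  subst h1
  have h2 : (s : ℕ) = (s' : ℕ) := OrderDual.toDual.injective (Prod.mk.inj h0).2
  rw [Fin.ext h2]

theorem blkKey_lt_iff [LinearOrder ι] (e : ι → ℕ) (a a' : Blk e) :
    blkKey e a < blkKey e a' ↔ a.1 < a'.1 ∨ (a.1 = a'.1 ∧ (a'.2 : ℕ) < (a.2 : ℕ)) := by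
  unfold blkKey
  rw [Prod.Lex.toLex_lt_toLex]
  simp only [OrderDual.toDual_lt_toDual]

/-- Type synonym of `Blk e` carrying the block order (`Sigma` types have another order). -/
def BlkO {ι : Type*} (e : ι → ℕ) : Type _ := Blk e

/-- The identity `Blk e → BlkO e`. -/
def toBlkO {ι : Type*} (e : ι → ℕ) (a : Blk e) : BlkO e := a

noncomputable instance instLinearOrderBlkO [LinearOrder ι] (e : ι → ℕ) : LinearOrder (BlkO e) :=
  LinearOrder.lift' (fun a : BlkO e => blkKey e a) (blkKey_injective e)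

instance instFintypeBlkO (e : ι → ℕ) : Fintype (BlkO e) :=
  inferInstanceAs (Fintype (Blk e))

theorem toBlkO_lt_iff [LinearOrder ι] (e : ι → ℕ) (a a' : Blk e) :
    toBlkO e a < toBlkO e a' ↔ a.1 < a'.1 ∨ (a.1 = a'.1 ∧ (a'.2 : ℕ) < (a.2 : ℕ)) :=
  blkKey_lt_iff e a a'

theorem prod_blkO {M : Type*} [CommMonoid M] (e : ι → ℕ) (f : BlkO e → M) :
    ∏ a : BlkO e, f a = ∏ i : ι, ∏ s : Fin (e i), f (toBlkO e ⟨i, s⟩) :=
  Fintype.prod_sigma (fun a : Blk e => f (toBlkO e a))

/-- **Norms commute with reduction: several extensions with ramification.** -/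
theorem RamFamily.norm_red [Nonempty ι] (h : RamFamily O ϖ V t e r)
    (hcard : ∑ i, e i * Fintype.card (J i) = Module.finrank K F)
    (π : O →+* k) (ρ : ∀ i, V i →+* κ i)
    (hπ : ∀ a : O, O.valuation (a : K) < 1 → π a = 0)
    (hρ : ∀ i (z : V i), (V i).valuation (z : F) < 1 → ρ i z = 0)
    (hc : ∀ i (a : O), ρ i ⟨algebraMap K F a, ((h.isOver i) a).2 a.2⟩ = algebraMap k (κ i) (π a))
    (b : ∀ i, Fin (e i) → Module.Basis (J i) k (κ i))
    (hb : ∀ i j s, ρ i ⟨r i j s, h.r_mem i j s⟩ = b i s j)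
    {y : F} (hy : ∀ i, y ∈ V i) :
    ∃ hN : Algebra.norm K y ∈ O,
      π ⟨Algebra.norm K y, hN⟩ = ∏ i, Algebra.norm k (ρ i ⟨y, hy i⟩) ^ e i := by
  classical
  let _ : LinearOrder ι := LinearOrder.lift' (Fintype.equivFin ι) (Equiv.injective _)
  have hlt : ∀ a a' : Blk e, toBlkO e a < toBlkO e a' ↔
      a.1 < a'.1 ∨ (a.1 = a'.1 ∧ (a'.2 : ℕ) < (a.2 : ℕ)) :=
    fun a a' => toBlkO_lt_iff e a a'
  -- nonemptiness of the index type
  have hne : Nonempty (Idx e J) := by
    obtain ⟨i₀⟩ := (inferInstance : Nonempty ι)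
    have s₀ : Fin (e i₀) := ⟨0, h.e_pos i₀⟩
    have : Nonempty (J i₀) := by
      by_contra hemp
      rw [not_nonempty_iff] at hemp
      have : Subsingleton (κ i₀) :=
        ⟨fun x y => (b i₀ s₀).ext_elem fun j => (IsEmpty.false j).elim⟩
      exact one_ne_zero (Subsingleton.elim (1 : κ i₀) 0)
    obtain ⟨j₀⟩ := this
    exact ⟨⟨⟨i₀, s₀⟩, j₀⟩⟩
  have hcard' : Fintype.card (Idx e J) = Module.finrank K F := by
    rw [RamFamily.card_idx]; exact hcard
  set bas : Module.Basis (Idx e J) K F :=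
    basisOfLinearIndependentOfCardEqFinrank h.linearIndependent hcard' with hbasdef
  have hbas : ⇑bas = fam t e r := coe_basisOfLinearIndependentOfCardEqFinrank _ _
  set A := h.intMatrix bas hbas hy with hA
  have hnorm := h.norm_eq_det_intMatrix bas hbas hy
  have hAO : ∀ l k', ((A k' l : O) : K) ∈ O := fun l k' => (A k' l).2
  have hcol : ∀ l, (∑ k', algebraMap K F ((A k' l : O) : K) * fam t e r k') =
      y * fam t e r l := fun l => RamFamily.sum_repr_eq bas hbas (y * fam t e r l)
  -- block triangularity of the reduced matrix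
  have htri : (π.mapMatrix A).BlockTriangular (fun l : Idx e J => toBlkO e l.1) := by
    intro k' l hkl
    rw [RingHom.mapMatrix_apply, Matrix.map_apply]
    refine hπ _ ?_
    obtain ⟨⟨i', s'⟩, j'⟩ := k'
    obtain ⟨⟨i, s⟩, j⟩ := l
    rcases (hlt _ _).1 hkl with hii | ⟨hii, hss⟩
    · -- different valuations
      have hi : i' ≠ i := fun hh => (ne_of_lt hii) hh.symm
      refine h.coeff_small_below (fun k' => ((A k' ⟨⟨i, s⟩, j⟩ : O) : K))
        (fun k' => hAO _ k') i' (e i') le_rfl ?_ s' j' s'.2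
      rw [hcol, ← h.ram, map_mul]
      calc (V i').valuation y * (V i').valuation (fam t e r ⟨⟨i, s⟩, j⟩)
          ≤ 1 * (V i').valuation (algebraMap K F ϖ) := by
            gcongr
            · exact ((V i').valuation_le_one_iff _).2 (hy i')
            · exact h.small i j s i' hi
        _ = _ := one_mul _
    · -- same valuation, lower level
      simp only at hii hss
      subst hii
      refine h.coeff_small_below (fun k' => ((A k' ⟨⟨i, s⟩, j⟩ : O) : K))
        (fun k' => hAO _ k') i (s : ℕ) s.2.le ?_ s' j' hss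
      rw [hcol]
      unfold fam
      simp only
      rw [map_mul, map_mul, map_pow]
      calc (V i).valuation y * ((V i).valuation (r i j s) * (V i).valuation (t i) ^ (s : ℕ))
          ≤ 1 * (1 * (V i).valuation (t i) ^ (s : ℕ)) := by
            gcongr
            · exact ((V i).valuation_le_one_iff _).2 (hy i)
            · exact ((V i).valuation_le_one_iff _).2 (h.r_mem _ _ _)
        _ = _ := by rw [one_mul, one_mul]
  -- the diagonal blocks
  have hblock : ∀ (i : ι) (s : Fin (e i)),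
      ((π.mapMatrix A).toSquareBlock (fun l : Idx e J => toBlkO e l.1) (toBlkO e ⟨i, s⟩)).det =
      Algebra.norm k (ρ i ⟨y, hy i⟩) := by
    intro i s
    let ε : J i ≃ {l : Idx e J // toBlkO e l.1 = toBlkO e ⟨i, s⟩} :=
      (Equiv.sigmaSubtype (β := fun a : Blk e => J a.1) (⟨i, s⟩ : Blk e)).symm
    refine (Matrix.det_submatrix_equiv_self ε _).symm.trans ?_
    rw [Algebra.norm_eq_matrix_det (b i s)]
    congr 1
    ext j' j
    rw [Matrix.submatrix_apply, Algebra.leftMulMatrix_eq_repr_mul]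
    show π (A ⟨⟨i, s⟩, j'⟩ ⟨⟨i, s⟩, j⟩) = _
    -- the congruence
    have hrz : y * r i j s ∈ V i := mul_mem (hy i) (h.r_mem i j s)
    have hcong := h.block_congr (fun k' => ((A k' ⟨⟨i, s⟩, j⟩ : O) : K)) (fun k' => hAO _ k')
      i s hrz (by rw [hcol]; unfold fam; ring)
    have hmem : (∑ j' : J i, algebraMap K F ((A ⟨⟨i, s⟩, j'⟩ ⟨⟨i, s⟩, j⟩ : O) : K) * r i j' s)
        ∈ V i := by
      refine sum_mem fun j' _ => mul_mem ?_ (h.r_mem _ _ _)
      exact ((h.isOver i) _).2 (hAO _ _)
    have h0 : ρ i (⟨_, hmem⟩ - ⟨y * r i j s, hrz⟩) = 0 := hρ i _ hcong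
    rw [map_sub, sub_eq_zero] at h0
    have e1 : (⟨_, hmem⟩ : V i) = ∑ j' : J i,
        (⟨algebraMap K F ((A ⟨⟨i, s⟩, j'⟩ ⟨⟨i, s⟩, j⟩ : O) : K),
          ((h.isOver i) _).2 (hAO _ _)⟩ : V i) * ⟨r i j' s, h.r_mem i j' s⟩ := by
      apply Subtype.ext
      rw [AddSubmonoidClass.coe_finsetSum]
      simp only [MulMemClass.coe_mul]
    have e2 : (⟨y * r i j s, hrz⟩ : V i) = ⟨y, hy i⟩ * ⟨r i j s, h.r_mem i j s⟩ := rfl
    rw [e1, e2, map_sum, map_mul, hb] at h0
    have h1 : ρ i ⟨y, hy i⟩ * b i s j =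
        ∑ j' : J i, π (A ⟨⟨i, s⟩, j'⟩ ⟨⟨i, s⟩, j⟩) • b i s j' := by
      rw [← h0]
      refine Finset.sum_congr rfl fun j' _ => ?_
      rw [map_mul, hb, Algebra.smul_def, ← hc]
    rw [h1, (b i s).repr_sum_self]
  have hN : Algebra.norm K y ∈ O := by rw [hnorm]; exact (A.det).2
  refine ⟨hN, ?_⟩
  have e0 : (⟨Algebra.norm K y, hN⟩ : O) = A.det := Subtype.ext hnorm
  rw [e0, RingHom.map_det, htri.det_fintype, prod_blkO]
  refine Finset.prod_congr rfl fun i _ => ?_
  rw [Finset.prod_congr rfl (fun s _ => hblock i s), Finset.prod_const, Finset.card_univ,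
    Fintype.card_fin]

end Norm

section Main

variable {K F : Type*} [Field K] [Field F] [Algebra K F]

/-- Multiplication by a nonzero element of an extension field, as a linear equivalence. -/
noncomputable def mulLinearEquiv (k : Type*) {κ : Type*} [Field k] [Field κ] [Algebra k κ]
    (c : κ) (hc : c ≠ 0) : κ ≃ₗ[k] κ :=
  LinearEquiv.ofLinearMap (LinearMap.mulLeft k c) (LinearMap.mulLeft k c⁻¹)
    (by ext x; simp [hc]) (by ext x; simp [hc])

@[simp] theorem mulLinearEquiv_apply (k : Type*) {κ : Type*} [Field k] [Field κ] [Algebra k κ]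
    (c : κ) (hc : c ≠ 0) (x : κ) : mulLinearEquiv k c hc x = c * x := rfl

/-- **Norms commute with reduction: `r` extensions with ramification.**
`O ⊆ K` a valuation ring with uniformiser `ϖ`; `V i ⊆ F` pairwise incomparable valuation rings
over `O` with uniformisers `t i`, `ϖ = unit * t i ^ e i` in `V i`; surjective reductions
`π : O → k`, `ρ i : V i → κ i` onto fields with `κ i / k` finite; `∑ e i * [κ i : k] = [F : K]`.
Then for `y ∈ ⋂ V i`: `N_{F/K} y ∈ O` and `π (N y) = ∏ i, N_{κ i / k} (ρ i y) ^ e i`. -/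
theorem norm_red_ram {ι : Type*} [Fintype ι] [Nonempty ι]
    {O : ValuationSubring K} {ϖ : K} {V : ι → ValuationSubring F} {t : ι → F} {e : ι → ℕ}
    (hover : ∀ i, Over O (V i)) (hinc : ∀ i i', i ≠ i' → ¬ V i ≤ V i')
    (hϖ0 : ϖ ≠ 0) (hϖ : O.valuation ϖ < 1)
    (hgenO : ∀ a : K, O.valuation a < 1 → O.valuation a ≤ O.valuation ϖ)
    (ht : ∀ i, (V i).valuation (t i) < 1)
    (hgen : ∀ i (z : F), (V i).valuation z < 1 → (V i).valuation z ≤ (V i).valuation (t i))
    (hram : ∀ i, (V i).valuation (algebraMap K F ϖ) = (V i).valuation (t i) ^ e i)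
    {k : Type*} [Field k] {κ : ι → Type*} [∀ i, Field (κ i)] [∀ i, Algebra k (κ i)]
    [∀ i, Module.Finite k (κ i)]
    (π : O →+* k) (ρ : ∀ i, V i →+* κ i)
    (hπ : Function.Surjective π) (hρ : ∀ i, Function.Surjective (ρ i))
    (hc : ∀ i (a : O), ρ i ⟨algebraMap K F a, ((hover i) a).2 a.2⟩ = algebraMap k (κ i) (π a))
    (hdeg : ∑ i, e i * Module.finrank k (κ i) = Module.finrank K F)
    {y : F} (hy : ∀ i, y ∈ V i) :
    ∃ hN : Algebra.norm K y ∈ O,
      π ⟨Algebra.norm K y, hN⟩ = ∏ i, Algebra.norm k (ρ i ⟨y, hy i⟩) ^ e i := by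
  classical
  have hker : ∀ i (z : V i), ρ i z = 0 ↔ (V i).valuation (z : F) < 1 :=
    fun i z => map_eq_zero_iff_val_lt_one (ρ i) (hρ i) z
  have hkerO : ∀ a : O, π a = 0 ↔ O.valuation (a : K) < 1 :=
    fun a => map_eq_zero_iff_val_lt_one π hπ a
  -- idempotents
  choose E hE1 hE2 using fun i => exists_idem_multi V hinc i
  have hEmem : ∀ i i', E i ∈ V i' := fun i i' => by
    by_cases hi : i' = i
    · subst hi
      have : E i' = 1 - (1 - E i') := by ring
      rw [this]
      exact sub_mem (one_mem _) (((V i').valuation_le_one_iff _).1 (hE1 i').le)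
    · exact ((V i').valuation_le_one_iff _).1 (hE2 i i' hi).le
  have hρE : ∀ i, ρ i ⟨E i, hEmem i i⟩ = 1 := fun i => by
    have h0 : ρ i (1 - ⟨E i, hEmem i i⟩) = 0 := (hker i _).2 (hE1 i)
    rw [map_sub, map_one, sub_eq_zero] at h0
    exact h0.symm
  set N := ∑ i, e i with hNdef
  have hNe : ∀ i, e i ≤ N := fun i =>
    Finset.single_le_sum (f := e) (fun _ _ => Nat.zero_le _) (Finset.mem_univ i)
  have hEN : ∀ i i', i' ≠ i → (V i').valuation (E i ^ N) ≤ (V i').valuation (algebraMap K F ϖ) :=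
    fun i i' hi => by
      rw [map_pow, hram]
      calc (V i').valuation (E i) ^ N ≤ (V i').valuation (t i') ^ N :=
            pow_le_pow_left₀ zero_le (hgen i' _ (hE2 i i' hi)) N
        _ ≤ (V i').valuation (t i') ^ e i' := pow_le_pow_of_le_one zero_le (ht i').le (hNe i')
  -- residue bases and their lifts
  let J : ι → Type := fun i => Fin (Module.finrank k (κ i))
  let b₀ : ∀ i, Module.Basis (J i) k (κ i) := fun i => Module.finBasis k (κ i)
  choose z hz using fun (i : ι) (j : J i) => hρ i (b₀ i j)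
  choose G hG1 hG2 using fun (i : ι) (j : J i) => exists_lift_multi V hinc i (z i j).2
  have hρG : ∀ i j, ρ i ⟨G i j, hG1 i j i⟩ = b₀ i j := fun i j => by
    rw [← hz i j, ← sub_eq_zero, ← map_sub, hker]
    exact hG2 i j
  -- uniformisers in the intersection
  choose u hu1 hu2 hu3 using fun i => exists_multiplier V (t i)
  have htmem : ∀ i, t i ∈ V i := fun i => ((V i).valuation_le_one_iff _).1 (ht i).le
  have hρu : ∀ i, ρ i ⟨u i, hu1 i i⟩ ≠ 0 := fun i h0 => by
    have := (hker i _).1 h0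
    simp only at this
    rw [hu3 i i (htmem i)] at this
    exact lt_irrefl _ this
  -- the adapted family
  let r : (i : ι) → J i → Fin (e i) → F := fun i j s => E i ^ N * G i j * u i ^ (s : ℕ)
  have hrmem : ∀ i j s, r i j s ∈ V i := fun i j s =>
    mul_mem (mul_mem (pow_mem (hEmem i i) _) (hG1 i j i)) (pow_mem (hu1 i i) _)
  have hρr : ∀ i j s, ρ i ⟨r i j s, hrmem i j s⟩ =
      ρ i ⟨u i, hu1 i i⟩ ^ (s : ℕ) * b₀ i j := fun i j (s : Fin (e i)) => by
    have e1 : (⟨r i j s, hrmem i j s⟩ : V i) =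
        ⟨E i, hEmem i i⟩ ^ N * ⟨G i j, hG1 i j i⟩ * ⟨u i, hu1 i i⟩ ^ (s : ℕ) := rfl
    rw [e1, map_mul, map_mul, map_pow, map_pow, hρE, one_pow, one_mul, hρG, mul_comm]
  have hfam : RamFamily O ϖ V t e r :=
    { isOver := hover
      ne_zero := hϖ0
      unifO := hϖ
      genO := hgenO
      unif := ht
      ram := hram
      r_mem := hrmem
      small := by
        intro i j s i' hi
        have e1 : r i j s * t i ^ (s : ℕ) = E i ^ N * (G i j * (t i * u i) ^ (s : ℕ)) := by
          simp only [r]; ring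
        rw [e1, map_mul]
        calc (V i').valuation (E i ^ N) * (V i').valuation (G i j * (t i * u i) ^ (s : ℕ))
            ≤ (V i').valuation (algebraMap K F ϖ) * 1 := by
              gcongr
              · exact hEN i i' hi
              · exact ((V i').valuation_le_one_iff _).2
                  (mul_mem (hG1 i j i') (pow_mem (hu2 i i') _))
          _ = _ := mul_one _
      indep := by
        intro i s a ha hsmall j
        have hmem : (∑ j, algebraMap K F (a j) * r i j s) ∈ V i :=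
          ((V i).valuation_le_one_iff _).1 hsmall.le
        have h0 : ρ i ⟨_, hmem⟩ = 0 := (hker i ⟨_, hmem⟩).2 hsmall
        have e1 : (⟨_, hmem⟩ : V i) =
            ∑ j, (⟨algebraMap K F (a j), ((hover i) (a j)).2 (ha j)⟩ : V i) *
              ⟨r i j s, hrmem i j s⟩ := by
          apply Subtype.ext
          rw [AddSubmonoidClass.coe_finsetSum]
          simp only [MulMemClass.coe_mul]
        rw [e1, map_sum] at h0
        have h1 : ρ i ⟨u i, hu1 i i⟩ ^ (s : ℕ) * ∑ j, π ⟨a j, ha j⟩ • b₀ i j = 0 := by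
          rw [← h0, Finset.mul_sum]
          refine Finset.sum_congr rfl fun j _ => ?_
          rw [map_mul, hρr, Algebra.smul_def, ← hc]
          ring
        have h2 : ∑ j, π ⟨a j, ha j⟩ • b₀ i j = 0 :=
          (mul_eq_zero.1 h1).resolve_left (pow_ne_zero _ (hρu i))
        have := Fintype.linearIndependent_iff.1 (b₀ i).linearIndependent _ h2 j
        exact (hkerO ⟨a j, ha j⟩).1 this }
  refine hfam.norm_red (J := J) ?_ π ρ (fun a ha => (hkerO a).2 ha)
    (fun i z hz => (hker i z).2 hz) hc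
    (fun i s => (b₀ i).map (mulLinearEquiv k (ρ i ⟨u i, hu1 i i⟩ ^ (s : ℕ))
      (pow_ne_zero _ (hρu i)))) ?_ hy
  · rw [← hdeg]
    refine Finset.sum_congr rfl fun i _ => ?_
    rw [Fintype.card_fin]
  · intro i j s
    rw [hρr, Module.Basis.map_apply, mulLinearEquiv_apply]

end Main

end Fermat.Agent.S36.H253
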