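import Fermat.Agent.S36.H253.NormRam

/-!
# Valuation of a norm: `v (N y) = ∑ f i * v i (y)` (helper253)

Mathlib only (on top of `NormRam.lean`).  Same setting as `norm_red_ram`: `F / K` finite, `O` a
valuation subring of `K` with uniformiser `ϖ`, `V i` pairwise incomparable valuation subrings of
`F` over `O` with uniformisers `t i`, `ϖ = unit * t i ^ e i` in `V i`, surjective reductions
`π : O → k`, `ρ i : V i → κ i`, `∑ e i * [κ i : k] = [F : K]`.

* `RamFamily.norm_mem_pow` : `y ∈ ⋂ V i`, `v i₀ (y) ≤ v i₀ (t i₀)` ⇒ `N y ∈ ϖ ^ #(J i₀) * O`.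
* `exists_ramFamily` : adapted families exist.
* `val_norm_eq_one` : `y` a unit at all `V i` ⇒ `N y` is a unit of `O`.
* `exists_unif_multi` : simultaneous uniformisers `T i` (`v i (T i) = v i (t i)`, units elsewhere).
* `val_norm_ram` (**NV**) : `v i (y) = v i (t i) ^ a i` for all `i` ⇒
  `v (N y) = v ϖ ^ ∑ i, [κ i : k] * a i`.
* `exists_zpow_val` : if the value group of `O` is generated by `v ϖ`, that of `V i` is
  generated by `v i (t i)`.
-/

set_option autoImplicit false
set_option linter.unusedSectionVars false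

namespace Fermat.Agent.S36.H253

open scoped BigOperators
open Fermat.Agent.S35.H253

section Col

variable {K F : Type*} [Field K] [Field F] [Algebra K F]
variable {O : ValuationSubring K} {ϖ : K} {ι : Type*} [Fintype ι] [DecidableEq ι]
  {V : ι → ValuationSubring F}
  {t : ι → F} {e : ι → ℕ} {J : ι → Type*} [∀ i, Fintype (J i)]
  {r : (i : ι) → J i → Fin (e i) → F}

/-- In an adapted family the top layer `s = e i₀ - 1` of the block `i₀` is multiplied into
`ϖ * ⋂ V i` by every `y ∈ ⋂ V i` with `v i₀ (y) ≤ v i₀ (t i₀)`. -/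
theorem RamFamily.top_mul_mem (h : RamFamily O ϖ V t e r) {y : F} (hy : ∀ i, y ∈ V i)
    (i₀ : ι) (hy0 : (V i₀).valuation y ≤ (V i₀).valuation (t i₀))
    (l : Idx e J) (hl1 : l.1.1 = i₀) (hl2 : (l.1.2 : ℕ) + 1 = e l.1.1) (i : ι) :
    y * fam t e r l * (algebraMap K F ϖ)⁻¹ ∈ V i := by
  have hϖF : algebraMap K F ϖ ≠ 0 := by
    rw [Ne, map_eq_zero]; exact h.ne_zero
  have hpos : 0 < (V i).valuation (algebraMap K F ϖ) := by
    rw [Valuation.pos_iff]; exact hϖF
  rw [← (V i).valuation_le_one_iff, map_mul, map_inv₀]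
  have key : (V i).valuation (y * fam t e r l) ≤ (V i).valuation (algebraMap K F ϖ) := by
    by_cases hi : i = l.1.1
    · subst hi
      subst hl1
      unfold fam
      have hpow : (V l.1.1).valuation (t l.1.1) ^ e l.1.1 =
          (V l.1.1).valuation (t l.1.1) * (V l.1.1).valuation (t l.1.1) ^ (l.1.2 : ℕ) := by
        rw [← pow_succ', hl2]
      rw [map_mul, map_mul, map_pow, h.ram, hpow]
      calc (V l.1.1).valuation y *
            ((V l.1.1).valuation (r l.1.1 l.2 l.1.2) * (V l.1.1).valuation (t l.1.1) ^ (l.1.2 : ℕ))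
          ≤ (V l.1.1).valuation (t l.1.1) *
            (1 * (V l.1.1).valuation (t l.1.1) ^ (l.1.2 : ℕ)) := by
            gcongr
            exact ((V l.1.1).valuation_le_one_iff _).2 (h.r_mem _ _ _)
        _ = _ := by rw [one_mul]
    · rw [map_mul]
      calc (V i).valuation y * (V i).valuation (fam t e r l)
          ≤ 1 * (V i).valuation (algebraMap K F ϖ) := by
            gcongr
            · exact ((V i).valuation_le_one_iff _).2 (hy i)
            · exact h.small l.1.1 l.2 l.1.2 i hi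
        _ = _ := one_mul _
  calc (V i).valuation (y * fam t e r l) * ((V i).valuation (algebraMap K F ϖ))⁻¹
      ≤ (V i).valuation (algebraMap K F ϖ) * ((V i).valuation (algebraMap K F ϖ))⁻¹ := by
        gcongr
    _ = 1 := mul_inv_cancel₀ hpos.ne'

/-- The number of indices in the top layer of the block `i₀`. -/
theorem RamFamily.prod_top (h : RamFamily O ϖ V t e r) {M : Type*} [CommMonoid M] (c : M)
    (i₀ : ι) :
    (∏ l : Idx e J, if (l.1.1 = i₀ ∧ (l.1.2 : ℕ) + 1 = e l.1.1) then c else 1) =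
      c ^ Fintype.card (J i₀) := by
  classical
  rw [Fintype.prod_sigma]
  have h1 : ∀ a : Blk e, (∏ j : J a.1,
      if ((⟨a, j⟩ : Idx e J).1.1 = i₀ ∧ ((⟨a, j⟩ : Idx e J).1.2 : ℕ) + 1 =
        e (⟨a, j⟩ : Idx e J).1.1) then c else 1) =
      if (a.1 = i₀ ∧ (a.2 : ℕ) + 1 = e a.1) then c ^ Fintype.card (J a.1) else 1 := by
    intro a
    by_cases hc : a.1 = i₀ ∧ (a.2 : ℕ) + 1 = e a.1
    · rw [if_pos hc]
      simp only [if_pos hc]
      rw [Finset.prod_const, Finset.card_univ]
    · rw [if_neg hc]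
      simp only [if_neg hc]
      rw [Finset.prod_const_one]
  rw [Finset.prod_congr rfl fun a _ => h1 a, Fintype.prod_sigma]
  rw [Finset.prod_eq_single i₀]
  · have he := h.e_pos i₀
    rw [Finset.prod_eq_single (⟨e i₀ - 1, by omega⟩ : Fin (e i₀))]
    · rw [if_pos]
      exact ⟨rfl, by simp only; omega⟩
    · intro s _ hs
      rw [if_neg]
      rintro ⟨-, h2⟩
      apply hs
      apply Fin.ext
      simp only at h2 ⊢
      omega
    · intro hh; exact absurd (Finset.mem_univ _) hh
  · intro i _ hi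
    refine Finset.prod_eq_one fun s _ => ?_
    rw [if_neg]
    rintro ⟨h2, -⟩
    exact hi h2
  · intro hh; exact absurd (Finset.mem_univ _) hh

/-- **Column divisibility.**  If `y ∈ ⋂ V i` and `v i₀ (y) ≤ v i₀ (t i₀)`, then
`N_{F/K} y ∈ ϖ ^ #(J i₀) * O`. -/
theorem RamFamily.norm_mem_pow (h : RamFamily O ϖ V t e r)
    (hcard : ∑ i, e i * Fintype.card (J i) = Module.finrank K F)
    {y : F} (hy : ∀ i, y ∈ V i) (i₀ : ι)
    (hy0 : (V i₀).valuation y ≤ (V i₀).valuation (t i₀)) :
    ∃ w : K, w ∈ O ∧ Algebra.norm K y = ϖ ^ Fintype.card (J i₀) * w := by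
  classical
  have hcard' : Fintype.card (Idx e J) = Module.finrank K F := by
    rw [RamFamily.card_idx]; exact hcard
  by_cases hne : Nonempty (Idx e J)
  · set bas : Module.Basis (Idx e J) K F :=
      basisOfLinearIndependentOfCardEqFinrank h.linearIndependent hcard' with hbasdef
    have hbas : ⇑bas = fam t e r := coe_basisOfLinearIndependentOfCardEqFinrank _ _
    set A := h.intMatrix bas hbas hy with hA
    have hnorm := h.norm_eq_det_intMatrix bas hbas hy
    have hϖO : ϖ ∈ O := (O.valuation_le_one_iff _).1 h.unifO.le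
    have hϖF : algebraMap K F ϖ ≠ 0 := by
      rw [Ne, map_eq_zero]; exact h.ne_zero
    let cond : Idx e J → Prop := fun l => l.1.1 = i₀ ∧ (l.1.2 : ℕ) + 1 = e l.1.1
    have zmem : ∀ l, cond l → ∀ i, y * fam t e r l * (algebraMap K F ϖ)⁻¹ ∈ V i :=
      fun l hl i => h.top_mul_mem hy i₀ hy0 l hl.1 hl.2 i
    let D : Idx e J → O := fun l => if cond l then ⟨ϖ, hϖO⟩ else 1
    let A' : Matrix (Idx e J) (Idx e J) O := fun k l =>
      if hc : cond l then
        ⟨bas.repr (y * fam t e r l * (algebraMap K F ϖ)⁻¹) k,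
          h.repr_mem bas hbas (zmem l hc) k⟩
      else A k l
    have hAeq : A = A' * Matrix.diagonal D := by
      ext k l
      rw [Matrix.mul_diagonal]
      by_cases hc : cond l
      · simp only [A', D, dif_pos hc, if_pos hc]
        show bas.repr (y * fam t e r l) k =
          bas.repr (y * fam t e r l * (algebraMap K F ϖ)⁻¹) k * ϖ
        have e1 : y * fam t e r l = ϖ • (y * fam t e r l * (algebraMap K F ϖ)⁻¹) := by
          rw [Algebra.smul_def, mul_comm (algebraMap K F ϖ), inv_mul_cancel_right₀ hϖF]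
        conv_lhs => rw [e1]
        rw [map_smul, Finsupp.smul_apply, smul_eq_mul, mul_comm]
      · simp only [A', D, dif_neg hc, if_neg hc, mul_one]
    have hdet : A.det = A'.det * ⟨ϖ, hϖO⟩ ^ Fintype.card (J i₀) := by
      rw [hAeq, Matrix.det_mul, Matrix.det_diagonal]
      congr 1
      exact h.prod_top (⟨ϖ, hϖO⟩ : O) i₀
    refine ⟨(A'.det : O), (A'.det).2, ?_⟩
    rw [hnorm, hdet, mul_comm]
    rfl
  · rw [not_nonempty_iff] at hne
    have hJ : Fintype.card (J i₀) = 0 := by
      rw [Fintype.card_eq_zero_iff]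
      refine ⟨fun j => hne.false ⟨⟨i₀, ⟨0, h.e_pos i₀⟩⟩, j⟩⟩
    have hfin : ¬ Module.Finite K F := by
      intro hfin
      have := Module.finrank_pos (R := K) (M := F)
      rw [← hcard', Fintype.card_eq_zero] at this
      exact lt_irrefl _ this
    refine ⟨1, one_mem _, ?_⟩
    rw [hJ, pow_zero, one_mul, Algebra.norm_eq_one_of_not_module_finite hfin]

end Col

section Unif

variable {F : Type*} [Field F]

/-- **Simultaneous uniformisers.**  For pairwise incomparable valuation rings `V i` and a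
generator `τ ≠ 0` of the maximal ideal of `V i` there is `T` with `v i (T) = v i (τ)` which is a
unit at every other `V i'`. -/
theorem exists_unif_multi {ι : Type*} [Fintype ι] (V : ι → ValuationSubring F)
    (hinc : ∀ i i', i ≠ i' → ¬ V i ≤ V i') (i : ι) {τ : F} (hτ0 : τ ≠ 0)
    (hτ : (V i).valuation τ < 1)
    (hgen : ∀ z : F, (V i).valuation z < 1 → (V i).valuation z ≤ (V i).valuation τ) :
    ∃ T : F, (V i).valuation T = (V i).valuation τ ∧
      ∀ i', i' ≠ i → (V i').valuation T = 1 := by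
  classical
  obtain ⟨u, hu1, hu2, hu3⟩ := exists_multiplier V τ
  obtain ⟨E, hE1, hE2⟩ := exists_idem_multi V hinc i
  have hτmem : τ ∈ V i := ((V i).valuation_le_one_iff _).1 hτ.le
  have hui : (V i).valuation u = 1 := hu3 i hτmem
  have hτpos : 0 < (V i).valuation τ := by rw [Valuation.pos_iff]; exact hτ0
  have hEmem : ∀ i', E ∈ V i' := fun i' => by
    by_cases hi : i' = i
    · subst hi
      have : E = 1 - (1 - E) := by ring
      rw [this]
      exact sub_mem (one_mem _) (((V i').valuation_le_one_iff _).1 hE1.le)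
    · exact ((V i').valuation_le_one_iff _).1 (hE2 i' hi).le
  set E' := 1 - (1 - E) ^ 2 with hE'
  have h1 : (V i).valuation (1 - E') < (V i).valuation τ := by
    have e1 : 1 - E' = (1 - E) ^ 2 := by rw [hE']; ring
    rw [e1, map_pow, pow_two]
    calc (V i).valuation (1 - E) * (V i).valuation (1 - E)
        ≤ (V i).valuation τ * (V i).valuation (1 - E) := by
          gcongr; exact hgen _ hE1
      _ < (V i).valuation τ * 1 := by gcongr
      _ = (V i).valuation τ := mul_one _
  have hE'i : (V i).valuation E' = 1 := by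
    have e1 : E' = 1 - (1 - E') := by ring
    rw [e1]
    exact Valuation.map_one_sub_of_lt _ (lt_trans h1 hτ)
  have hE'2 : ∀ i', i' ≠ i → (V i').valuation E' < 1 := by
    intro i' hi
    have e1 : E' = E * (1 + (1 - E)) := by rw [hE']; ring
    rw [e1]
    exact val_mul_lt_one_left (V i') (hE2 i' hi)
      (((V i').valuation_le_one_iff _).2
        (add_mem (one_mem _) (sub_mem (one_mem _) (hEmem i'))))
  refine ⟨E' * (τ * u) + (1 - E'), ?_, ?_⟩
  · have hA : (V i).valuation (E' * (τ * u)) = (V i).valuation τ := by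
      rw [map_mul, map_mul, hE'i, hui, one_mul, mul_one]
    rw [Valuation.map_add_eq_of_lt_left _ (by rw [hA]; exact h1), hA]
  · intro i' hi
    have hB : (V i').valuation (1 - E') = 1 := Valuation.map_one_sub_of_lt _ (hE'2 i' hi)
    have hA : (V i').valuation (E' * (τ * u)) < 1 :=
      val_mul_lt_one_left (V i') (hE'2 i' hi) (((V i').valuation_le_one_iff _).2 (hu2 i'))
    rw [add_comm, Valuation.map_add_eq_of_lt_left _ (by rw [hB]; exact hA), hB]

/-- `∏ x ^ b i = x ^ ∑ b i` for integer exponents in a commutative group with zero. -/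
theorem prod_zpow_eq_zpow_sum {G₀ : Type*} [CommGroupWithZero G₀] {x : G₀} (hx : x ≠ 0)
    {ι : Type*} (s : Finset ι) (b : ι → ℤ) : ∏ i ∈ s, x ^ b i = x ^ ∑ i ∈ s, b i := by
  classical
  induction s using Finset.induction_on with
  | empty => simp
  | insert i s hi ih => rw [Finset.prod_insert hi, Finset.sum_insert hi, ih, zpow_add₀ hx]

end Unif

section NV

variable {K F : Type*} [Field K] [Field F] [Algebra K F]

/-- The norm commutes with integer powers of nonzero elements. -/
theorem norm_zpow_of_ne_zero {x : F} (hx : x ≠ 0) (n : ℤ) :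
    Algebra.norm K (x ^ n) = Algebra.norm K x ^ n := by
  have h1 : ((Units.map (Algebra.norm K : F →* K) ((Units.mk0 x hx) ^ n) : Kˣ) : K) =
      (((Units.map (Algebra.norm K : F →* K) (Units.mk0 x hx)) ^ n : Kˣ) : K) := by
    rw [map_zpow]
  rw [Units.coe_map, Units.val_zpow_eq_zpow_val, Units.val_zpow_eq_zpow_val,
    Units.coe_map] at h1
  exact h1

variable {ι : Type*} [Fintype ι] [Nonempty ι]
    {O : ValuationSubring K} {ϖ : K} {V : ι → ValuationSubring F} {t : ι → F} {e : ι → ℕ}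
    (hover : ∀ i, Over O (V i)) (hinc : ∀ i i', i ≠ i' → ¬ V i ≤ V i')
    (hϖ0 : ϖ ≠ 0) (hϖ : O.valuation ϖ < 1)
    (hgenO : ∀ a : K, O.valuation a < 1 → O.valuation a ≤ O.valuation ϖ)
    (ht : ∀ i, (V i).valuation (t i) < 1)
    (hgen : ∀ i (z : F), (V i).valuation z < 1 → (V i).valuation z ≤ (V i).valuation (t i))
    (hram : ∀ i, (V i).valuation (algebraMap K F ϖ) = (V i).valuation (t i) ^ e i)
    {k : Type*} [Field k] {κ : ι → Type*} [∀ i, Field (κ i)] [∀ i, Algebra k (κ i)]
    [∀ i, Module.Finite k (κ i)]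
    (π : O →+* k) (ρ : ∀ i, V i →+* κ i)
    (hπ : Function.Surjective π) (hρ : ∀ i, Function.Surjective (ρ i))
    (hc : ∀ i (a : O), ρ i ⟨algebraMap K F a, ((hover i) a).2 a.2⟩ = algebraMap k (κ i) (π a))
    (hdeg : ∑ i, e i * Module.finrank k (κ i) = Module.finrank K F)

include hover hinc hϖ0 hϖ hgenO ht hgen hram hπ hρ hc in
/-- Adapted families exist (the construction used in `norm_red_ram`). -/
theorem exists_ramFamily [DecidableEq ι] :
    ∃ r : (i : ι) → Fin (Module.finrank k (κ i)) → Fin (e i) → F, RamFamily O ϖ V t e r := by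
  classical
  have hker : ∀ i (z : V i), ρ i z = 0 ↔ (V i).valuation (z : F) < 1 :=
    fun i z => map_eq_zero_iff_val_lt_one (ρ i) (hρ i) z
  have hkerO : ∀ a : O, π a = 0 ↔ O.valuation (a : K) < 1 :=
    fun a => map_eq_zero_iff_val_lt_one π hπ a
  choose E hE1 hE2 using fun i => exists_idem_multi V hinc i
  have hEmem : ∀ i i', E i ∈ V i' := fun i i' => by
    by_cases hi : i' = i
    · subst hi
      have : E i' = 1 - (1 - E i') := by ring
      rw [this]
      exact sub_mem (one_mem _) (((V i').valuation_le_one_iff _).1 (hE1 i').le)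
    · exact ((V i').valuation_le_one_iff _).1 (hE2 i i' hi).le
  have hρE : ∀ i, ρ i ⟨E i, hEmem i i⟩ = 1 := fun i => by
    have h0 : ρ i (1 - ⟨E i, hEmem i i⟩) = 0 := (hker i _).2 (hE1 i)
    rw [map_sub, map_one, sub_eq_zero] at h0
    exact h0.symm
  set N := ∑ i, e i with hNdef
  have hNe : ∀ i, e i ≤ N := fun i =>
    Finset.single_le_sum (f := e) (fun _ _ => Nat.zero_le _) (Finset.mem_univ i)
  have hEN : ∀ i i', i' ≠ i → (V i').valuation (E i ^ N) ≤ (V i').valuation (algebraMap K F ϖ) :=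
    fun i i' hi => by
      rw [map_pow, hram]
      calc (V i').valuation (E i) ^ N ≤ (V i').valuation (t i') ^ N :=
            pow_le_pow_left₀ zero_le (hgen i' _ (hE2 i i' hi)) N
        _ ≤ (V i').valuation (t i') ^ e i' := pow_le_pow_of_le_one zero_le (ht i').le (hNe i')
  let J : ι → Type := fun i => Fin (Module.finrank k (κ i))
  let b₀ : ∀ i, Module.Basis (J i) k (κ i) := fun i => Module.finBasis k (κ i)
  choose z hz using fun (i : ι) (j : J i) => hρ i (b₀ i j)
  choose G hG1 hG2 using fun (i : ι) (j : J i) => exists_lift_multi V hinc i (z i j).2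
  have hρG : ∀ i j, ρ i ⟨G i j, hG1 i j i⟩ = b₀ i j := fun i j => by
    rw [← hz i j, ← sub_eq_zero, ← map_sub, hker]
    exact hG2 i j
  choose u hu1 hu2 hu3 using fun i => exists_multiplier V (t i)
  have htmem : ∀ i, t i ∈ V i := fun i => ((V i).valuation_le_one_iff _).1 (ht i).le
  have hρu : ∀ i, ρ i ⟨u i, hu1 i i⟩ ≠ 0 := fun i h0 => by
    have := (hker i _).1 h0
    simp only at this
    rw [hu3 i i (htmem i)] at this
    exact lt_irrefl _ this
  let r : (i : ι) → J i → Fin (e i) → F := fun i j s => E i ^ N * G i j * u i ^ (s : ℕ)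
  have hrmem : ∀ i j s, r i j s ∈ V i := fun i j s =>
    mul_mem (mul_mem (pow_mem (hEmem i i) _) (hG1 i j i)) (pow_mem (hu1 i i) _)
  have hρr : ∀ i j s, ρ i ⟨r i j s, hrmem i j s⟩ =
      ρ i ⟨u i, hu1 i i⟩ ^ (s : ℕ) * b₀ i j := fun i j (s : Fin (e i)) => by
    have e1 : (⟨r i j s, hrmem i j s⟩ : V i) =
        ⟨E i, hEmem i i⟩ ^ N * ⟨G i j, hG1 i j i⟩ * ⟨u i, hu1 i i⟩ ^ (s : ℕ) := rfl
    rw [e1, map_mul, map_mul, map_pow, map_pow, hρE, one_pow, one_mul, hρG, mul_comm]
  refine ⟨r, ?_⟩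
  exact
    { isOver := hover
      ne_zero := hϖ0
      unifO := hϖ
      genO := hgenO
      unif := ht
      ram := hram
      r_mem := hrmem
      small := by
        intro i j s i' hi
        have e1 : r i j s * t i ^ (s : ℕ) = E i ^ N * (G i j * (t i * u i) ^ (s : ℕ)) := by
          simp only [r]; ring
        rw [e1, map_mul]
        calc (V i').valuation (E i ^ N) * (V i').valuation (G i j * (t i * u i) ^ (s : ℕ))
            ≤ (V i').valuation (algebraMap K F ϖ) * 1 := by
              gcongr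
              · exact hEN i i' hi
              · exact ((V i').valuation_le_one_iff _).2
                  (mul_mem (hG1 i j i') (pow_mem (hu2 i i') _))
          _ = _ := mul_one _
      indep := by
        intro i s a ha hsmall j
        have hmem : (∑ j, algebraMap K F (a j) * r i j s) ∈ V i :=
          ((V i).valuation_le_one_iff _).1 hsmall.le
        have h0 : ρ i ⟨_, hmem⟩ = 0 := (hker i ⟨_, hmem⟩).2 hsmall
        have e1 : (⟨_, hmem⟩ : V i) =
            ∑ j, (⟨algebraMap K F (a j), ((hover i) (a j)).2 (ha j)⟩ : V i) *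
              ⟨r i j s, hrmem i j s⟩ := by
          apply Subtype.ext
          rw [AddSubmonoidClass.coe_finsetSum]
          simp only [MulMemClass.coe_mul]
        rw [e1, map_sum] at h0
        have h1 : ρ i ⟨u i, hu1 i i⟩ ^ (s : ℕ) * ∑ j, π ⟨a j, ha j⟩ • b₀ i j = 0 := by
          rw [← h0, Finset.mul_sum]
          refine Finset.sum_congr rfl fun j _ => ?_
          rw [map_mul, hρr, Algebra.smul_def, ← hc]
          ring
        have h2 : ∑ j, π ⟨a j, ha j⟩ • b₀ i j = 0 :=
          (mul_eq_zero.1 h1).resolve_left (pow_ne_zero _ (hρu i))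
        have := Fintype.linearIndependent_iff.1 (b₀ i).linearIndependent _ h2 j
        exact (hkerO ⟨a j, ha j⟩).1 this }

include hover hinc hϖ0 hϖ hgenO ht hgen hram hπ hρ hc hdeg

/-- `N_{F/K}` maps `⋂ V i` into `O`. -/
theorem norm_mem_ram {y : F} (hy : ∀ i, y ∈ V i) : Algebra.norm K y ∈ O :=
  (norm_red_ram hover hinc hϖ0 hϖ hgenO ht hgen hram π ρ hπ hρ hc hdeg hy).1

/-- If `y ∈ ⋂ V i` lies in the maximal ideal of `V i₀`, then
`N_{F/K} y ∈ ϖ ^ [κ i₀ : k] * O`. -/
theorem norm_mem_pow_ram {y : F} (hy : ∀ i, y ∈ V i) (i₀ : ι)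
    (hy0 : (V i₀).valuation y < 1) :
    ∃ w : K, w ∈ O ∧ Algebra.norm K y = ϖ ^ Module.finrank k (κ i₀) * w := by
  classical
  obtain ⟨r, hfam⟩ := exists_ramFamily hover hinc hϖ0 hϖ hgenO ht hgen hram π ρ hπ hρ hc
  have hcard : ∑ i, e i * Fintype.card (Fin (Module.finrank k (κ i))) = Module.finrank K F := by
    rw [← hdeg]
    exact Finset.sum_congr rfl fun i _ => by rw [Fintype.card_fin]
  obtain ⟨w, hw, hN⟩ := hfam.norm_mem_pow hcard hy i₀ (hgen i₀ y hy0)
  refine ⟨w, hw, ?_⟩
  rw [hN, Fintype.card_fin]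

/-- If `y` is a unit at every `V i`, then `N_{F/K} y` is a unit of `O`. -/
theorem val_norm_eq_one {y : F} (hy : ∀ i, (V i).valuation y = 1) :
    O.valuation (Algebra.norm K y) = 1 := by
  have hy0 : y ≠ 0 := by
    obtain ⟨i⟩ := (inferInstance : Nonempty ι)
    intro h0
    have := hy i
    rw [h0, map_zero] at this
    exact zero_ne_one this
  have hmem : ∀ i, y ∈ V i := fun i => ((V i).valuation_le_one_iff _).1 (hy i).le
  have hmem' : ∀ i, y⁻¹ ∈ V i := fun i =>
    ((V i).valuation_le_one_iff _).1 (by rw [map_inv₀, hy i, inv_one])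
  have h1 := norm_mem_ram hover hinc hϖ0 hϖ hgenO ht hgen hram π ρ hπ hρ hc hdeg hmem
  have h2 := norm_mem_ram hover hinc hϖ0 hϖ hgenO ht hgen hram π ρ hπ hρ hc hdeg hmem'
  have e1 : Algebra.norm K y * Algebra.norm K y⁻¹ = 1 := by
    rw [← map_mul, mul_inv_cancel₀ hy0, map_one]
  have l1 := (O.valuation_le_one_iff _).2 h1
  have l2 := (O.valuation_le_one_iff _).2 h2
  have e2 : O.valuation (Algebra.norm K y) * O.valuation (Algebra.norm K y⁻¹) = 1 := by
    rw [← map_mul, e1, map_one]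
  refine le_antisymm l1 ?_
  calc (1 : O.ValueGroup) = O.valuation (Algebra.norm K y) * O.valuation (Algebra.norm K y⁻¹) :=
        e2.symm
    _ ≤ O.valuation (Algebra.norm K y) * 1 := by gcongr
    _ = _ := mul_one _

/-- **NV: the valuation of a norm.**  If `v i (y) = v i (t i) ^ a i` for all `i`, then
`v (N_{F/K} y) = v ϖ ^ ∑ i, [κ i : k] * a i`. -/
theorem val_norm_ram {y : F} (a : ι → ℤ)
    (hya : ∀ i, (V i).valuation y = (V i).valuation (t i) ^ a i) :
    O.valuation (Algebra.norm K y) =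
      O.valuation ϖ ^ (∑ i, (Module.finrank k (κ i) : ℤ) * a i) := by
  classical
  obtain ⟨r, hfam⟩ := exists_ramFamily hover hinc hϖ0 hϖ hgenO ht hgen hram π ρ hπ hρ hc
  have ht0 : ∀ i, t i ≠ 0 := hfam.t_ne_zero
  have he : ∀ i, 0 < e i := hfam.e_pos
  have htpos : ∀ i, 0 < (V i).valuation (t i) := hfam.val_t_pos
  have hvϖ : O.valuation ϖ ≠ 0 := by rw [Ne, Valuation.zero_iff]; exact hϖ0
  have hϖF : algebraMap K F ϖ ≠ 0 := by rw [Ne, map_eq_zero]; exact hϖ0
  choose T hT1 hT2 using fun i => exists_unif_multi V hinc i (ht0 i) (ht i) (hgen i)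
  have hTmem : ∀ i i', T i ∈ V i' := fun i i' => by
    rw [← (V i').valuation_le_one_iff]
    by_cases hi : i' = i
    · subst hi; rw [hT1]; exact (ht i').le
    · rw [hT2 i i' hi]
  have hT0 : ∀ i, T i ≠ 0 := fun i h0 => by
    have := hT1 i
    rw [h0, map_zero] at this
    exact (htpos i).ne this
  have hprod : ∀ (b : ι → ℤ) (i' : ι),
      (V i').valuation (∏ i, T i ^ b i) = (V i').valuation (t i') ^ b i' := by
    intro b i'
    rw [map_prod, Finset.prod_eq_single i']
    · rw [map_zpow₀, hT1]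
    · intro i _ hi
      rw [map_zpow₀, hT2 i i' (Ne.symm hi), one_zpow]
    · intro hh; exact absurd (Finset.mem_univ _) hh
  choose w hwO hwN using fun i =>
    norm_mem_pow_ram hover hinc hϖ0 hϖ hgenO ht hgen hram π ρ hπ hρ hc hdeg (hTmem i) i
      (by rw [hT1]; exact ht i)
  -- the product trick
  set P := ∏ i, T i ^ ((e i : ℕ) : ℤ) with hPdef
  have hP : ∀ i', (V i').valuation P = (V i').valuation (algebraMap K F ϖ) := by
    intro i'
    rw [hPdef, hprod, zpow_natCast, hram]
  set U := P * (algebraMap K F ϖ)⁻¹ with hUdef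
  have hU : ∀ i, (V i).valuation U = 1 := by
    intro i
    rw [hUdef, map_mul, map_inv₀, hP, mul_inv_cancel₀]
    rw [Ne, Valuation.zero_iff]; exact hϖF
  have hNU := val_norm_eq_one hover hinc hϖ0 hϖ hgenO ht hgen hram π ρ hπ hρ hc hdeg hU
  have hNP : Algebra.norm K P = ϖ ^ Module.finrank K F * Algebra.norm K U := by
    have e1 : P = algebraMap K F ϖ * U := by
      rw [hUdef, mul_comm, inv_mul_cancel_right₀ hϖF]
    conv_lhs => rw [e1]
    rw [map_mul, Algebra.norm_algebraMap]
  have hNP' : Algebra.norm K P = ϖ ^ Module.finrank K F * ∏ i, w i ^ e i := by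
    rw [hPdef, map_prod]
    have e1 : ∀ i, Algebra.norm K (T i ^ ((e i : ℕ) : ℤ)) =
        ϖ ^ (e i * Module.finrank k (κ i)) * w i ^ e i := by
      intro i
      rw [zpow_natCast, map_pow, hwN, mul_pow, ← pow_mul, mul_comm (e i)]
    rw [Finset.prod_congr rfl fun i _ => e1 i, Finset.prod_mul_distrib,
      Finset.prod_pow_eq_pow_sum, hdeg]
  have hw1 : O.valuation (∏ i, w i ^ e i) = 1 := by
    have e1 : ∏ i, w i ^ e i = Algebra.norm K U :=
      mul_left_cancel₀ (pow_ne_zero (Module.finrank K F) hϖ0) (hNP'.symm.trans hNP)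
    rw [e1, hNU]
  have hwv : ∀ i, O.valuation (w i) = 1 := by
    intro i
    by_contra hne
    have hle : ∀ j, O.valuation (w j) ≤ 1 := fun j => (O.valuation_le_one_iff _).2 (hwO j)
    have hlt : O.valuation (w i) < 1 := lt_of_le_of_ne (hle i) hne
    have hbad : O.valuation (∏ i, w i ^ e i) < 1 := by
      rw [map_prod, ← Finset.mul_prod_erase _ _ (Finset.mem_univ i)]
      have h1 : ∏ j ∈ Finset.univ.erase i, O.valuation (w j ^ e j) ≤ 1 :=
        Finset.prod_le_one' fun j _ => by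
          rw [map_pow]; exact pow_le_one₀ zero_le (hle j)
      calc O.valuation (w i ^ e i) * ∏ j ∈ Finset.univ.erase i, O.valuation (w j ^ e j)
          ≤ O.valuation (w i ^ e i) * 1 := by gcongr
        _ = O.valuation (w i) ^ e i := by rw [mul_one, map_pow]
        _ ≤ O.valuation (w i) ^ 1 := pow_le_pow_of_le_one zero_le hlt.le (he i)
        _ < 1 := by rw [pow_one]; exact hlt
    rw [hw1] at hbad
    exact lt_irrefl _ hbad
  have hNT : ∀ i, O.valuation (Algebra.norm K (T i)) =
      O.valuation ϖ ^ Module.finrank k (κ i) := by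
    intro i
    rw [hwN, map_mul, map_pow, hwv, mul_one]
  -- general `y`
  set Q := ∏ i, T i ^ a i with hQdef
  have hQ : ∀ i', (V i').valuation Q = (V i').valuation (t i') ^ a i' := hprod a
  have hQ0 : Q ≠ 0 := Finset.prod_ne_zero_iff.2 fun i _ => zpow_ne_zero _ (hT0 i)
  have hy' : ∀ i, (V i).valuation (y * Q⁻¹) = 1 := by
    intro i
    rw [map_mul, map_inv₀, hya, hQ, mul_inv_cancel₀ (zpow_ne_zero _ (htpos i).ne')]
  have hNy' := val_norm_eq_one hover hinc hϖ0 hϖ hgenO ht hgen hram π ρ hπ hρ hc hdeg hy'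
  have e1 : y = (y * Q⁻¹) * Q := by rw [inv_mul_cancel_right₀ hQ0]
  conv_lhs => rw [e1]
  rw [map_mul, map_mul, hNy', one_mul, hQdef, map_prod, map_prod]
  have e2 : ∀ i, O.valuation (Algebra.norm K (T i ^ a i)) =
      O.valuation ϖ ^ ((Module.finrank k (κ i) : ℤ) * a i) := by
    intro i
    rw [norm_zpow_of_ne_zero (hT0 i), map_zpow₀, hNT, ← zpow_natCast, ← zpow_mul]
  rw [Finset.prod_congr rfl fun i _ => e2 i]
  exact prod_zpow_eq_zpow_sum hvϖ _ _

end NV

section Dvr

variable {K F : Type*} [Field K] [Field F] [Algebra K F]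

/-- In a valuation ring whose maximal ideal is generated by `τ`, an element some power of whose
valuation is a power of `v τ` has itself valuation a power of `v τ`. -/
theorem exists_zpow_val_of_pow {V : ValuationSubring F} {τ y : F} (hτ0 : τ ≠ 0)
    (hτ : V.valuation τ < 1)
    (hgen : ∀ z : F, V.valuation z < 1 → V.valuation z ≤ V.valuation τ)
    {d : ℕ} (hd : 0 < d) {s : ℤ} (h : V.valuation y ^ d = V.valuation τ ^ s) :
    ∃ n : ℤ, V.valuation y = V.valuation τ ^ n := by
  have hτpos : 0 < V.valuation τ := by rw [Valuation.pos_iff]; exact hτ0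
  have hτne : V.valuation τ ≠ 0 := hτpos.ne'
  set a : ℤ := s / (d : ℤ) with ha
  have hdZ : (0 : ℤ) < (d : ℤ) := by exact_mod_cast hd
  obtain ⟨r, hr⟩ : ∃ r : ℕ, (r : ℤ) = s % (d : ℤ) :=
    ⟨(s % (d : ℤ)).toNat, Int.toNat_of_nonneg (Int.emod_nonneg _ hdZ.ne')⟩
  have hrd : r < d := by
    have := Int.emod_lt_of_pos s hdZ
    rw [← hr] at this
    exact_mod_cast this
  have hs : s = a * (d : ℤ) + (r : ℤ) := by
    rw [hr, ha, mul_comm]; exact (Int.mul_ediv_add_emod s d).symm
  set δ := y * (τ ^ a)⁻¹ with hδ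
  have hδd : V.valuation δ ^ d = V.valuation τ ^ r := by
    rw [hδ, map_mul, map_inv₀, map_zpow₀, mul_pow, h, hs, zpow_add₀ hτne, zpow_mul,
      zpow_natCast, zpow_natCast, inv_pow]
    rw [mul_comm ((V.valuation τ ^ a) ^ d), mul_assoc,
      mul_inv_cancel₀ (pow_ne_zero _ (zpow_ne_zero _ hτne)), mul_one]
  have hδ1 : V.valuation δ = 1 := by
    rcases lt_trichotomy (V.valuation δ) 1 with hlt | heq | hgt
    · exfalso
      have h1 : V.valuation δ ^ d ≤ V.valuation τ ^ d :=
        pow_le_pow_left₀ zero_le (hgen _ hlt) d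
      have h2 : V.valuation τ ^ d < V.valuation τ ^ r :=
        pow_lt_pow_right_of_lt_one₀ hτpos hτ hrd
      rw [hδd] at h1
      exact lt_irrefl _ (lt_of_le_of_lt h1 h2)
    · exact heq
    · exfalso
      have h1 : 1 < V.valuation δ ^ d := one_lt_pow₀ hgt hd.ne'
      have h2 : V.valuation τ ^ r ≤ 1 := pow_le_one₀ zero_le hτ.le
      rw [hδd] at h1
      exact lt_irrefl _ (lt_of_lt_of_le h1 h2)
  refine ⟨a, ?_⟩
  have e1 : y = δ * τ ^ a := by
    rw [hδ, inv_mul_cancel_right₀ (zpow_ne_zero _ hτ0)]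
  conv_lhs => rw [e1]
  rw [map_mul, hδ1, one_mul, map_zpow₀]

/-- For `y ≠ 0` algebraic over `K`, some power `v (y) ^ d` (`d ≥ 1`) is the valuation of a
nonzero element of `K`. -/
theorem exists_pow_val_eq [Algebra.IsAlgebraic K F] (V : ValuationSubring F) {y : F}
    (hy : y ≠ 0) :
    ∃ d : ℕ, 0 < d ∧ ∃ c : K, c ≠ 0 ∧ V.valuation y ^ d = V.valuation (algebraMap K F c) := by
  classical
  obtain ⟨p, hp0, hp⟩ := (Algebra.IsAlgebraic.isAlgebraic (R := K) y)
  rw [Polynomial.aeval_def, Polynomial.eval₂_eq_sum, Polynomial.sum_def] at hp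
  set g : ℕ → F := fun j => algebraMap K F (p.coeff j) * y ^ j with hg
  have hg0 : ∀ j ∈ p.support, V.valuation (g j) ≠ 0 := by
    intro j hj
    rw [Ne, Valuation.zero_iff, hg]
    simp only
    refine mul_ne_zero ?_ (pow_ne_zero _ hy)
    rw [Ne, map_eq_zero]
    exact Polynomial.mem_support_iff.1 hj
  have hsupp : p.support.Nonempty := by
    rw [Finset.nonempty_iff_ne_empty, Ne, Polynomial.support_eq_empty]; exact hp0
  obtain ⟨j₀, hj₀, hmax⟩ := Finset.exists_max_image p.support (fun j => V.valuation (g j)) hsupp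
  have hex : ∃ j₁ ∈ p.support, j₁ ≠ j₀ ∧ V.valuation (g j₁) = V.valuation (g j₀) := by
    by_contra hcon
    push Not at hcon
    have hlt : ∀ i ∈ p.support \ {j₀}, V.valuation (g i) < V.valuation (g j₀) := by
      intro i hi
      rw [Finset.mem_sdiff, Finset.mem_singleton] at hi
      exact lt_of_le_of_ne (hmax i hi.1) (hcon i hi.1 hi.2)
    have := Valuation.map_sum_eq_of_lt V.valuation hj₀ hlt
    rw [hp, map_zero] at this
    exact hg0 j₀ hj₀ this.symm
  obtain ⟨j₁, hj₁, hne, heq⟩ := hex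
  have hc₀ : p.coeff j₀ ≠ 0 := Polynomial.mem_support_iff.1 hj₀
  have hc₁ : p.coeff j₁ ≠ 0 := Polynomial.mem_support_iff.1 hj₁
  have hvy : V.valuation y ≠ 0 := by rw [Ne, Valuation.zero_iff]; exact hy
  have hv₀ : V.valuation (algebraMap K F (p.coeff j₀)) ≠ 0 := by
    rw [Ne, Valuation.zero_iff, map_eq_zero]; exact hc₀
  have hv₁ : V.valuation (algebraMap K F (p.coeff j₁)) ≠ 0 := by
    rw [Ne, Valuation.zero_iff, map_eq_zero]; exact hc₁
  simp only [hg, map_mul, map_pow] at heq
  -- `v c₁ * v y ^ j₁ = v c₀ * v y ^ j₀`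
  rcases Nat.lt_or_gt_of_ne hne with hlt | hgt
  · -- `j₁ < j₀` : `v y ^ (j₀ - j₁) = v (c₁ / c₀)`
    refine ⟨j₀ - j₁, by omega, p.coeff j₁ / p.coeff j₀, div_ne_zero hc₁ hc₀, ?_⟩
    rw [map_div₀, map_div₀, eq_div_iff hv₀]
    have e1 : V.valuation y ^ j₀ = V.valuation y ^ (j₀ - j₁) * V.valuation y ^ j₁ := by
      rw [← pow_add]; congr 1; omega
    rw [e1] at heq
    have e2 : V.valuation (algebraMap K F (p.coeff j₁)) * V.valuation y ^ j₁ =
        (V.valuation y ^ (j₀ - j₁) * V.valuation (algebraMap K F (p.coeff j₀))) *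
          V.valuation y ^ j₁ := by
      rw [heq]; ac_rfl
    exact (mul_right_cancel₀ (pow_ne_zero _ hvy) e2).symm
  · refine ⟨j₁ - j₀, by omega, p.coeff j₀ / p.coeff j₁, div_ne_zero hc₀ hc₁, ?_⟩
    rw [map_div₀, map_div₀, eq_div_iff hv₁]
    have e1 : V.valuation y ^ j₁ = V.valuation y ^ (j₁ - j₀) * V.valuation y ^ j₀ := by
      rw [← pow_add]; congr 1; omega
    rw [e1] at heq
    have e2 : V.valuation (algebraMap K F (p.coeff j₀)) * V.valuation y ^ j₀ =
        (V.valuation y ^ (j₁ - j₀) * V.valuation (algebraMap K F (p.coeff j₁))) *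
          V.valuation y ^ j₀ := by
      rw [← heq]; ac_rfl
    exact (mul_right_cancel₀ (pow_ne_zero _ hvy) e2).symm

/-- Over a valuation ring `O`, the valuation of `V` on `K` is determined by that of `O`:
units of `O` are units of `V`. -/
theorem Over_val_eq_one {O : ValuationSubring K} {V : ValuationSubring F} (h : Over O V)
    {a : K} (ha : O.valuation a = 1) : V.valuation (algebraMap K F a) = 1 := by
  refine le_antisymm ((h.val_le_one_iff a).2 ha.le) ?_
  rw [← not_lt, h.val_lt_one_iff, ha]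
  exact lt_irrefl _

/-- **Discreteness goes up.**  If the value group of `O` is generated by `v ϖ` and the maximal
ideal of `V` (over `O`, in an algebraic extension) is generated by `τ` with
`ϖ = unit * τ ^ e`, then the value group of `V` is generated by `v τ`. -/
theorem exists_zpow_val [Algebra.IsAlgebraic K F] {O : ValuationSubring K} {ϖ : K}
    {V : ValuationSubring F} {τ : F} (hover : Over O V) (hϖ0 : ϖ ≠ 0)
    (hdvr : ∀ a : K, a ≠ 0 → ∃ n : ℤ, O.valuation a = O.valuation ϖ ^ n)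
    (hτ0 : τ ≠ 0) (hτ : V.valuation τ < 1)
    (hgen : ∀ z : F, V.valuation z < 1 → V.valuation z ≤ V.valuation τ)
    {e : ℕ} (hram : V.valuation (algebraMap K F ϖ) = V.valuation τ ^ e)
    {y : F} (hy : y ≠ 0) : ∃ n : ℤ, V.valuation y = V.valuation τ ^ n := by
  obtain ⟨d, hd, c, hc0, hdc⟩ := exists_pow_val_eq (K := K) V hy
  obtain ⟨n, hn⟩ := hdvr c hc0
  have hvϖ : O.valuation ϖ ≠ 0 := by rw [Ne, Valuation.zero_iff]; exact hϖ0
  have hunit : O.valuation (c * (ϖ ^ n)⁻¹) = 1 := by
    rw [map_mul, map_inv₀, map_zpow₀, hn, mul_inv_cancel₀ (zpow_ne_zero _ hvϖ)]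
  have h1 := Over_val_eq_one hover hunit
  have hc : V.valuation (algebraMap K F c) = V.valuation τ ^ ((e : ℤ) * n) := by
    have e1 : c = (c * (ϖ ^ n)⁻¹) * ϖ ^ n := by
      rw [inv_mul_cancel_right₀ (zpow_ne_zero _ hϖ0)]
    conv_lhs => rw [e1]
    rw [map_mul, map_mul, h1, one_mul, map_zpow₀, map_zpow₀, hram, ← zpow_natCast, ← zpow_mul]
  exact exists_zpow_val_of_pow hτ0 hτ hgen hd (hdc.trans hc)

end Dvr

section NVdvr

variable {K F : Type*} [Field K] [Field F] [Algebra K F]

/-- **NV, discrete form.**  In the setting of `norm_red_ram`, if moreover the value group of `O`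
is generated by `v ϖ` and `F / K` is algebraic: every `y ≠ 0` has `v i (y) = v i (t i) ^ a i`
and `v (N_{F/K} y) = v ϖ ^ ∑ i, [κ i : k] * a i`. -/
theorem val_norm_ram_dvr [Algebra.IsAlgebraic K F] {ι : Type*} [Fintype ι] [Nonempty ι]
    {O : ValuationSubring K} {ϖ : K} {V : ι → ValuationSubring F} {t : ι → F} {e : ι → ℕ}
    (hover : ∀ i, Over O (V i)) (hinc : ∀ i i', i ≠ i' → ¬ V i ≤ V i')
    (hϖ0 : ϖ ≠ 0) (hϖ : O.valuation ϖ < 1)
    (hdvr : ∀ a : K, a ≠ 0 → ∃ n : ℤ, O.valuation a = O.valuation ϖ ^ n)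
    (ht : ∀ i, (V i).valuation (t i) < 1)
    (hgen : ∀ i (z : F), (V i).valuation z < 1 → (V i).valuation z ≤ (V i).valuation (t i))
    (hram : ∀ i, (V i).valuation (algebraMap K F ϖ) = (V i).valuation (t i) ^ e i)
    {k : Type*} [Field k] {κ : ι → Type*} [∀ i, Field (κ i)] [∀ i, Algebra k (κ i)]
    [∀ i, Module.Finite k (κ i)]
    (π : O →+* k) (ρ : ∀ i, V i →+* κ i)
    (hπ : Function.Surjective π) (hρ : ∀ i, Function.Surjective (ρ i))
    (hc : ∀ i (a : O), ρ i ⟨algebraMap K F a, ((hover i) a).2 a.2⟩ = algebraMap k (κ i) (π a))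
    (hdeg : ∑ i, e i * Module.finrank k (κ i) = Module.finrank K F)
    {y : F} (hy : y ≠ 0) :
    ∃ a : ι → ℤ, (∀ i, (V i).valuation y = (V i).valuation (t i) ^ a i) ∧
      O.valuation (Algebra.norm K y) =
        O.valuation ϖ ^ (∑ i, (Module.finrank k (κ i) : ℤ) * a i) := by
  classical
  have hvϖ : O.valuation ϖ ≠ 0 := by rw [Ne, Valuation.zero_iff]; exact hϖ0
  have hgenO : ∀ a : K, O.valuation a < 1 → O.valuation a ≤ O.valuation ϖ := by
    intro a ha
    by_cases ha0 : a = 0
    · rw [ha0, map_zero]; exact zero_le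
    obtain ⟨n, hn⟩ := hdvr a ha0
    rw [hn] at ha ⊢
    -- `v ϖ ^ n < 1` forces `n ≥ 1`
    have hn1 : 1 ≤ n := by
      by_contra hcon
      have hle : n ≤ 0 := by omega
      have : (1 : O.ValueGroup) ≤ O.valuation ϖ ^ n := by
        obtain ⟨m, hm⟩ : ∃ m : ℕ, n = -(m : ℤ) := ⟨(-n).toNat, by omega⟩
        rw [hm, zpow_neg, zpow_natCast]
        exact (one_le_inv₀ (pow_pos (zero_lt_iff.2 hvϖ) _)).2 (pow_le_one₀ zero_le hϖ.le)
      exact lt_irrefl _ (lt_of_le_of_lt this ha)
    obtain ⟨m, hm⟩ : ∃ m : ℕ, n = (m : ℤ) + 1 := ⟨(n - 1).toNat, by omega⟩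
    rw [hm, zpow_add₀ hvϖ, zpow_one, zpow_natCast]
    calc O.valuation ϖ ^ m * O.valuation ϖ ≤ 1 * O.valuation ϖ := by
          gcongr; exact pow_le_one₀ zero_le hϖ.le
      _ = _ := one_mul _
  have ht0 : ∀ i, t i ≠ 0 := by
    intro i h0
    have h1 := hram i
    by_cases he : e i = 0
    · rw [he, pow_zero] at h1
      have := (hover i).val_lt_one_iff ϖ |>.2 hϖ
      rw [h1] at this
      exact lt_irrefl _ this
    · rw [h0, map_zero, zero_pow he, Valuation.zero_iff, map_eq_zero] at h1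
      exact hϖ0 h1
  choose a ha using fun i =>
    exists_zpow_val (hover i) hϖ0 hdvr (ht0 i) (ht i) (hgen i) (hram i) hy
  exact ⟨a, ha, val_norm_ram hover hinc hϖ0 hϖ hgenO ht hgen hram π ρ hπ hρ hc hdeg a ha⟩

end NVdvr

end Fermat.Agent.S36.H253
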